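import Mathlib.RingTheory.Valuation.ValuationSubring
import Mathlib.FieldTheory.IsAlgClosed.Basic
import Mathlib.RingTheory.Valuation.LocalSubring

/-!
# Residue fields and pivots of valuation rings
-/

set_option autoImplicit false

open Polynomial

namespace FermatAgent

/-- A field onto which a ring integrally closed in an algebraically closed field surjects is
algebraically closed. -/
theorem isAlgClosed_of_surjective {R K k : Type*} [CommRing R] [Field K] [IsAlgClosed K]
    [Algebra R K] (hinj : Function.Injective (algebraMap R K))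
    (hint : ∀ x : K, IsIntegral R x → ∃ a, algebraMap R K a = x) [Field k] (f : R →+* k)
    (hf : Function.Surjective f) : IsAlgClosed k := by
  refine IsAlgClosed.of_exists_root _ fun p hp hirr => ?_
  obtain ⟨P, hP, hdeg, hmon⟩ :=
    lifts_and_degree_eq_and_monic ((mem_lifts p).mpr (map_surjective _ hf p)) hp
  obtain ⟨x, hx⟩ := IsAlgClosed.exists_root (P.map (algebraMap R K)) (by
    rw [degree_map_eq_of_injective hinj, hdeg]
    exact (degree_pos_of_irreducible hirr).ne')
  rw [IsRoot, eval_map] at hx
  obtain ⟨a, rfl⟩ := hint x ⟨P, hmon, hx⟩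
  rw [eval₂_at_apply, ← map_zero (algebraMap R K)] at hx
  refine ⟨f a, ?_⟩
  rw [← hP, eval_map, eval₂_at_apply, hinj hx, map_zero]

/-- The residue field of a valuation ring of an algebraically closed field is algebraically
closed. -/
theorem isAlgClosed_residueField {K : Type*} [Field K] [IsAlgClosed K] (A : ValuationSubring K) :
    IsAlgClosed (IsLocalRing.ResidueField A) :=
  isAlgClosed_of_surjective (K := K) Subtype.val_injective
    (fun _ hx => IsIntegrallyClosed.isIntegral_iff.mp hx) _ IsLocalRing.residue_surjective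

variable {K : Type*} [Field K] {A : ValuationSubring K}

/-- The coefficient of largest value divides all the others. -/
theorem exists_pivot {ι : Type*} [Fintype ι] {c : ι → K} (hc : c ≠ 0) :
    ∃ i₀, c i₀ ≠ 0 ∧ ∀ i, c i / c i₀ ∈ A := by
  obtain ⟨i₁, hi₁⟩ := Function.ne_iff.1 hc
  obtain ⟨i₀, -, hmax⟩ := Finset.exists_max_image Finset.univ
    (fun i => A.valuation (c i)) ⟨i₁, Finset.mem_univ _⟩
  have hl : c i₀ ≠ 0 := fun h => hi₁ (by
    have h1 := hmax i₁ (Finset.mem_univ _)
    rw [h, map_zero, le_zero_iff] at h1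
    exact (Valuation.zero_iff _).1 h1)
  refine ⟨i₀, hl, fun i => ?_⟩
  rw [← A.valuation_le_one_iff, map_div₀,
    div_le_one₀ (zero_lt_iff.mpr ((Valuation.ne_zero_iff _).mpr hl))]
  exact hmax i (Finset.mem_univ _)

/-- The inverse of a nonintegral element maps to zero in the residue field. -/
theorem exists_inv_eq_zero {k : Type*} [Semiring k] {π : A →+* k}
    (hker : ∀ a : A, π a = 0 ↔ ¬IsUnit a) {l : K} (hl : l ∉ A) :
    ∃ μ : A, (μ : K) = l⁻¹ ∧ π μ = 0 := by
  refine ⟨⟨_, (A.mem_or_inv_mem l).resolve_left hl⟩, rfl, (hker _).2 fun hu => hl ?_⟩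
  obtain ⟨b, hb⟩ := isUnit_iff_exists_inv.1 hu
  have := eq_inv_of_mul_eq_one_right (congrArg Subtype.val hb : l⁻¹ * (b : K) = 1)
  rw [inv_inv] at this
  exact this ▸ b.2

end FermatAgent
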