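import Mathlib
import Fermat.Prelude.Def_EllipticCurve_FrobeniusTrace

/-!
# Places of `ℚ̄`, decomposition, inertia and Frobenius elements

Valuation subrings of `ℚ̄` above a rational prime correspond to maximal ideals of `ℤ̄`
(the center).  This transports the profinite invariant-theory results of Mathlib to the
language used by the frozen definitions (`ValuationSubring.IsFrobeniusAt`,
`ValuationSubring.inertiaSubgroupIn`).
-/

set_option autoImplicit false

noncomputable section

open scoped Pointwise
open IsLocalRing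

namespace FermatAgent.GaloisBasic

/-- The algebraic closure of `ℚ`. -/
abbrev Qbar : Type := AlgebraicClosure ℚ

/-- The absolute Galois group of `ℚ`. -/
abbrev GQ : Type := Qbar ≃ₐ[ℚ] Qbar

/-- The ring of all algebraic integers. -/
abbrev ZBar : Type := ↥(integralClosure ℤ Qbar)

instance qbar_isAlgebraic : Algebra.IsAlgebraic ℚ Qbar := AlgebraicClosure.isAlgebraic ℚ

instance qbar_isAlgClosure : IsAlgClosure ℚ Qbar := ⟨inferInstance, inferInstance⟩

instance qbar_isGalois : IsGalois ℚ Qbar := inferInstance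

/-- Galois acts on algebraic integers as on algebraic numbers. -/
@[simp] lemma coe_smul_zbar (σ : GQ) (b : ZBar) : ((σ • b : ZBar) : Qbar) = σ b := rfl

/-! ### The center of a valuation subring -/

/-- Algebraic integers lie in every valuation subring. -/
lemma zbar_mem (A : ValuationSubring Qbar) (b : ZBar) : (b : Qbar) ∈ A := by
  have h : IsIntegral A (b : Qbar) := IsIntegral.tower_top (R := ℤ) b.2
  obtain ⟨y, hy⟩ := IsIntegrallyClosed.isIntegral_iff.mp h
  rw [← hy]
  exact y.2

/-- The inclusion of `ℤ̄` into a valuation subring of `ℚ̄`. -/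
def zbarIncl (A : ValuationSubring Qbar) : ZBar →+* A where
  toFun b := ⟨b, zbar_mem A b⟩
  map_one' := rfl
  map_mul' _ _ := rfl
  map_zero' := rfl
  map_add' _ _ := rfl

@[simp] lemma coe_zbarIncl (A : ValuationSubring Qbar) (b : ZBar) :
    ((zbarIncl A b : A) : Qbar) = b := rfl

/-- The maximal ideal of a valuation subring intersected with `ℤ̄`. -/
def center (A : ValuationSubring Qbar) : Ideal ZBar :=
  (maximalIdeal A).comap (zbarIncl A)

/-- The centre consists of the integers which are nonunits. -/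
lemma mem_center {A : ValuationSubring Qbar} {b : ZBar} :
    b ∈ center A ↔ (b : Qbar) ∈ A.nonunits := by
  rw [← coe_zbarIncl A b, ValuationSubring.coe_mem_nonunits_iff]
  rfl

instance center_isPrime (A : ValuationSubring Qbar) : (center A).IsPrime :=
  Ideal.IsPrime.comap _

lemma mem_center_iff_residue {A : ValuationSubring Qbar} {b : ZBar} :
    b ∈ center A ↔ residue A (zbarIncl A b) = 0 :=
  (residue_eq_zero_iff _).symm

/-- `q` lies in the centre iff the place lies over `q`. -/
lemma natCast_mem_center {A : ValuationSubring Qbar} {q : ℕ} :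
    (q : ZBar) ∈ center A ↔ A.LiesOverPrime q := by
  rw [mem_center, ValuationSubring.LiesOverPrime]
  simp

lemma natCast_span_le_comap {Q : Ideal ZBar} {q : ℕ} (h : (q : ZBar) ∈ Q) :
    Ideal.span {(q : ℤ)} ≤ Q.under ℤ := by
  rw [Ideal.span_le, Set.singleton_subset_iff, SetLike.mem_coe, Ideal.mem_comap]
  simpa using h

/-- A prime containing `q` lies over `(q)`. -/
lemma under_int_eq {Q : Ideal ZBar} [Q.IsPrime] {q : ℕ} (hq : q.Prime) (h : (q : ZBar) ∈ Q) :
    Q.under ℤ = Ideal.span {(q : ℤ)} := by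
  have hmax : (Ideal.span {(q : ℤ)}).IsMaximal :=
    PrincipalIdealRing.isMaximal_of_irreducible (Nat.prime_iff_prime_int.mp hq).irreducible
  exact (hmax.eq_of_le Ideal.IsPrime.ne_top' (natCast_span_le_comap h)).symm

lemma isMaximal_of_natCast_mem {Q : Ideal ZBar} [Q.IsPrime] {q : ℕ} (hq : q.Prime)
    (h : (q : ZBar) ∈ Q) : Q.IsMaximal := by
  refine Ideal.isMaximal_of_isIntegral_of_isMaximal_comap (R := ℤ) Q ?_
  rw [← Ideal.under_def, under_int_eq hq h]
  exact PrincipalIdealRing.isMaximal_of_irreducible (Nat.prime_iff_prime_int.mp hq).irreducible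

lemma center_isMaximal {A : ValuationSubring Qbar} {q : ℕ} (hq : q.Prime)
    (hA : A.LiesOverPrime q) : (center A).IsMaximal :=
  isMaximal_of_natCast_mem hq (natCast_mem_center.mpr hA)

/-- The algebraic integers of a subfield of `ℚ̄` inside `ℤ̄`. -/
def ringOfIntegersIncl (L : IntermediateField ℚ Qbar) : NumberField.RingOfIntegers L →+* ZBar :=
  RingHom.codRestrict ((algebraMap L Qbar).comp (algebraMap (NumberField.RingOfIntegers L) L))
    (integralClosure ℤ Qbar) fun b =>
      (NumberField.RingOfIntegers.isIntegral_coe b).map (IsScalarTower.toAlgHom ℤ L Qbar)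

@[simp] lemma coe_ringOfIntegersIncl (L : IntermediateField ℚ Qbar)
    (b : NumberField.RingOfIntegers L) :
    (ringOfIntegersIncl L b : Qbar) = algebraMap L Qbar (b : L) := rfl

/-- The valuation subring is the localisation of the integers at the centre. -/
lemma mem_iff_exists_mul_eq {A : ValuationSubring Qbar} {q : ℕ} (hq : q.Prime)
    (hA : A.LiesOverPrime q) (x : Qbar) :
    x ∈ A ↔ ∃ b s : ZBar, s ∉ center A ∧ x * s = b := by
  constructor
  · intro hx
    let L : IntermediateField ℚ Qbar := IntermediateField.adjoin ℚ {x}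
    have : FiniteDimensional ℚ L :=
      IntermediateField.adjoin.finiteDimensional (Algebra.IsIntegral.isIntegral x)
    have : NumberField L := {}
    let P : Ideal (NumberField.RingOfIntegers L) := (center A).comap (ringOfIntegersIncl L)
    have hP : P ≠ ⊥ := by
      intro h
      have hmem : (q : NumberField.RingOfIntegers L) ∈ P := by
        rw [Ideal.mem_comap, map_natCast]
        exact natCast_mem_center.mpr hA
      rw [h, Ideal.mem_bot, Nat.cast_eq_zero] at hmem
      exact hq.ne_zero hmem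
    let v : IsDedekindDomain.HeightOneSpectrum (NumberField.RingOfIntegers L) :=
      ⟨P, Ideal.IsPrime.comap _, hP⟩
    let x' : L := ⟨x, IntermediateField.mem_adjoin_simple_self ℚ x⟩
    obtain ⟨n, d, h | h⟩ := v.exists_primeCompl_mul_eq_or_mul_eq x'
    · exact ⟨ringOfIntegersIncl L n, ringOfIntegersIncl L d, d.2, congrArg (algebraMap L Qbar) h⟩
    · refine ⟨ringOfIntegersIncl L d, ringOfIntegersIncl L n, fun hn => d.2 ?_,
        congrArg (algebraMap L Qbar) h⟩
      have hx' : x * (ringOfIntegersIncl L n : Qbar) = ringOfIntegersIncl L (d : _) :=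
        congrArg (algebraMap L Qbar) h
      show ringOfIntegersIncl L (d : _) ∈ center A
      have key : zbarIncl A (ringOfIntegersIncl L (d : _)) =
          ⟨x, hx⟩ * zbarIncl A (ringOfIntegersIncl L n) := Subtype.ext hx'.symm
      rw [center, Ideal.mem_comap, key]
      exact Ideal.mul_mem_left _ _ hn
  · rintro ⟨b, s, hs, h⟩
    have hu : IsUnit (zbarIncl A s) :=
      (IsLocalRing.notMem_maximalIdeal (x := zbarIncl A s)).mp hs
    obtain ⟨u, hu⟩ := hu
    have h1 : (s : Qbar) * (((u⁻¹ : Aˣ) : A) : Qbar) = 1 := by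
      rw [← coe_zbarIncl A s, ← hu]
      exact congrArg Subtype.val u.mul_inv
    have h2 : x = (b : Qbar) * (((u⁻¹ : Aˣ) : A) : Qbar) := by
      rw [← h, mul_assoc, h1, mul_one]
    rw [h2]
    exact mul_mem (zbar_mem A b) (u⁻¹ : Aˣ).val.2

/-- A valuation subring above a prime is determined by its center. -/
lemma eq_of_center_eq {A A' : ValuationSubring Qbar} {q : ℕ} (hq : q.Prime)
    (hA : A.LiesOverPrime q) (h : center A = center A') : A = A' := by
  have hA' : A'.LiesOverPrime q := by rw [← natCast_mem_center, ← h, natCast_mem_center]; exact hA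
  ext x
  rw [mem_iff_exists_mul_eq hq hA, mem_iff_exists_mul_eq hq hA', h]

/-- The centre is equivariant. -/
lemma center_smul (σ : GQ) (A : ValuationSubring Qbar) : center (σ • A) = σ • center A := by
  ext b
  have hmem : ∀ (B : ValuationSubring Qbar) (x : Qbar),
      x ∈ B.nonunits ↔ x = 0 ∨ x⁻¹ ∉ B := fun B x => by
    rw [B.mem_nonunits_iff, ← not_le, ← B.valuation_le_one_iff, map_inv₀]
    rcases eq_or_ne x 0 with rfl | hx
    · simp
    · have hv : 0 < B.valuation x := zero_lt_iff.mpr (by simp [hx])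
      rw [inv_le_one₀ hv]
      simp [hx]
  rw [Ideal.mem_pointwise_smul_iff_inv_smul_mem, mem_center, mem_center, hmem, hmem, coe_smul_zbar,
    ValuationSubring.mem_pointwise_smul_iff_inv_smul_mem, EmbeddingLike.map_eq_zero_iff,
    AlgEquiv.smul_def, map_inv₀]

/-- Conjugates of a place lie over the same prime. -/
lemma liesOverPrime_smul {A : ValuationSubring Qbar} {q : ℕ} (σ : GQ) (hA : A.LiesOverPrime q) :
    (σ • A).LiesOverPrime q := by
  rw [← natCast_mem_center, center_smul, Ideal.mem_pointwise_smul_iff_inv_smul_mem]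
  have : σ⁻¹ • (q : ZBar) = q := map_natCast (MulSemiringAction.toRingHom GQ ZBar σ⁻¹) q
  rw [this]
  exact natCast_mem_center.mpr hA

/-- An automorphism fixes a place iff it fixes the centre. -/
lemma smul_eq_iff {A : ValuationSubring Qbar} {q : ℕ} (hq : q.Prime) (hA : A.LiesOverPrime q)
    (σ : GQ) : σ • A = A ↔ σ • center A = center A := by
  refine ⟨fun h => by rw [← center_smul, h], fun h => ?_⟩
  exact eq_of_center_eq hq (liesOverPrime_smul σ hA) (by rw [center_smul, h])

/-! ### The residue action -/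

/-- `σ` stabilises the place and induces `x ↦ x ^ n` on its residue field iff
`σ b ≡ b ^ n` modulo the centre for all algebraic integers `b`. -/
lemma residue_action_iff {A : ValuationSubring Qbar} {q : ℕ} (hq : q.Prime)
    (hA : A.LiesOverPrime q) (σ : GQ) {n : ℕ} (hn : n ≠ 0) :
    (∃ hσ : σ ∈ A.decompositionSubgroup ℚ,
      ∀ x : ResidueField A, (⟨σ, hσ⟩ : A.decompositionSubgroup ℚ) • x = x ^ n) ↔
    ∀ b : ZBar, σ • b - b ^ n ∈ center A := by
  constructor
  · rintro ⟨hσ, h⟩ b
    have := h (residue A (zbarIncl A b))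
    rw [← IsLocalRing.ResidueField.residue_smul, ← map_pow, ← sub_eq_zero, ← map_sub] at this
    rw [mem_center_iff_residue, map_sub, map_pow]
    exact this
  · intro h
    have hstab : σ • center A = center A := by
      have hiff : ∀ b : ZBar, σ • b ∈ center A ↔ b ∈ center A := fun b => by
        have hb := h b
        refine ⟨fun h' => Ideal.IsPrime.mem_of_pow_mem inferInstance n ?_, fun h' => ?_⟩
        · simpa using Ideal.sub_mem _ h' hb
        · simpa using Ideal.add_mem _ hb (Ideal.pow_mem_of_mem _ h' n (Nat.pos_of_ne_zero hn))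
      ext b
      rw [Ideal.mem_pointwise_smul_iff_inv_smul_mem, ← hiff, smul_inv_smul]
    have hσ : σ ∈ A.decompositionSubgroup ℚ := (smul_eq_iff hq hA σ).mpr hstab
    refine ⟨hσ, fun x => ?_⟩
    obtain ⟨⟨a, ha⟩, rfl⟩ := residue_surjective x
    obtain ⟨b, s, hs, hab⟩ := (mem_iff_exists_mul_eq hq hA a).mp ha
    rw [← IsLocalRing.ResidueField.residue_smul]
    set g : A.decompositionSubgroup ℚ := ⟨σ, hσ⟩
    set a' : A := ⟨a, ha⟩
    have e1 : a' * zbarIncl A s = zbarIncl A b := Subtype.ext hab
    have e2 : (g • a') * zbarIncl A (σ • s) = zbarIncl A (σ • b) := by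
      apply Subtype.ext
      show σ a * σ (s : Qbar) = σ (b : Qbar)
      rw [← map_mul, hab]
    have hs' : residue A (zbarIncl A s) ≠ 0 := fun hh => hs (mem_center_iff_residue.mpr hh)
    have hres : ∀ c : ZBar,
        residue A (zbarIncl A (σ • c)) = residue A (zbarIncl A c) ^ n := fun c => by
      have := mem_center_iff_residue.mp (h c)
      rwa [map_sub, map_sub, sub_eq_zero, map_pow, map_pow] at this
    have e3 := congrArg (residue A) e2
    rw [map_mul, hres, hres, ← e1, map_mul, mul_pow] at e3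
    exact mul_right_cancel₀ (pow_ne_zero n hs') e3

/-- `σ` is a Frobenius element iff `σ b ≡ b ^ q` modulo the centre for all algebraic integers. -/
lemma isFrobeniusAt_iff {A : ValuationSubring Qbar} {q : ℕ} (hq : q.Prime)
    (hA : A.LiesOverPrime q) (σ : GQ) :
    A.IsFrobeniusAt σ q ↔ ∀ b : ZBar, σ • b - b ^ q ∈ center A :=
  residue_action_iff hq hA σ hq.ne_zero

/-- `σ` is in inertia iff `σ b ≡ b` modulo the centre for all algebraic integers. -/
lemma mem_inertiaSubgroupIn_iff {A : ValuationSubring Qbar} {q : ℕ} (hq : q.Prime)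
    (hA : A.LiesOverPrime q) (σ : GQ) :
    σ ∈ A.inertiaSubgroupIn ℚ ↔ ∀ b : ZBar, σ • b - b ∈ center A := by
  have key := residue_action_iff hq hA σ one_ne_zero
  simp only [pow_one] at key
  rw [← key]
  constructor
  · rintro ⟨⟨g, hg⟩, hmem, rfl⟩
    exact ⟨hg, fun x => RingEquiv.congr_fun (MonoidHom.mem_ker.mp hmem) x⟩
  · rintro ⟨hσ, h⟩
    exact ⟨⟨σ, hσ⟩, MonoidHom.mem_ker.mpr (RingEquiv.ext h), rfl⟩

/-! ### Invariance and continuity -/

/-- An element fixed by `Gal(ℚ̄/L)` lies in `L`. -/
lemma mem_of_forall_fixing {L : IntermediateField ℚ Qbar} {x : Qbar}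
    (h : ∀ σ ∈ L.fixingSubgroup, σ x = x) : x ∈ L := by
  rw [← InfiniteGalois.fixedField_fixingSubgroup L]
  exact fun σ => h σ.1 σ.2

instance zbar_isInvariant : Algebra.IsInvariant ℤ ZBar GQ where
  isInvariant b hb := by
    have h : (b : Qbar) ∈ (⊥ : IntermediateField ℚ Qbar) :=
      mem_of_forall_fixing fun σ _ => congrArg Subtype.val (hb σ)
    obtain ⟨r, hr⟩ := IntermediateField.mem_bot.mp h
    have hint : IsIntegral ℤ r :=
      (isIntegral_algebraMap_iff (algebraMap ℚ Qbar).injective).mp (by rw [hr]; exact b.2)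
    obtain ⟨m, hm⟩ := IsIntegrallyClosed.isIntegral_iff.mp hint
    exact ⟨m, Subtype.ext (by rw [← hr, ← hm]; simp)⟩

/-- The Galois action on algebraic integers is continuous. -/
lemma continuousSMul_zbar [TopologicalSpace ZBar] [DiscreteTopology ZBar] :
    ContinuousSMul GQ ZBar := by
  rw [continuousSMul_iff_stabilizer_isOpen]
  intro b
  have : FiniteDimensional ℚ (IntermediateField.adjoin ℚ {(b : Qbar)}) :=
    IntermediateField.adjoin.finiteDimensional (Algebra.IsIntegral.isIntegral _)
  refine Subgroup.isOpen_mono (fun σ hσ => ?_)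
    (IntermediateField.fixingSubgroup_isOpen (IntermediateField.adjoin ℚ {(b : Qbar)}))
  exact Subtype.ext ((IntermediateField.mem_fixingSubgroup_iff _ σ).mp hσ _
    (IntermediateField.mem_adjoin_simple_self ℚ _))

/-! ### Existence and conjugacy -/

/-- Every prime has a place of `ℚ̄` over it. -/
lemma exists_liesOverPrime {q : ℕ} (hq : q.Prime) :
    ∃ A : ValuationSubring Qbar, A.LiesOverPrime q := by
  have hne : Ideal.span {(q : ZBar)} ≠ ⊤ := by
    intro h
    obtain ⟨c, hc⟩ := Ideal.mem_span_singleton'.mp ((Ideal.eq_top_iff_one _).mp h)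
    have hc' : (c : Qbar) * (q : Qbar) = 1 := by
      have := congrArg Subtype.val hc
      simpa using this
    have hq0 : (q : Qbar) ≠ 0 := Nat.cast_ne_zero.mpr hq.ne_zero
    have hceq : (c : Qbar) = algebraMap ℚ Qbar ((q : ℚ)⁻¹) := by
      rw [map_inv₀, map_natCast]
      exact eq_inv_of_mul_eq_one_left hc'
    have hint : IsIntegral ℤ ((q : ℚ)⁻¹) :=
      (isIntegral_algebraMap_iff (algebraMap ℚ Qbar).injective).mp (by rw [← hceq]; exact c.2)
    obtain ⟨m, hm⟩ := IsIntegrallyClosed.isIntegral_iff.mp hint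
    have h1 : (m : ℚ) * q = 1 := by
      rw [show ((m : ℚ)) = (q : ℚ)⁻¹ from hm]
      exact inv_mul_cancel₀ (Nat.cast_ne_zero.mpr hq.ne_zero)
    have h2 : m * (q : ℤ) = 1 := by exact_mod_cast h1
    exact (Nat.prime_iff_prime_int.mp hq).not_isUnit (IsUnit.of_mul_eq_one_right m h2)
  obtain ⟨B, -, hB⟩ := Ideal.image_subset_nonunits_valuationSubring
    (A := (integralClosure ℤ Qbar).toSubring) (Ideal.span {(q : ZBar)}) hne
  refine ⟨B, hB ⟨(q : ZBar), Ideal.subset_span rfl, ?_⟩⟩
  simp

/-- The places over a prime are conjugate. -/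
lemma exists_smul_eq {A A' : ValuationSubring Qbar} {q : ℕ} (hq : q.Prime)
    (hA : A.LiesOverPrime q) (hA' : A'.LiesOverPrime q) : ∃ σ : GQ, σ • A = A' := by
  let : TopologicalSpace ZBar := ⊥
  have : DiscreteTopology ZBar := ⟨rfl⟩
  have := continuousSMul_zbar
  obtain ⟨g, hg⟩ := Algebra.IsInvariant.exists_smul_of_under_eq_of_profinite (A := ℤ) (G := GQ)
    (center A) (center A') (by
      rw [under_int_eq hq (natCast_mem_center.mpr hA),
        under_int_eq hq (natCast_mem_center.mpr hA')])
  exact ⟨g, eq_of_center_eq hq (liesOverPrime_smul g hA) (by rw [center_smul, hg])⟩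

/-- Every place over a prime has a Frobenius element. -/
lemma exists_isFrobeniusAt {A : ValuationSubring Qbar} {q : ℕ} (hq : q.Prime)
    (hA : A.LiesOverPrime q) : ∃ σ : GQ, A.IsFrobeniusAt σ q := by
  have : Fact q.Prime := ⟨hq⟩
  let : TopologicalSpace ZBar := ⊥
  have : DiscreteTopology ZBar := ⟨rfl⟩
  have := continuousSMul_zbar
  have := center_isMaximal hq hA
  let := Ideal.Quotient.field (center A)
  let P : Ideal ℤ := (center A).under ℤ
  have : P.IsMaximal := by
    rw [show P = _ from under_int_eq hq (natCast_mem_center.mpr hA)]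
    exact PrincipalIdealRing.isMaximal_of_irreducible (Nat.prime_iff_prime_int.mp hq).irreducible
  let := Ideal.Quotient.field P
  have : CharP (ZBar ⧸ center A) q := by
    refine (CharP.charP_iff_prime_eq_zero hq).mpr ?_
    rw [← map_natCast (Ideal.Quotient.mk (center A)), Ideal.Quotient.eq_zero_iff_mem]
    exact natCast_mem_center.mpr hA
  have : ExpChar (ZBar ⧸ center A) q := ExpChar.prime hq
  let f : (ZBar ⧸ center A) →ₐ[ℤ ⧸ P] (ZBar ⧸ center A) :=
    { frobenius (ZBar ⧸ center A) q with
      commutes' := fun r => RingHom.congr_fun (Ideal.Quotient.ringHom_ext (RingHom.ext_int _ _) :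
        (frobenius (ZBar ⧸ center A) q).comp (algebraMap (ℤ ⧸ P) (ZBar ⧸ center A)) =
          algebraMap (ℤ ⧸ P) (ZBar ⧸ center A)) r }
  have : Algebra.IsIntegral (ℤ ⧸ P) (ZBar ⧸ center A) := by
    refine ⟨fun x => ?_⟩
    obtain ⟨x, rfl⟩ := Ideal.Quotient.mk_surjective x
    exact ((Algebra.IsIntegral.isIntegral (R := ℤ) x).map
      (Ideal.Quotient.mkₐ ℤ (center A))).tower_top
  have : Algebra.IsAlgebraic (ℤ ⧸ P) (ZBar ⧸ center A) := Algebra.IsIntegral.isAlgebraic
  let e : (ZBar ⧸ center A) ≃ₐ[ℤ ⧸ P] (ZBar ⧸ center A) :=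
    AlgEquiv.ofBijective f (Algebra.IsAlgebraic.algHom_bijective f)
  obtain ⟨⟨σ, hσ⟩, h⟩ :=
    Ideal.Quotient.stabilizerHom_surjective_of_profinite (A := ℤ) (G := GQ) P (center A) e
  refine ⟨σ, (isFrobeniusAt_iff hq hA σ).mpr fun b => ?_⟩
  rw [← Ideal.Quotient.eq]
  exact DFunLike.congr_fun h (Ideal.Quotient.mk (center A) b)

/-- The decomposition group preserves the valuation ring. -/
theorem apply_mem_of_decomposition {A : ValuationSubring (AlgebraicClosure ℚ)}
    {σ : AlgebraicClosure ℚ ≃ₐ[ℚ] AlgebraicClosure ℚ} (hσ : σ ∈ A.decompositionSubgroup ℚ)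
    {x : AlgebraicClosure ℚ} (hx : x ∈ A) : σ x ∈ A :=
  ((⟨σ, hσ⟩ : A.decompositionSubgroup ℚ) • (⟨x, hx⟩ : A)).2

end FermatAgent.GaloisBasic
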