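import Mathlib

/-!
# Counting ideals of a given norm
-/

set_option autoImplicit false

noncomputable section

open NumberField Ideal

namespace FermatAgent.GaloisBasic

variable (K : Type) [Field K] [NumberField K]

/-- The number of integral ideals of norm `n`. -/
def idealCount (n : ℕ) : ℕ := Nat.card {I : Ideal (𝓞 K) // absNorm I = n}

/-- At most `[K : ℚ]` ideals have a given prime norm. -/
lemma idealCount_prime_le {p : ℕ} (hp : p.Prime) :
    idealCount K p ≤ Module.finrank ℤ (𝓞 K) := by
  classical
  have hfin := Ideal.finite_setOfPred_absNorm_eq (S := 𝓞 K) p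
  have h : ∏ I ∈ hfin.toFinset, I ∣ Ideal.span {(p : 𝓞 K)} :=
    Finset.prod_primes_dvd _ (fun I hI => by
      have hI : absNorm I = p := hfin.mem_toFinset.mp hI
      refine Ideal.prime_of_isPrime (fun h => hp.ne_zero (by rw [← hI, h, absNorm_bot])) ?_
      exact isPrime_of_irreducible_absNorm (hI ▸ hp : Irreducible (absNorm I)))
    fun I hI => Ideal.dvd_iff_le.mpr ((Ideal.span_singleton_le_iff_mem _).mpr
      ((hfin.mem_toFinset.mp hI : absNorm I = p) ▸ Ideal.absNorm_mem I))
  have hprod : absNorm (∏ I ∈ hfin.toFinset, I) = p ^ hfin.toFinset.card := by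
    rw [map_prod]
    exact Finset.prod_eq_pow_card fun I hI => hfin.mem_toFinset.mp hI
  have := map_dvd absNorm h
  rw [hprod, Ideal.absNorm_span_natCast, Nat.pow_dvd_pow_iff_le_right hp.one_lt] at this
  exact ((Nat.card_coe_set_eq _).trans (Set.ncard_eq_toFinset_card _ hfin)).trans_le this

end FermatAgent.GaloisBasic
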