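import Fermat.Agent.GaloisBasic.FiniteFrobenius
import Fermat.Agent.DS.Cheb.PrimeCount

/-!
# Frobenius density theorem

For a finite Galois extension `L/ℚ` and `g ∈ Gal(L/ℚ)`, infinitely many primes have a Frobenius
element generating the same cyclic subgroup as `g`.
-/

set_option autoImplicit false

noncomputable section

open scoped Pointwise NumberField ArithmeticFunction.Moebius
open Filter Topology

namespace FermatAgent.GaloisBasic

open FermatAgent.DS.Cheb

section Combinatorics

variable {G : Type} [Group G] [Finite G] (g : G)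

/-- The subgroup of order `d` of the cyclic group generated by `g`. -/
def cyclicPart (d : ℕ) : Subgroup G := Subgroup.zpowers (g ^ (orderOf g / d))

lemma mem_cyclicPart_iff {d : ℕ} (hd : d ∣ orderOf g) (x : G) :
    x ∈ cyclicPart g d ↔ x ∈ Subgroup.zpowers g ∧ orderOf x ∣ d := by
  obtain ⟨m, hm⟩ := hd
  have hpos : 0 < orderOf g := orderOf_pos g
  have hdpos : 0 < d := Nat.pos_of_ne_zero fun h => by rw [h, zero_mul] at hm; omega
  have hdiv : orderOf g / d = m := by rw [hm, Nat.mul_div_cancel_left _ hdpos]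
  rw [cyclicPart, hdiv]
  constructor
  · intro hx
    obtain ⟨i, hi⟩ := (isOfFinOrder_of_finite _).mem_powers_iff_mem_zpowers.mpr hx
    have hi' : x = g ^ (m * i) := by rw [pow_mul]; exact hi.symm
    refine ⟨hi' ▸ pow_mem (Subgroup.mem_zpowers g) _, orderOf_dvd_of_pow_eq_one ?_⟩
    rw [hi', ← pow_mul, show m * i * d = orderOf g * i by rw [hm]; ring, pow_mul,
      pow_orderOf_eq_one, one_pow]
  · rintro ⟨hx, hord⟩
    obtain ⟨i, hi⟩ := (isOfFinOrder_of_finite _).mem_powers_iff_mem_zpowers.mpr hx
    have hi' : x = g ^ i := hi.symm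
    have h1 : g ^ (i * d) = 1 := by rw [pow_mul, ← hi']; exact orderOf_dvd_iff_pow_eq_one.mp hord
    have h2 := orderOf_dvd_of_pow_eq_one h1
    rw [hm, mul_comm i d] at h2
    obtain ⟨k, hk⟩ := Nat.dvd_of_mul_dvd_mul_left hdpos h2
    rw [hi', hk, pow_mul]
    exact pow_mem (Subgroup.mem_zpowers _) k

open Classical in
lemma sum_moebius_mem_cyclicPart (x : G) :
    ∑ d ∈ (orderOf g).divisors, (μ (orderOf g / d) : ℤ) * (if x ∈ cyclicPart g d then 1 else 0) =
      if Subgroup.zpowers x = Subgroup.zpowers g then 1 else 0 := by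
  set n := orderOf g
  have hn : 0 < n := orderOf_pos g
  by_cases hx : x ∈ Subgroup.zpowers g
  · have hen : orderOf x ∣ n := orderOf_dvd_of_mem_zpowers hx
    set e := orderOf x
    have he : 0 < e := orderOf_pos x
    have h1 : ∀ d ∈ n.divisors, (x ∈ cyclicPart g d ↔ e ∣ n / (n / d)) := fun d hd => by
      rw [mem_cyclicPart_iff g (Nat.dvd_of_mem_divisors hd),
        Nat.div_div_self (Nat.dvd_of_mem_divisors hd) hn.ne']
      simp [hx, e]
    rw [Finset.sum_congr rfl fun d hd => by rw [if_congr (h1 d hd) rfl rfl],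
      Nat.sum_div_divisors n fun m => (μ m : ℤ) * if e ∣ n / m then 1 else 0]
    have hfilter : n.divisors.filter (fun m => e ∣ n / m) = (n / e).divisors := by
      ext m
      have hne : n / e ≠ 0 := (Nat.div_pos (Nat.le_of_dvd hn hen) he).ne'
      simp only [Finset.mem_filter, Nat.mem_divisors, ne_eq, hn.ne', not_false_eq_true,
        and_true, hne]
      constructor
      · rintro ⟨hm, hdvd⟩
        rw [Nat.dvd_div_iff_mul_dvd hen]
        rwa [Nat.dvd_div_iff_mul_dvd hm, mul_comm] at hdvd
      · intro hm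
        have hm' := (Nat.dvd_div_iff_mul_dvd hen).mp hm
        have hmn : m ∣ n := dvd_trans (dvd_mul_left m e) hm'
        exact ⟨hmn, (Nat.dvd_div_iff_mul_dvd hmn).mpr (by rwa [mul_comm])⟩
    simp only [mul_ite, mul_one, mul_zero]
    rw [← Finset.sum_filter, hfilter]
    have key : ∑ m ∈ (n / e).divisors, (μ m : ℤ) = if n / e = 1 then 1 else 0 := by
      rw [← ArithmeticFunction.coe_mul_zeta_apply, ArithmeticFunction.moebius_mul_coe_zeta,
        ArithmeticFunction.one_apply]
    rw [key]
    refine if_congr ?_ rfl rfl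
    constructor
    · intro h
      have : e = n := by
        obtain ⟨k, hk⟩ := hen
        rw [hk, Nat.mul_div_cancel_left _ he] at h
        rw [hk, h, mul_one]
      exact Subgroup.eq_of_le_of_card_ge (Subgroup.zpowers_le.mpr hx)
        (by rw [Nat.card_zpowers, Nat.card_zpowers]; exact this.ge)
    · intro h
      have : e = n := by
        have := congrArg (fun H : Subgroup G => Nat.card H) h
        simpa [Nat.card_zpowers] using! this
      rw [this, Nat.div_self hn]
  · have hne : Subgroup.zpowers x ≠ Subgroup.zpowers g := fun h => hx (h ▸ Subgroup.mem_zpowers x)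
    rw [if_neg hne]
    refine Finset.sum_eq_zero fun d hd => ?_
    rw [if_neg, mul_zero]
    exact fun h => hx ((mem_cyclicPart_iff g (Nat.dvd_of_mem_divisors hd) x).mp h).1

open Classical in
lemma sum_moebius_card_conj (φ : G) :
    ∑ d ∈ (orderOf g).divisors,
      (μ (orderOf g / d) : ℤ) * (Nat.card {t : G // t * φ * t⁻¹ ∈ cyclicPart g d} : ℤ) =
      (Nat.card {t : G // Subgroup.zpowers (t * φ * t⁻¹) = Subgroup.zpowers g} : ℤ) := by
  have := Fintype.ofFinite G
  simp only [Nat.card_eq_fintype_card, Fintype.card_subtype, Finset.natCast_card_filter]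
  simp_rw [Finset.mul_sum]
  rw [Finset.sum_comm]
  exact Finset.sum_congr rfl fun t _ => sum_moebius_mem_cyclicPart g _

open Classical in
lemma sum_moebius_card_pos :
    0 < ∑ d ∈ (orderOf g).divisors,
      (μ (orderOf g / d) : ℤ) * (Nat.card (cyclicPart g d) : ℤ) := by
  have := Fintype.ofFinite G
  simp only [Nat.card_eq_fintype_card, Fintype.card_subtype, Finset.natCast_card_filter]
  simp_rw [Finset.mul_sum]
  rw [Finset.sum_comm, Finset.sum_congr rfl fun x _ => sum_moebius_mem_cyclicPart g x]
  exact Finset.sum_pos' (fun x _ => by split_ifs <;> norm_num) ⟨g, Finset.mem_univ g, by simp⟩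

end Combinatorics

variable (L : IntermediateField ℚ Qbar) [FiniteDimensional ℚ L] [IsGalois ℚ L]

/-- **Frobenius density theorem.** Outside any finite set of primes there is a prime, unramified in
`L`, with a Frobenius element generating the same cyclic subgroup of `Gal(L/ℚ)` as `g`. -/
theorem exists_frobenius_generating (g : L ≃ₐ[ℚ] L) (S : Finset ℕ) :
    ∃ (q : ℕ) (A : ValuationSubring Qbar) (σ : GQ), q.Prime ∧ q ∉ S ∧ A.LiesOverPrime q ∧
      A.IsFrobeniusAt σ q ∧ InertiaTrivial L q ∧
      Subgroup.zpowers (AlgEquiv.restrictNormalHom L σ) = Subgroup.zpowers g := by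
  classical
  have : NumberField L := {}
  obtain ⟨S₀, hS₀⟩ := exists_finite_inertiaTrivial L
  by_contra hno
  push Not at hno
  let K : ℕ → IntermediateField ℚ L := fun d => IntermediateField.fixedField (cyclicPart g d)
  have hNF : ∀ d, NumberField (K d) := fun d => {}
  let w : ℕ → ℂ := fun d => (μ (orderOf g / d) : ℤ) * (Nat.card (cyclicPart g d) : ℂ)
  -- the linear terms cancel at primes outside `S ∪ S₀`
  have hzero : ∀ p : ℕ, p.Prime → p ∉ S → p ∉ S₀ →
      ∑ d ∈ (orderOf g).divisors, w d * (idealCount (K d) p : ℂ) = 0 := by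
    intro p hp hpS hpS₀
    have hU := hS₀ p hp hpS₀
    obtain ⟨A, hA⟩ := exists_liesOverPrime hp
    obtain ⟨σ, hσ⟩ := exists_isFrobeniusAt hp hA
    have hid := sum_moebius_card_conj g (AlgEquiv.restrictNormalHom L σ)
    have hempty : IsEmpty {t : L ≃ₐ[ℚ] L //
        Subgroup.zpowers (t * AlgEquiv.restrictNormalHom L σ * t⁻¹) = Subgroup.zpowers g} := by
      refine ⟨fun ⟨t, ht⟩ => ?_⟩
      obtain ⟨τ, hτ⟩ := AlgEquiv.restrictNormalHom_surjective (K₁ := L) Qbar t
      refine hno p (τ • A) (τ * σ * τ⁻¹) hp hpS (liesOverPrime_smul τ hA)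
        (conj_isFrobeniusAt hp hA hσ τ) hU ?_
      rw [map_mul, map_mul, map_inv, hτ]
      exact ht
    rw [Nat.card_of_isEmpty] at hid
    have hid' := congrArg (fun z : ℤ => (z : ℂ)) hid
    push_cast at hid'
    refine Eq.trans (Finset.sum_congr rfl fun d _ => ?_) hid'
    simp only [w]
    rw [← idealCount_fixedField_mul_card (cyclicPart g d) hp hA hU hσ]
    push_cast
    ring
  let R : ℕ → ℝ := fun d => ‖w d‖ * 2 ^ Module.finrank ℤ (𝓞 (K d))
  have hle : ∀ d p, p.Prime → ‖w d * (idealCount (K d) p : ℂ)‖ ≤ R d := fun d p hp => by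
    rw [norm_mul, Complex.norm_natCast]
    exact mul_le_mul_of_nonneg_left (by exact_mod_cast idealCount_le (K d) hp) (norm_nonneg _)
  let f : ℕ → ℕ → ℂ := fun d p => w d * (idealCount (K d) p : ℂ)
  obtain ⟨T, hT⟩ := exists_primeSumC_sub_le (g := fun p => ∑ d ∈ (orderOf g).divisors, f d p)
    (g' := fun _ => 0) (R := ∑ d ∈ (orderOf g).divisors, R d)
    (fun p hp => (norm_sum_le _ _).trans (Finset.sum_le_sum fun d _ => hle d p hp))
    (fun p _ => by rw [norm_zero]; exact Finset.sum_nonneg fun d _ => by positivity)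
    (S ∪ S₀) fun p hp hps => by
      rw [Finset.mem_union, not_or] at hps
      exact hzero p hp hps.1 hps.2
  choose B hB using fun d => exists_abs_primeSum_idealCount_le (K d)
  let W := ∑ d ∈ (orderOf g).divisors, w d
  have hW : W ≠ 0 := by
    have h := (sum_moebius_card_pos g).ne'
    simp only [W, w]
    exact_mod_cast h
  have hev : ∀ᶠ s in 𝓝[>] (1 : ℝ), ‖W‖ * |Real.log (1 / (s - 1))| ≤
      T + ∑ d ∈ (orderOf g).divisors, ‖w d‖ * B d := by
    filter_upwards [(Filter.eventually_all_finset (orderOf g).divisors).2 fun d _ => hB d,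
      self_mem_nhdsWithin] with s hs (hs1 : 1 < s)
    rw [← Real.norm_eq_abs, ← Complex.norm_real, ← norm_mul, Finset.sum_mul]
    refine (norm_le_norm_add_norm_sub' _
      (primeSumC (fun p => ∑ d ∈ (orderOf g).divisors, f d p) s)).trans (add_le_add ?_ ?_)
    · simpa [primeSumC] using hT s hs1
    · rw [show primeSumC (fun p => ∑ d ∈ (orderOf g).divisors, f d p) s = _ from
        primeSumC_sum _ w (fun d p => (idealCount (K d) p : ℂ))
          (R := ∑ d ∈ (orderOf g).divisors, (2 : ℝ) ^ Module.finrank ℤ (𝓞 (K d)))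
          (fun d hd p hp => by
            rw [Complex.norm_natCast]
            exact le_trans (by exact_mod_cast idealCount_le (K d) hp)
              (Finset.single_le_sum (f := fun d => (2 : ℝ) ^ Module.finrank ℤ (𝓞 (K d)))
                (fun d _ => by positivity) hd)) hs1, ← Finset.sum_sub_distrib]
      refine (norm_sum_le _ _).trans (Finset.sum_le_sum fun d hd => ?_)
      rw [← mul_sub, norm_mul, norm_sub_rev]
      exact mul_le_mul_of_nonneg_left (hs d hd) (norm_nonneg _)
  have hlog : Tendsto (fun s : ℝ => ‖W‖ * |Real.log (1 / (s - 1))|) (𝓝[>] 1) atTop := by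
    refine Tendsto.const_mul_atTop (norm_pos_iff.2 hW) ?_
    simp only [one_div, Real.log_inv, abs_neg]
    refine tendsto_abs_atBot_atTop.comp (Real.tendsto_log_nhdsGT_zero.comp ?_)
    refine tendsto_nhdsWithin_iff.mpr ⟨?_, ?_⟩
    · exact ((continuous_id.sub continuous_const).tendsto' (1 : ℝ) 0 (sub_self 1)).mono_left
        nhdsWithin_le_nhds
    · filter_upwards [self_mem_nhdsWithin] with s (hs : 1 < s) using sub_pos.mpr hs
  obtain ⟨s, h1, h2⟩ := (hev.and (hlog.eventually_gt_atTop _)).exists
  exact h2.not_ge h1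

end FermatAgent.GaloisBasic
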