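import Mathlib
import Fermat.Agent.GaloisBasic.Frobenius

/-!
# Inertia at finite levels and Minkowski's theorem for subgroups of `G_ℚ`

A place of the algebraic closure has a centre `centerIn` on a finite extension `L` of the
rationals, and inertia and Frobenius elements act there as expected. Inertia surjects onto the
inertia of a normal subextension (`exists_mem_inertiaSubgroupIn_restrictNormal_eq`), so
Minkowski's theorem gives `finrank_eq_one_of_inertia_le`. Hence an open subgroup of `G_ℚ`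
containing every inertia group is everything (`eq_top_of_inertia_le`) and homomorphisms with
open kernel that are unramified everywhere are trivial (`monoidHom_eq_one_of_unramified`).
-/

set_option autoImplicit false

noncomputable section

open scoped Pointwise NumberField
open IsLocalRing

namespace FermatAgent.GaloisBasic

/-- Conjugation carries inertia to that of the conjugate place. -/
lemma conj_mem_inertiaSubgroupIn {A : ValuationSubring Qbar} {q : ℕ} (hq : q.Prime)
    (hA : A.LiesOverPrime q) {σ : GQ} (hσ : σ ∈ A.inertiaSubgroupIn ℚ) (τ : GQ) :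
    τ * σ * τ⁻¹ ∈ (τ • A).inertiaSubgroupIn ℚ := by
  rw [mem_inertiaSubgroupIn_iff hq (liesOverPrime_smul τ hA)]
  intro b
  rw [center_smul, Ideal.mem_pointwise_smul_iff_inv_smul_mem, smul_sub, mul_smul, mul_smul,
    inv_smul_smul]
  exact (mem_inertiaSubgroupIn_iff hq hA σ).mp hσ _

/-- Conjugation carries Frobenius elements to those of the conjugate place. -/
lemma conj_isFrobeniusAt {A : ValuationSubring Qbar} {q : ℕ} (hq : q.Prime)
    (hA : A.LiesOverPrime q) {σ : GQ} (hσ : A.IsFrobeniusAt σ q) (τ : GQ) :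
    (τ • A).IsFrobeniusAt (τ * σ * τ⁻¹) q := by
  rw [isFrobeniusAt_iff hq (liesOverPrime_smul τ hA)]
  intro b
  rw [center_smul, Ideal.mem_pointwise_smul_iff_inv_smul_mem, smul_sub, mul_smul, mul_smul,
    inv_smul_smul, smul_pow']
  exact (isFrobeniusAt_iff hq hA σ).mp hσ _

/-- Inertia lies in the decomposition group. -/
lemma inertiaSubgroupIn_le_decompositionSubgroup (A : ValuationSubring Qbar) :
    A.inertiaSubgroupIn ℚ ≤ A.decompositionSubgroup ℚ :=
  Subgroup.map_subtype_le _

/-- Inertia is normal in the decomposition group. -/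
lemma conj_mem_inertiaSubgroupIn_of_mem {A : ValuationSubring Qbar} {q : ℕ} (hq : q.Prime)
    (hA : A.LiesOverPrime q) {σ : GQ} (hσ : σ ∈ A.inertiaSubgroupIn ℚ) {τ : GQ}
    (hτ : τ ∈ A.decompositionSubgroup ℚ) : τ * σ * τ⁻¹ ∈ A.inertiaSubgroupIn ℚ := by
  have h := conj_mem_inertiaSubgroupIn hq hA hσ τ
  rwa [show τ • A = A from hτ] at h

/-- Two Frobenius elements at the same place differ by inertia. -/
lemma mul_inv_mem_inertiaSubgroupIn {A : ValuationSubring Qbar} {q : ℕ} (hq : q.Prime)
    (hA : A.LiesOverPrime q) {σ σ' : GQ} (hσ : A.IsFrobeniusAt σ q)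
    (hσ' : A.IsFrobeniusAt σ' q) : σ * σ'⁻¹ ∈ A.inertiaSubgroupIn ℚ := by
  rw [mem_inertiaSubgroupIn_iff hq hA]
  intro b
  have h1 := (isFrobeniusAt_iff hq hA σ).mp hσ (σ'⁻¹ • b)
  have h2 := (isFrobeniusAt_iff hq hA σ').mp hσ' (σ'⁻¹ • b)
  have h3 := Ideal.sub_mem _ h1 h2
  rw [sub_sub_sub_cancel_right, smul_inv_smul, ← mul_smul] at h3
  exact h3

/-! ### Finite Galois extensions inside `ℚ̄` -/

variable (L : IntermediateField ℚ Qbar)

/-- The prime of `𝓞 L` cut out by a valuation subring of `ℚ̄`. -/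
def centerIn (A : ValuationSubring Qbar) : Ideal (𝓞 L) := (center A).comap (ringOfIntegersIncl L)

instance centerIn_isPrime (A : ValuationSubring Qbar) : (centerIn L A).IsPrime :=
  Ideal.IsPrime.comap _

/-- `q` lies in the centre at the finite level. -/
lemma natCast_mem_centerIn {A : ValuationSubring Qbar} {q : ℕ} (hA : A.LiesOverPrime q) :
    (q : 𝓞 L) ∈ centerIn L A := by
  rw [centerIn, Ideal.mem_comap, map_natCast]
  exact natCast_mem_center.mpr hA

/-- The centre at the finite level is a nonzero prime. -/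
lemma centerIn_ne_bot {A : ValuationSubring Qbar} {q : ℕ} (hq : q.Prime)
    (hA : A.LiesOverPrime q) : centerIn L A ≠ ⊥ := by
  intro h
  have hm := natCast_mem_centerIn L hA
  rw [h, Ideal.mem_bot, Nat.cast_eq_zero] at hm
  exact hq.ne_zero hm

variable [Normal ℚ L]

/-- The kernel of restriction to `L` is the fixing subgroup. -/
lemma restrictNormalHom_eq_one_iff (σ : GQ) :
    AlgEquiv.restrictNormalHom L σ = 1 ↔ σ ∈ L.fixingSubgroup := by
  rw [IntermediateField.mem_fixingSubgroup_iff]
  constructor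
  · intro h x hx
    have := AlgEquiv.restrictNormal_commutes σ L ⟨x, hx⟩
    change algebraMap L Qbar (AlgEquiv.restrictNormalHom L σ ⟨x, hx⟩) = σ x at this
    rw [h] at this
    exact this.symm
  · intro h
    refine AlgEquiv.ext fun x => (algebraMap L Qbar).injective ?_
    change algebraMap L Qbar (σ.restrictNormal L x) = algebraMap L Qbar x
    rw [AlgEquiv.restrictNormal_commutes]
    exact h x x.2

/-- Restriction commutes with the action on integers. -/
lemma coe_restrictNormal_smul (σ : GQ) (c : 𝓞 L) :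
    ringOfIntegersIncl L (AlgEquiv.restrictNormalHom L σ • c) = σ • ringOfIntegersIncl L c :=
  Subtype.ext (AlgEquiv.restrictNormal_commutes σ L (c : L))

omit [Normal ℚ L] in
/-- An algebraic integer fixed over `L` is an integer of `L`. -/
lemma exists_ringOfIntegersIncl_eq {b : ZBar} (hb : ∀ σ ∈ L.fixingSubgroup, σ • b = b) :
    ∃ c : 𝓞 L, ringOfIntegersIncl L c = b := by
  have hmem : (b : Qbar) ∈ L :=
    mem_of_forall_fixing fun σ hσ => congrArg Subtype.val (hb σ hσ)
  refine ⟨⟨⟨(b : Qbar), hmem⟩, ?_⟩, Subtype.ext rfl⟩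
  exact (isIntegral_algHom_iff (IsScalarTower.toAlgHom ℤ L Qbar)
    (algebraMap L Qbar).injective).mp b.2

/-- Inertia acts trivially modulo the centre at the finite level. -/
lemma mem_centerIn_of_inertia {A : ValuationSubring Qbar} {q : ℕ} (hq : q.Prime)
    (hA : A.LiesOverPrime q) {σ : GQ} (hσ : σ ∈ A.inertiaSubgroupIn ℚ) (c : 𝓞 L) :
    AlgEquiv.restrictNormalHom L σ • c - c ∈ centerIn L A := by
  rw [centerIn, Ideal.mem_comap, map_sub, coe_restrictNormal_smul]
  exact (mem_inertiaSubgroupIn_iff hq hA σ).mp hσ _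

/-- Frobenius acts as the `q`-th power modulo the centre at the finite level. -/
lemma isArithFrobAt_of_isFrobeniusAt [FiniteDimensional ℚ L] {A : ValuationSubring Qbar} {q : ℕ}
    (hq : q.Prime) (hA : A.LiesOverPrime q) {σ : GQ} (hσ : A.IsFrobeniusAt σ q) (c : 𝓞 L) :
    AlgEquiv.restrictNormalHom L σ • c - c ^ q ∈ centerIn L A := by
  rw [centerIn, Ideal.mem_comap, map_sub, map_pow, coe_restrictNormal_smul]
  exact (isFrobeniusAt_iff hq hA σ).mp hσ _

/-- The centre at the finite level is equivariant. -/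
lemma centerIn_smul (σ : GQ) (A : ValuationSubring Qbar) :
    centerIn L (σ • A) = AlgEquiv.restrictNormalHom L σ • centerIn L A := by
  ext c
  rw [Ideal.mem_pointwise_smul_iff_inv_smul_mem, centerIn, centerIn, Ideal.mem_comap,
    Ideal.mem_comap, center_smul, Ideal.mem_pointwise_smul_iff_inv_smul_mem, ← map_inv,
    coe_restrictNormal_smul]

omit [Normal ℚ L] in
/-- Centres with the same trace on `L` are conjugate under `Gal(ℚ̄/L)`. -/
theorem exists_fixing_smul_center_eq {A A' : ValuationSubring Qbar}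
    (h : centerIn L A = centerIn L A') :
    ∃ g ∈ L.fixingSubgroup, g • center A = center A' := by
  let : TopologicalSpace ZBar := ⊥
  have : DiscreteTopology ZBar := ⟨rfl⟩
  have := continuousSMul_zbar
  let H : Subgroup GQ := L.fixingSubgroup
  have : CompactSpace H :=
    isCompact_iff_compactSpace.mp (InfiniteGalois.fixingSubgroup_isClosed L).isCompact
  have : ContinuousSMul H ZBar :=
    ⟨(continuous_smul (M := GQ) (X := ZBar)).comp
      (continuous_subtype_val.prodMap continuous_id)⟩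
  let B₀ := FixedPoints.subalgebra ℤ ZBar H
  have : SMulCommClass H B₀ ZBar := ⟨fun g a b => by
    change g • ((a : ZBar) * b) = (a : ZBar) * (g • b)
    rw [smul_mul', a.2 g]⟩
  have : Algebra.IsInvariant B₀ ZBar H := ⟨fun b hb => ⟨⟨b, hb⟩, rfl⟩⟩
  have hunder : (center A).under B₀ = (center A').under B₀ := by
    ext a
    obtain ⟨c, hc⟩ := exists_ringOfIntegersIncl_eq L (b := (a : ZBar)) (fun σ hσ => a.2 ⟨σ, hσ⟩)
    have h' := SetLike.ext_iff.mp h c
    simp only [centerIn, Ideal.mem_comap, hc] at h'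
    exact h'
  obtain ⟨g, hg⟩ := Algebra.IsInvariant.exists_smul_of_under_eq_of_profinite (A := B₀) (G := H)
    (center A) (center A') hunder
  exact ⟨g, g.2, hg.symm⟩

/-- Inertia of `ℚ̄` surjects onto inertia of a normal subextension. -/
theorem exists_mem_inertiaSubgroupIn_restrictNormal_eq {A : ValuationSubring Qbar} {q : ℕ}
    (hq : q.Prime) (hA : A.LiesOverPrime q) (τ : L ≃ₐ[ℚ] L)
    (hτ : ∀ c : 𝓞 L, τ • c - c ∈ centerIn L A) :
    ∃ σ ∈ A.inertiaSubgroupIn ℚ, AlgEquiv.restrictNormalHom L σ = τ := by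
  let : TopologicalSpace ZBar := ⊥
  have : DiscreteTopology ZBar := ⟨rfl⟩
  have := continuousSMul_zbar
  obtain ⟨σ₀, hσ₀⟩ := AlgEquiv.restrictNormalHom_surjective (K₁ := L) Qbar τ
  let H : Subgroup GQ := L.fixingSubgroup
  have : CompactSpace H :=
    isCompact_iff_compactSpace.mp (InfiniteGalois.fixingSubgroup_isClosed L).isCompact
  have : ContinuousSMul H ZBar :=
    ⟨(continuous_smul (M := GQ) (X := ZBar)).comp
      (continuous_subtype_val.prodMap continuous_id)⟩
  let B₀ := FixedPoints.subalgebra ℤ ZBar H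
  have : SMulCommClass H B₀ ZBar := ⟨fun h a b => by
    change h • ((a : ZBar) * b) = (a : ZBar) * (h • b)
    rw [smul_mul', a.2 h]⟩
  have : Algebra.IsInvariant B₀ ZBar H := ⟨fun b hb => ⟨⟨b, hb⟩, rfl⟩⟩
  set Q := center A with hQdef
  obtain ⟨h, hh, hhQ⟩ := exists_fixing_smul_center_eq L (A := σ₀ • A) (A' := A) (by
    ext c
    have hc := hτ (τ⁻¹ • c)
    rw [smul_inv_smul] at hc
    rw [centerIn_smul, hσ₀, Ideal.mem_pointwise_smul_iff_inv_smul_mem]
    exact ⟨fun h1 => by simpa using Ideal.add_mem _ hc h1,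
      fun h1 => by simpa using Ideal.sub_mem _ h1 hc⟩)
  set σ₁ : GQ := h * σ₀ with hσ₁
  have hres₁ : AlgEquiv.restrictNormalHom L σ₁ = τ := by
    rw [hσ₁, map_mul, (restrictNormalHom_eq_one_iff L _).mpr hh, one_mul, hσ₀]
  have hstab : σ₁ • Q = Q := by
    rw [center_smul, smul_smul, ← hQdef, ← hσ₁] at hhQ
    exact hhQ
  have hfix : ∀ a : B₀, σ₁ • (a : ZBar) - (a : ZBar) ∈ Q := fun a => by
    obtain ⟨c, hc⟩ := exists_ringOfIntegersIncl_eq L (b := (a : ZBar))
      (fun σ hσ => a.2 ⟨σ, hσ⟩)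
    have := hτ c
    rw [centerIn, Ideal.mem_comap, map_sub, ← hres₁, coe_restrictNormal_smul, hc] at this
    exact this
  let e : (ZBar ⧸ Q) ≃ₐ[B₀ ⧸ Q.under B₀] (ZBar ⧸ Q) :=
    { Ideal.quotientEquiv Q Q (MulSemiringAction.toRingEquiv GQ ZBar σ₁)
        (hstab.symm.trans (Ideal.pointwise_smul_def Q)) with
      commutes' := fun r => by
        obtain ⟨a, rfl⟩ := Ideal.Quotient.mk_surjective r
        exact Ideal.Quotient.eq.mpr (hfix a) }
  obtain ⟨⟨h₂, hh₂⟩, he⟩ := Ideal.Quotient.stabilizerHom_surjective_of_profinite (A := B₀) (G := H)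
    (Q.under B₀) Q e
  have hh₂' : (h₂ : GQ) • Q = Q := hh₂
  refine ⟨(h₂ : GQ)⁻¹ * σ₁, (mem_inertiaSubgroupIn_iff hq hA _).mpr fun b => ?_, ?_⟩
  · have hb : Ideal.Quotient.mk Q ((h₂ : GQ) • b) = Ideal.Quotient.mk Q (σ₁ • b) :=
      DFunLike.congr_fun he (Ideal.Quotient.mk Q b)
    have hb' := Ideal.Quotient.eq.mp hb.symm
    have := Ideal.smul_mem_pointwise_smul (h₂ : GQ)⁻¹ _ Q hb'
    rw [inv_smul_eq_iff.mpr hh₂'.symm, smul_sub, inv_smul_smul, ← mul_smul] at this
    exact this
  · have hh1 : AlgEquiv.restrictNormalHom L (h₂ : GQ) = 1 := by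
      exact (restrictNormalHom_eq_one_iff L _).mpr h₂.2
    rw [map_mul, map_inv, hh1, inv_one, one_mul, hres₁]

omit [Normal ℚ L] in
/-- Every maximal ideal of a number field is the centre of a place. -/
lemma exists_center_centerIn_eq (P : Ideal (𝓞 L)) [P.IsMaximal] [NumberField L] :
    ∃ (q : ℕ) (A : ValuationSubring Qbar),
      q.Prime ∧ A.LiesOverPrime q ∧ centerIn L A = P := by
  let q := Ideal.absNorm (P.under ℤ)
  have hP0 : P ≠ ⊥ := Ring.ne_bot_of_isMaximal_of_not_isField ‹_›
    (NumberField.RingOfIntegers.not_isField L)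
  obtain ⟨p, hp⟩ := IsPrincipalIdealRing.principal (P.under ℤ)
  have hp' : P.under ℤ = Ideal.span {p} := hp
  have hp0 : p ≠ 0 :=
    fun h => hP0 (Ideal.eq_bot_of_comap_eq_bot (by rw [← Ideal.under_def, hp', h]; simp))
  have hprime : Prime p := (Ideal.span_singleton_prime hp0).mp (hp' ▸ inferInstance)
  let r := ringOfIntegersIncl L
  have hinj : Function.Injective r := fun a b h => by
    apply NumberField.RingOfIntegers.coe_injective
    have h' : (a : L).1 = (b : L).1 := congrArg (fun z : ZBar => (z : Qbar)) h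
    exact Subtype.ext h'
  let : Algebra (𝓞 L) ZBar := r.toAlgebra
  have : IsScalarTower ℤ (𝓞 L) ZBar := IsScalarTower.of_algebraMap_eq' (RingHom.ext_int _ _)
  have : Algebra.IsIntegral (𝓞 L) ZBar :=
    ⟨fun x => (Algebra.IsIntegral.isIntegral (R := ℤ) x).tower_top⟩
  obtain ⟨Q, hQP, hQ, hQcomap⟩ := Ideal.exists_ideal_over_prime_of_isIntegral P (⊥ : Ideal ZBar)
    (by rw [RingHom.algebraMap_toAlgebra, Ideal.comap_bot_of_injective _ hinj]; exact bot_le)
  have hqmem : ((p.natAbs : ℕ) : 𝓞 L) ∈ P := by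
    have h1 : (p.natAbs : ℤ) ∈ P.under ℤ := by
      rw [hp', Ideal.mem_span_singleton]
      exact Int.dvd_natAbs.mpr dvd_rfl
    rw [Ideal.mem_comap, map_natCast] at h1
    exact h1
  obtain ⟨A, hA⟩ : ∃ A : ValuationSubring Qbar, (Q : Set ZBar) ⊆ (center A : Set ZBar) := by
    obtain ⟨A, -, hA⟩ := Ideal.image_subset_nonunits_valuationSubring
      (A := (integralClosure ℤ Qbar).toSubring) Q hQ.ne_top
    exact ⟨A, fun b hb => mem_center.mpr (hA ⟨b, hb, rfl⟩)⟩
  have hle : P ≤ centerIn L A := fun c hc => hA (by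
    rw [← hQcomap] at hc
    exact hc)
  have heq : centerIn L A = P :=
    ((‹P.IsMaximal›).eq_of_le Ideal.IsPrime.ne_top' hle).symm
  refine ⟨p.natAbs, A, Int.prime_iff_natAbs_prime.mp hprime, ?_, heq⟩
  rw [← natCast_mem_center, ← map_natCast r]
  rw [← heq] at hqmem
  exact hqmem

/-- A finite Galois extension inside `ℚ̄` fixed by all inertia groups is trivial. -/
theorem finrank_eq_one_of_inertia_le [FiniteDimensional ℚ L]
    (h : ∀ q : ℕ, q.Prime → ∀ A : ValuationSubring Qbar, A.LiesOverPrime q →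
      A.inertiaSubgroupIn ℚ ≤ L.fixingSubgroup) : Module.finrank ℚ L = 1 := by
  have : NumberField L := {}
  have : IsGalois ℚ L := ⟨⟩
  by_contra hne
  obtain ⟨P, hP, hram⟩ := NumberField.exists_not_isUnramifiedAt_int (𝒪 := 𝓞 L) hne
  obtain ⟨q, A, hq, hA, hPA⟩ := exists_center_centerIn_eq L P
  have hbot : P.inertia (L ≃ₐ[ℚ] L) = ⊥ := by
    rw [eq_bot_iff]
    intro τ hτ
    rw [← hPA] at hτ
    obtain ⟨σ, hσ, rfl⟩ :=
      exists_mem_inertiaSubgroupIn_restrictNormal_eq L hq hA τ (fun c => hτ c)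
    rw [Subgroup.mem_bot]
    exact (restrictNormalHom_eq_one_iff L σ).mpr (h q hq A hA hσ)
  apply hram
  rw [← Ideal.ramificationIdx_eq_one_iff,
    ← Ideal.ramificationIdxIn_eq_ramificationIdx (P.under ℤ) P (L ≃ₐ[ℚ] L)]
  have : PerfectField (P.under ℤ).ResidueField := by
    have : (P.under ℤ).IsMaximal := Ideal.IsMaximal.under ℤ P
    have : Finite (ℤ ⧸ P.under ℤ) := Ring.HasFiniteQuotients.finiteQuotient (fun hz => by
      have := Ideal.eq_bot_of_comap_eq_bot (R := ℤ) (I := P) hz
      exact Ring.ne_bot_of_isMaximal_of_not_isField hP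
        (NumberField.RingOfIntegers.not_isField L) this)
    have : Finite (P.under ℤ).ResidueField :=
      Finite.of_surjective _ (IsFractionRing.surjective_iff_isField.mpr
        ((Ideal.Quotient.maximal_ideal_iff_isField_quotient (P.under ℤ)).mp inferInstance))
    exact PerfectField.ofFinite
  rw [← Ideal.card_inertia_eq_ramificationIdxIn (G := (L ≃ₐ[ℚ] L)) (P.under ℤ) P, hbot]
  simp

omit L in
/-- An open subgroup of `G_ℚ` containing every inertia group is everything. -/
theorem eq_top_of_inertia_le {H : Subgroup GQ} (hH : IsOpen (H : Set GQ))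
    (h : ∀ q : ℕ, q.Prime → ∀ A : ValuationSubring Qbar, A.LiesOverPrime q →
      A.inertiaSubgroupIn ℚ ≤ H) : H = ⊤ := by
  have : Finite (GQ ⧸ H) := Subgroup.quotient_finite_of_isOpen H hH
  have : H.FiniteIndex := Subgroup.finiteIndex_of_finite_quotient
  let N : ClosedSubgroup GQ := ⟨H.normalCore, by
    have hcl := Subgroup.isClosed_of_isOpen H hH
    have : (H.normalCore : Set GQ) = ⋂ g : GQ, (fun x => g * x * g⁻¹) ⁻¹' (H : Set GQ) := by
      ext x
      simp [Subgroup.normalCore]
    show IsClosed (H.normalCore : Set GQ)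
    rw [this]
    exact isClosed_iInter fun g => hcl.preimage (by fun_prop)⟩
  let M := IntermediateField.fixedField N.1
  have hM : M.fixingSubgroup = N.1 := InfiniteGalois.fixingSubgroup_fixedField N
  have : N.1.Normal := Subgroup.normalCore_normal H
  have : N.1.FiniteIndex := Subgroup.finiteIndex_normalCore H
  have hNopen : IsOpen (N.1 : Set GQ) := Subgroup.isOpen_of_isClosed_of_finiteIndex N.1 N.isClosed'
  have : IsGalois ℚ M := (InfiniteGalois.normal_iff_isGalois M).mp (by rw [hM]; infer_instance)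
  have : FiniteDimensional ℚ M := (InfiniteGalois.isOpen_iff_finite M).mp (by rw [hM]; exact hNopen)
  have h1 : Module.finrank ℚ M = 1 := finrank_eq_one_of_inertia_le M fun q hq A hA σ hσ => by
    rw [hM]
    show σ ∈ H.normalCore
    intro τ
    exact h q hq _ (liesOverPrime_smul τ hA) (conj_mem_inertiaSubgroupIn hq hA hσ τ)
  have hbot : M = ⊥ := IntermediateField.finrank_eq_one_iff.mp h1
  rw [hbot, IntermediateField.fixingSubgroup_bot] at hM
  exact top_le_iff.mp (hM ▸ H.normalCore_le)

omit L in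
/-- A homomorphism of `G_ℚ` with open kernel, unramified everywhere, is trivial. -/
theorem monoidHom_eq_one_of_unramified {M : Type*} [MulOneClass M] (f : GQ →* M)
    (hf : IsOpen (f.ker : Set GQ))
    (h : ∀ q : ℕ, q.Prime → ∀ A : ValuationSubring Qbar, A.LiesOverPrime q →
      ∀ σ ∈ A.inertiaSubgroupIn ℚ, f σ = 1) : f = 1 := by
  ext σ
  exact MonoidHom.mem_ker.mp (eq_top_of_inertia_le hf (fun q hq A hA τ hτ => h q hq A hA τ hτ) ▸
    Subgroup.mem_top σ)

end FermatAgent.GaloisBasic
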