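import Mathlib
import Fermat.Prelude.Def_GaloisRep_Adic
import Fermat.Agent.GaloisBasic.Frobenius

/-!
# Two-dimensional representations: matrices, charpoly, invariance
-/

set_option autoImplicit false

noncomputable section

open IsLocalRing
open scoped TensorProduct

namespace FermatAgent.GaloisBasic

variable {A : Type} [CommRing A] [IsLocalRing A]

/-- A chosen basis of the underlying module of a representation. -/
def repBasis (ρ : GaloisRepAdic A) : Module.Basis (Fin 2) A ρ.V :=
  (Module.finBasisOfFinrankEq A ρ.V ρ.finrank_eq)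

/-- The matrix representation attached to a chosen basis. -/
def repMatrix (ρ : GaloisRepAdic A) : GQ →* Matrix (Fin 2) (Fin 2) A :=
  (LinearMap.toMatrixAlgEquiv (repBasis ρ)).toMonoidHom.comp ρ.ρ

/-- The matrix in the chosen basis. -/
lemma repMatrix_apply (ρ : GaloisRepAdic A) (σ : GQ) :
    repMatrix ρ σ = LinearMap.toMatrix (repBasis ρ) (repBasis ρ) (ρ.ρ σ) := rfl

/-- The matrix has the characteristic polynomial of the representation. -/
lemma charpoly_repMatrix (ρ : GaloisRepAdic A) (σ : GQ) :
    (repMatrix ρ σ).charpoly = LinearMap.charpoly (ρ.ρ σ) := by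
  rw [repMatrix_apply, LinearMap.charpoly_toMatrix]

omit [IsLocalRing A] in
/-- The coordinates of an element of `I M` lie in `I`. -/
lemma coord_mem_of_mem_smul_top {M ι : Type*} [AddCommGroup M] [Module A M]
    (b : Module.Basis ι A M) {I : Ideal A} {x : M} (hx : x ∈ I • (⊤ : Submodule A M)) (j : ι) :
    b.repr x j ∈ I := by
  refine Submodule.smul_induction_on (p := fun y => b.repr y j ∈ I) hx
    (fun a ha y _ => ?_) (fun y z hy hz => ?_)
  · simp only [map_smul, Finsupp.smul_apply, smul_eq_mul]
    exact I.mul_mem_right _ ha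
  · simp only [map_add, Finsupp.add_apply]
    exact I.add_mem hy hz

/-- The kernel of reduction mod `m^n` contains an open subgroup. -/
lemma repMatrix_map_eq_one (ρ : GaloisRepAdic A) (n : ℕ) :
    ∃ L : IntermediateField ℚ Qbar, FiniteDimensional ℚ L ∧ ∀ σ ∈ L.fixingSubgroup,
      (repMatrix ρ σ).map (Ideal.Quotient.mk (maximalIdeal A ^ n)) = 1 := by
  obtain ⟨L, hL, h⟩ := ρ.isAdicContinuous n
  refine ⟨L, hL, fun σ hσ => ?_⟩
  ext i j
  have hv := coord_mem_of_mem_smul_top (repBasis ρ)
    (h σ (fun x hx => (IntermediateField.mem_fixingSubgroup_iff L σ).mp hσ x hx) (repBasis ρ j)) i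
  rw [map_sub, Finsupp.sub_apply, Module.Basis.repr_self] at hv
  rw [Matrix.map_apply, repMatrix_apply, LinearMap.toMatrix_apply, ← sub_eq_zero,
    show (1 : Matrix (Fin 2) (Fin 2) (A ⧸ maximalIdeal A ^ n)) i j =
      Ideal.Quotient.mk _ (Finsupp.single j (1 : A) i) from ?_,
    ← map_sub, Ideal.Quotient.eq_zero_iff_mem]
  · exact hv
  · rw [Finsupp.single_apply, Matrix.one_apply]
    split_ifs with h1 h2 h2
    · simp
    · exact absurd h1.symm h2
    · exact absurd h2.symm h1
    · simp

section Matrix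

variable {R : Type*} [CommRing R]

/-- The recursion of traces of powers of a `2 × 2` matrix. -/
lemma trace_pow_add_two (M : Matrix (Fin 2) (Fin 2) R) (j : ℕ) :
    (M ^ (j + 2)).trace = M.trace * (M ^ (j + 1)).trace - M.det * (M ^ j).trace := by
  have h2 : M ^ 2 = M.trace • M - M.det • (1 : Matrix (Fin 2) (Fin 2) R) := by
    ext i k
    fin_cases i <;> fin_cases k <;>
      simp [pow_two, Matrix.mul_apply, Matrix.trace_fin_two, Matrix.det_fin_two] <;> ring
  rw [pow_add, h2, mul_sub, Matrix.mul_smul, Matrix.mul_smul, mul_one, Matrix.trace_sub,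
    Matrix.trace_smul, Matrix.trace_smul, pow_succ]
  rfl

/-- The trace and determinant determine the traces of powers. -/
lemma trace_pow_eq_of_eq {M N : Matrix (Fin 2) (Fin 2) R} (ht : M.trace = N.trace)
    (hd : M.det = N.det) : ∀ j : ℕ, (M ^ j).trace = (N ^ j).trace
  | 0 => by simp
  | 1 => by simp [ht]
  | j + 2 => by
    rw [trace_pow_add_two, trace_pow_add_two, trace_pow_eq_of_eq ht hd j,
      trace_pow_eq_of_eq ht hd (j + 1), ht, hd]

lemma trace_det_of_charpoly_eq {M N : Matrix (Fin 2) (Fin 2) R}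
    (h : M.charpoly = N.charpoly) : M.trace = N.trace ∧ M.det = N.det := by
  refine ⟨?_, ?_⟩
  · rw [Matrix.trace_eq_neg_charpoly_coeff, Matrix.trace_eq_neg_charpoly_coeff, h]
  · rw [Matrix.det_eq_sign_charpoly_coeff, Matrix.det_eq_sign_charpoly_coeff, h]

/-- The characteristic polynomial determines those of powers. -/
lemma charpoly_pow_eq_of_charpoly_eq [Nontrivial R] {M N : Matrix (Fin 2) (Fin 2) R}
    (h : M.charpoly = N.charpoly) (j : ℕ) : (M ^ j).charpoly = (N ^ j).charpoly := by
  obtain ⟨ht, hd⟩ := trace_det_of_charpoly_eq h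
  rw [Matrix.charpoly_fin_two, Matrix.charpoly_fin_two, trace_pow_eq_of_eq ht hd j, Matrix.det_pow,
    Matrix.det_pow, hd]

end Matrix

end FermatAgent.GaloisBasic
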