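import Mathlib
import Fermat.Agent.GaloisBasic.Density
import Fermat.Agent.GaloisBasic.RepTwoDim

/-!
# Characteristic polynomials are determined at Frobenius elements
-/

set_option autoImplicit false

noncomputable section

open IsLocalRing

namespace FermatAgent.GaloisBasic

/-- In any finite level, every element is a power of a Frobenius element outside a finite set. -/
theorem exists_frobenius_pow_congr (L₀ : IntermediateField ℚ Qbar) [FiniteDimensional ℚ L₀]
    (g : GQ) (S : Finset ℕ) :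
    ∃ (q : ℕ) (A : ValuationSubring Qbar) (σ : GQ) (j k : ℕ), q.Prime ∧ q ∉ S ∧
      A.LiesOverPrime q ∧ A.IsFrobeniusAt σ q ∧ A.inertiaSubgroupIn ℚ ≤ L₀.fixingSubgroup ∧
      (σ ^ j)⁻¹ * g ∈ L₀.fixingSubgroup ∧ (g ^ k)⁻¹ * σ ∈ L₀.fixingSubgroup := by
  let L := IntermediateField.normalClosure ℚ L₀ Qbar
  have : Normal ℚ L := normalClosure.normal ℚ L₀ Qbar
  have : FiniteDimensional ℚ L := normalClosure.is_finiteDimensional ℚ L₀ Qbar
  have : IsGalois ℚ L := IsGalois.mk
  have hle : L₀ ≤ L := L₀.le_normalClosure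
  obtain ⟨q, A, σ, hq, hqS, hA, hσ, hU, hgen⟩ :=
    exists_frobenius_generating L (AlgEquiv.restrictNormalHom L g) S
  obtain ⟨j, hj⟩ := (isOfFinOrder_of_finite _).mem_powers_iff_mem_zpowers.mpr
    (hgen.symm ▸ Subgroup.mem_zpowers (AlgEquiv.restrictNormalHom L g) :
      AlgEquiv.restrictNormalHom L g ∈ Subgroup.zpowers (AlgEquiv.restrictNormalHom L σ))
  obtain ⟨k, hk⟩ := (isOfFinOrder_of_finite _).mem_powers_iff_mem_zpowers.mpr
    (hgen ▸ Subgroup.mem_zpowers (AlgEquiv.restrictNormalHom L σ) :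
      AlgEquiv.restrictNormalHom L σ ∈ Subgroup.zpowers (AlgEquiv.restrictNormalHom L g))
  refine ⟨q, A, σ, j, k, hq, hqS, hA, hσ, ?_, ?_, ?_⟩
  · intro τ hτ
    refine IntermediateField.fixingSubgroup_antitone hle
      ((restrictNormalHom_eq_one_iff L τ).mp ?_)
    exact hU A hA _ (mem_centerIn_of_inertia L hq hA hτ)
  · refine IntermediateField.fixingSubgroup_antitone hle
      ((restrictNormalHom_eq_one_iff L _).mp ?_)
    rw [map_mul, map_inv, map_pow, show AlgEquiv.restrictNormalHom L σ ^ j = _ from hj,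
      inv_mul_cancel]
  · refine IntermediateField.fixingSubgroup_antitone hle
      ((restrictNormalHom_eq_one_iff L _).mp ?_)
    rw [map_mul, map_inv, map_pow, show AlgEquiv.restrictNormalHom L g ^ k = _ from hk,
      inv_mul_cancel]

variable {A : Type} [CommRing A] [IsLocalRing A] [IsNoetherianRing A]

/-- Two continuous representations with equal Frobenius charpolys almost everywhere have equal
charpolys everywhere. -/
theorem charpoly_eq_of_frobenius (ρ₁ ρ₂ : GaloisRepAdic A) (S : Finset ℕ)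
    (h : ∀ q : ℕ, q.Prime → q ∉ S → ∀ P : ValuationSubring Qbar, P.LiesOverPrime q →
      ∀ σ : GQ, P.IsFrobeniusAt σ q →
        LinearMap.charpoly (ρ₁.ρ σ) = LinearMap.charpoly (ρ₂.ρ σ)) (g : GQ) :
    LinearMap.charpoly (ρ₁.ρ g) = LinearMap.charpoly (ρ₂.ρ g) := by
  have key : ∀ n : ℕ, (LinearMap.charpoly (ρ₁.ρ g)).map (Ideal.Quotient.mk (maximalIdeal A ^ n)) =
      (LinearMap.charpoly (ρ₂.ρ g)).map (Ideal.Quotient.mk (maximalIdeal A ^ n)) := by
    intro n
    obtain ⟨L₁, hL₁, h₁⟩ := repMatrix_map_eq_one ρ₁ n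
    obtain ⟨L₂, hL₂, h₂⟩ := repMatrix_map_eq_one ρ₂ n
    have := hL₁; have := hL₂
    obtain ⟨q, P, σ, j, k, hq, hqS, hP, hσ, -, hgσ, -⟩ :=
      exists_frobenius_pow_congr (L₁ ⊔ L₂) g S
    have hred : ∀ (ρ : GaloisRepAdic A) (L : IntermediateField ℚ Qbar),
        (σ ^ j)⁻¹ * g ∈ L.fixingSubgroup →
        (∀ τ ∈ L.fixingSubgroup,
          (repMatrix ρ τ).map (Ideal.Quotient.mk (maximalIdeal A ^ n)) = 1) →
        (LinearMap.charpoly (ρ.ρ g)).map (Ideal.Quotient.mk (maximalIdeal A ^ n)) =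
          (repMatrix ρ σ ^ j).charpoly.map (Ideal.Quotient.mk (maximalIdeal A ^ n)) := by
      intro ρ L hmem hker
      rw [← charpoly_repMatrix, ← Matrix.charpoly_map, ← Matrix.charpoly_map,
        show g = σ ^ j * ((σ ^ j)⁻¹ * g) by group, map_mul, Matrix.map_mul, hker _ hmem, mul_one,
        map_pow]
    have hfrob := h q hq hqS P hP σ hσ
    rw [← charpoly_repMatrix, ← charpoly_repMatrix] at hfrob
    rw [hred ρ₁ L₁ (IntermediateField.fixingSubgroup_antitone le_sup_left hgσ) h₁,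
      hred ρ₂ L₂ (IntermediateField.fixingSubgroup_antitone le_sup_right hgσ) h₂,
      charpoly_pow_eq_of_charpoly_eq hfrob j]
  ext i
  rw [← sub_eq_zero, ← Ideal.mem_bot,
    ← Ideal.iInf_pow_eq_bot_of_isLocalRing (maximalIdeal A) (maximalIdeal.isMaximal A).ne_top,
    Ideal.mem_iInf]
  intro n
  rw [← Ideal.Quotient.eq_zero_iff_mem, map_sub, sub_eq_zero, ← Polynomial.coeff_map,
    ← Polynomial.coeff_map, key n]

/-- Residual version of `charpoly_eq_of_frobenius`. -/
theorem residual_charpoly_eq_of_frobenius {k : Type} [Field k] (ρ₁ ρ₂ : ResidualGaloisRep k)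
    (S : Finset ℕ)
    (h : ∀ q : ℕ, q.Prime → q ∉ S → ∀ P : ValuationSubring Qbar, P.LiesOverPrime q →
      ∀ σ : GQ, P.IsFrobeniusAt σ q →
        LinearMap.charpoly (ρ₁.ρ σ) = LinearMap.charpoly (ρ₂.ρ σ)) (g : GQ) :
    LinearMap.charpoly (ρ₁.ρ g) = LinearMap.charpoly (ρ₂.ρ g) :=
  charpoly_eq_of_frobenius (GaloisRepAdic.ofResidualGaloisRep ρ₁)
    (GaloisRepAdic.ofResidualGaloisRep ρ₂) S h g

end FermatAgent.GaloisBasic
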