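import Mathlib
import Fermat.Prelude.Def_GaloisRep_DeformationCondition
import Fermat.Agent.GaloisBasic.RepTwoDim

/-!
# Continuous two-dimensional representations as matrix-valued homomorphisms
-/

set_option autoImplicit false

noncomputable section

open IsLocalRing
open scoped TensorProduct

namespace FermatAgent.GaloisBasic

/-- A matrix representation. -/
abbrev MatRep (A : Type) [CommRing A] : Type := GQ →* Matrix (Fin 2) (Fin 2) A

variable {A B : Type} [CommRing A] [CommRing B]

/-- Adic continuity of a matrix representation. -/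
def MatContinuous (A : Type) [CommRing A] [IsLocalRing A] (M : MatRep A) : Prop :=
  ∀ n : ℕ, ∃ L : IntermediateField ℚ Qbar, FiniteDimensional ℚ L ∧ ∀ σ ∈ L.fixingSubgroup,
    ∀ i j, M σ i j - (1 : Matrix (Fin 2) (Fin 2) A) i j ∈ maximalIdeal A ^ n

/-- Apply a ring homomorphism to a matrix representation. -/
def mapRep (φ : A →+* B) (M : MatRep A) : MatRep B :=
  φ.mapMatrix.toMonoidHom.comp M

/-- A map of rings acts entrywise. -/
@[simp] lemma mapRep_apply (φ : A →+* B) (M : MatRep A) (σ : GQ) :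
    mapRep φ M σ = (M σ).map φ := rfl

/-- Changes of coefficients compose. -/
lemma mapRep_mapRep {C : Type} [CommRing C] (φ : A →+* B) (ψ : B →+* C) (M : MatRep A) :
    mapRep ψ (mapRep φ M) = mapRep (ψ.comp φ) M :=
  MonoidHom.ext fun σ => by ext i j; rfl

/-- Conjugacy of matrix representations. -/
def MatConj (M M' : MatRep A) : Prop :=
  ∃ U : (Matrix (Fin 2) (Fin 2) A)ˣ, ∀ σ, M' σ = U.1 * M σ * (U⁻¹).1

/-- Conjugacy of matrix representations is symmetric. -/
lemma MatConj.symm {M M' : MatRep A} (h : MatConj M M') : MatConj M' M := by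
  obtain ⟨U, hU⟩ := h
  refine ⟨U⁻¹, fun σ => ?_⟩
  rw [hU, inv_inv]
  simp [mul_assoc]

/-- Conjugacy of matrix representations is transitive. -/
lemma MatConj.trans {M M' M'' : MatRep A} (h : MatConj M M') (h' : MatConj M' M'') :
    MatConj M M'' := by
  obtain ⟨U, hU⟩ := h
  obtain ⟨V, hV⟩ := h'
  refine ⟨V * U, fun σ => ?_⟩
  rw [hV, hU, mul_inv_rev, Units.val_mul, Units.val_mul]
  simp [mul_assoc]

/-- Continuity passes along local homomorphisms. -/
lemma MatContinuous.map [IsLocalRing A] [IsLocalRing B] {M : MatRep A} (φ : A →+* B)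
    [IsLocalHom φ] (h : MatContinuous A M) : MatContinuous B (mapRep φ M) := by
  intro n
  obtain ⟨L, hL, hM⟩ := h n
  refine ⟨L, hL, fun σ hσ i j => ?_⟩
  have h1 : φ (M σ i j - (1 : Matrix (Fin 2) (Fin 2) A) i j) ∈ maximalIdeal B ^ n := by
    have : (maximalIdeal A ^ n).map φ ≤ maximalIdeal B ^ n := by
      rw [Ideal.map_pow]
      exact Ideal.pow_right_mono (((IsLocalRing.local_hom_TFAE φ).out 0 2).mp ‹_›) n
    exact this (Ideal.mem_map_of_mem φ (hM σ hσ i j))
  rw [map_sub] at h1
  have h2 : φ ((1 : Matrix (Fin 2) (Fin 2) A) i j) = (1 : Matrix (Fin 2) (Fin 2) B) i j := by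
    simp [Matrix.one_apply, apply_ite φ]
  rwa [h2] at h1

lemma mem_smul_top_of_forall_mem {I : Ideal A} {x : Fin 2 → A} (h : ∀ i, x i ∈ I) :
    x ∈ I • (⊤ : Submodule A (Fin 2 → A)) := by
  rw [← (Pi.basisFun A (Fin 2)).sum_repr x]
  exact Submodule.sum_mem _ fun i _ => Submodule.smul_mem_smul (h i) Submodule.mem_top

variable [IsLocalRing A] [IsLocalRing B]

/-- The representation attached to a continuous matrix representation. -/
def toRep (M : MatRep A) (h : MatContinuous A M) : GaloisRepAdic A where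
  V := Fin 2 → A
  finrank_eq := by rw [Module.finrank_pi]; rfl
  ρ := (Matrix.toLinAlgEquiv' : Matrix (Fin 2) (Fin 2) A ≃ₐ[A] _).toMonoidHom.comp M
  isAdicContinuous := fun n => by
    obtain ⟨L, hL, hM⟩ := h n
    refine ⟨L, hL, fun σ hσ v => mem_smul_top_of_forall_mem fun i => ?_⟩
    have hσ' : σ ∈ L.fixingSubgroup := (IntermediateField.mem_fixingSubgroup_iff L σ).mpr hσ
    have : (Matrix.toLinAlgEquiv' (M σ) v - v) i =
        ∑ j, (M σ i j - (1 : Matrix (Fin 2) (Fin 2) A) i j) * v j := by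
      fin_cases i <;> simp [sub_mul, Finset.sum_sub_distrib, Matrix.one_apply, Fin.sum_univ_two]
    exact this ▸ Ideal.sum_mem _ fun j _ => Ideal.mul_mem_right _ _ (hM σ hσ' i j)

/-- The matrix representation of a representation in a basis. -/
def matrixIn (ρ : GaloisRepAdic A) (b : Module.Basis (Fin 2) A ρ.V) : MatRep A :=
  (LinearMap.toMatrixAlgEquiv b).toMonoidHom.comp ρ.ρ

/-- The matrices in a basis. -/
lemma matrixIn_apply (ρ : GaloisRepAdic A) (b : Module.Basis (Fin 2) A ρ.V) (σ : GQ) :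
    matrixIn ρ b σ = LinearMap.toMatrixAlgEquiv b (ρ.ρ σ) := rfl

/-- The matrices act on coordinates as the representation on vectors. -/
lemma repr_apply_eq_mulVec (ρ : GaloisRepAdic A) (b : Module.Basis (Fin 2) A ρ.V) (σ : GQ)
    (x : ρ.V) : b.equivFun (ρ.ρ σ x) = (matrixIn ρ b σ).mulVec (b.equivFun x) := by
  funext i
  have := congrFun (LinearMap.toMatrix_mulVec_repr b b (ρ.ρ σ) x) i
  rw [Module.Basis.equivFun_apply, Module.Basis.equivFun_apply]
  exact this.symm

/-- The matrices of a continuous representation are continuous. -/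
lemma matContinuous_matrixIn (ρ : GaloisRepAdic A) (b : Module.Basis (Fin 2) A ρ.V) :
    MatContinuous A (matrixIn ρ b) := by
  intro n
  obtain ⟨L, hL, h⟩ := ρ.isAdicContinuous n
  refine ⟨L, hL, fun σ hσ i j => ?_⟩
  have hv := coord_mem_of_mem_smul_top b
    (h σ (fun x hx => (IntermediateField.mem_fixingSubgroup_iff L σ).mp hσ x hx) (b j)) i
  rw [map_sub, Finsupp.sub_apply, Module.Basis.repr_self] at hv
  rw [matrixIn_apply, LinearMap.toMatrixAlgEquiv_apply, Matrix.one_apply]
  rw [Finsupp.single_apply] at hv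
  simpa [eq_comm] using hv

/-- A representation is equivalent to the one given by its matrices in a basis. -/
lemma isEquiv_toRep_matrixIn (ρ : GaloisRepAdic A) (b : Module.Basis (Fin 2) A ρ.V) :
    ρ.IsEquiv (toRep (matrixIn ρ b) (matContinuous_matrixIn ρ b)) :=
  ⟨{ toLinearEquiv := b.equivFun
     map_apply := fun σ x =>
      (repr_apply_eq_mulVec ρ b σ x).trans (Matrix.toLin'_apply _ _).symm }⟩

/-- Conjugate matrix representations give equivalent representations. -/
lemma isEquiv_toRep_of_matConj {M M' : MatRep A} (hM : MatContinuous A M)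
    (hM' : MatContinuous A M') (h : MatConj M M') : (toRep M hM).IsEquiv (toRep M' hM') := by
  obtain ⟨U, hU⟩ := h
  let e : (Fin 2 → A) ≃ₗ[A] (Fin 2 → A) :=
    Matrix.toLin'OfInv (show (U⁻¹).1 * U.1 = 1 from U.inv_mul)
      (show U.1 * (U⁻¹).1 = 1 from U.mul_inv)
  have he : ∀ σ (x : Fin 2 → A), e ((M σ).mulVec x) = (M' σ).mulVec (e x) := by
    intro σ x
    show U.1.mulVec ((M σ).mulVec x) = (M' σ).mulVec (U.1.mulVec x)
    rw [hU, Matrix.mulVec_mulVec, Matrix.mulVec_mulVec, mul_assoc (U.1 * M σ), U.inv_mul, mul_one]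
  exact ⟨{ toLinearEquiv := e, map_apply := fun σ x => he σ x }⟩

omit [IsLocalRing A] in
lemma matConj_of_intertwine {M M' : MatRep A} (e : (Fin 2 → A) ≃ₗ[A] (Fin 2 → A))
    (h : ∀ σ x, e ((M σ).mulVec x) = (M' σ).mulVec (e x)) : MatConj M M' := by
  let U : (Matrix (Fin 2) (Fin 2) A)ˣ :=
    ⟨LinearMap.toMatrix' e.toLinearMap, LinearMap.toMatrix' e.symm.toLinearMap,
      by rw [← LinearMap.toMatrix'_comp]; simp, by rw [← LinearMap.toMatrix'_comp]; simp⟩
  refine ⟨U, fun σ => ?_⟩
  have hcomm : M' σ * U.1 = U.1 * M σ := by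
    apply Matrix.toLin'.injective
    refine LinearMap.ext fun x => ?_
    rw [Matrix.toLin'_mul, Matrix.toLin'_mul, LinearMap.comp_apply, LinearMap.comp_apply]
    show Matrix.toLin' (M' σ) (Matrix.toLin' (LinearMap.toMatrix' e.toLinearMap) x) =
      Matrix.toLin' (LinearMap.toMatrix' e.toLinearMap) (Matrix.toLin' (M σ) x)
    rw [Matrix.toLin'_toMatrix']
    exact (h σ x).symm
  rw [← hcomm, mul_assoc, U.mul_inv, mul_one]

/-- Equivalent representations have conjugate matrices. -/
lemma matConj_of_isEquiv {ρ ρ' : GaloisRepAdic A} (b : Module.Basis (Fin 2) A ρ.V)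
    (b' : Module.Basis (Fin 2) A ρ'.V) (h : ρ.IsEquiv ρ') :
    MatConj (matrixIn ρ b) (matrixIn ρ' b') := by
  obtain ⟨e⟩ := h
  refine matConj_of_intertwine ((b.equivFun.symm.trans e.toLinearEquiv).trans b'.equivFun)
    fun σ x => ?_
  simp only [LinearEquiv.trans_apply]
  rw [← repr_apply_eq_mulVec, ← e.map_apply]
  congr 2
  apply b.equivFun.injective
  rw [LinearEquiv.apply_symm_apply, repr_apply_eq_mulVec, LinearEquiv.apply_symm_apply]

/-- The matrices of `toRep M` in the standard basis are `M`. -/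
lemma matrixIn_toRep (M : MatRep A) (h : MatContinuous A M) :
    matrixIn (toRep M h) (Pi.basisFun A (Fin 2)) = M :=
  MonoidHom.ext fun σ => LinearMap.toMatrix'_toLin' (M σ)

/-- Equivalent representations come from conjugate matrix representations. -/
lemma matConj_of_isEquiv_toRep {M M' : MatRep A} {hM : MatContinuous A M}
    {hM' : MatContinuous A M'} (h : (toRep M hM).IsEquiv (toRep M' hM')) : MatConj M M' := by
  have := matConj_of_isEquiv (Pi.basisFun A (Fin 2)) (Pi.basisFun A (Fin 2)) h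
  rwa [matrixIn_toRep, matrixIn_toRep] at this

/-- Representations are equivalent iff their matrices are conjugate. -/
lemma isEquiv_iff_matConj (ρ ρ' : GaloisRepAdic A) (b : Module.Basis (Fin 2) A ρ.V)
    (b' : Module.Basis (Fin 2) A ρ'.V) :
    ρ.IsEquiv ρ' ↔ MatConj (matrixIn ρ b) (matrixIn ρ' b') := by
  refine ⟨matConj_of_isEquiv b b', fun h => ?_⟩
  obtain ⟨e₁⟩ := isEquiv_toRep_matrixIn ρ b
  obtain ⟨e₂⟩ := isEquiv_toRep_matrixIn ρ' b'
  obtain ⟨e₃⟩ := isEquiv_toRep_of_matConj (matContinuous_matrixIn ρ b)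
    (matContinuous_matrixIn ρ' b') h
  exact ⟨(e₁.trans e₃).trans e₂.symm⟩

/-- Base change of `toRep M` is `toRep` of the image of `M`. -/
lemma baseChangeAlong_toRep (φ : A →+* B) (hφ : IsLocalHom φ) (M : MatRep A)
    (h : MatContinuous A M) :
    ((toRep M h).baseChangeAlong φ hφ).IsEquiv (toRep (mapRep φ M) (h.map φ)) := by
  let : Algebra A B := φ.toAlgebra
  let b : Module.Basis (Fin 2) B (B ⊗[A] (Fin 2 → A)) :=
    Algebra.TensorProduct.basis B (Pi.basisFun A (Fin 2))
  have hb : matrixIn ((toRep M h).baseChangeAlong φ hφ) b = mapRep φ M := by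
    refine MonoidHom.ext fun σ => ?_
    have h1 := LinearMap.toMatrix_baseChange (A := B) ((toRep M h).ρ σ)
      (Pi.basisFun A (Fin 2)) (Pi.basisFun A (Fin 2))
    refine Eq.trans (show matrixIn ((toRep M h).baseChangeAlong φ hφ) b σ =
      ((LinearMap.toMatrix (Pi.basisFun A (Fin 2)) (Pi.basisFun A (Fin 2)))
        ((toRep M h).ρ σ)).map (algebraMap A B) from h1) ?_
    have h2 : LinearMap.toMatrix (Pi.basisFun A (Fin 2)) (Pi.basisFun A (Fin 2))
        ((toRep M h).ρ σ) = M σ := congrArg (fun f => f σ) (matrixIn_toRep M h)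
    rw [h2]
    rfl
  obtain ⟨e⟩ := isEquiv_toRep_matrixIn ((toRep M h).baseChangeAlong φ hφ) b
  obtain ⟨e'⟩ := isEquiv_toRep_of_matConj
    (matContinuous_matrixIn ((toRep M h).baseChangeAlong φ hφ) b) (h.map φ)
    (M' := mapRep φ M) ⟨1, fun σ => by rw [hb]; simp⟩
  exact ⟨e.trans e'⟩

/-- Krull intersection in a Noetherian local ring. -/
lemma eq_zero_of_forall_mem_pow {R : Type*} [CommRing R] [IsLocalRing R] [IsNoetherianRing R]
    {x : R} (h : ∀ n, x ∈ maximalIdeal R ^ n) : x = 0 := by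
  have : x ∈ ⨅ n, maximalIdeal R ^ n := Ideal.mem_iInf.mpr h
  rwa [Ideal.iInf_pow_eq_bot_of_isLocalRing _ (maximalIdeal.isMaximal R).ne_top, Ideal.mem_bot]
    at this

end FermatAgent.GaloisBasic
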