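import Mathlib
import Fermat.Agent.GaloisBasic.MatrixLift

/-!
# Residual representations in matrices, and Burnside's theorem in dimension two
-/

set_option autoImplicit false

noncomputable section

open IsLocalRing
open scoped TensorProduct

namespace FermatAgent.GaloisBasic

section Residual

variable {k k' : Type} [Field k] [Field k']

/-- A chosen matrix model of a residual representation. -/
def residualMatrix (ρ : ResidualGaloisRep k) : MatRep k :=
  matrixIn (GaloisRepAdic.ofResidualGaloisRep ρ)
    (Module.finBasisOfFinrankEq k ρ.V ρ.finrank_eq)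

lemma ofResidual_isEquiv_iff (r r' : ResidualGaloisRep k) :
    r.IsEquiv r' ↔
      (GaloisRepAdic.ofResidualGaloisRep r).IsEquiv (GaloisRepAdic.ofResidualGaloisRep r') :=
  ⟨fun ⟨e⟩ => ⟨{ toLinearEquiv := e.toLinearEquiv, map_apply := e.map_apply }⟩,
    fun ⟨e⟩ => ⟨{ toLinearEquiv := e.toLinearEquiv, map_apply := e.map_apply }⟩⟩

lemma residual_isEquiv_iff (r r' : ResidualGaloisRep k)
    (b : Module.Basis (Fin 2) k (GaloisRepAdic.ofResidualGaloisRep r).V)
    (b' : Module.Basis (Fin 2) k (GaloisRepAdic.ofResidualGaloisRep r').V) :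
    r.IsEquiv r' ↔ MatConj (matrixIn (GaloisRepAdic.ofResidualGaloisRep r) b)
      (matrixIn (GaloisRepAdic.ofResidualGaloisRep r') b') :=
  (ofResidual_isEquiv_iff r r').trans (isEquiv_iff_matConj _ _ b b')

/-- Matrices of a base-changed residual representation. -/
lemma matrixIn_baseChangeAlong (φ : k →+* k') (r : ResidualGaloisRep k)
    (b : Module.Basis (Fin 2) k r.V) :
    ∃ b' : Module.Basis (Fin 2) k' (r.baseChangeAlong φ).V,
      matrixIn (GaloisRepAdic.ofResidualGaloisRep (r.baseChangeAlong φ)) b' =
        mapRep φ (matrixIn (GaloisRepAdic.ofResidualGaloisRep r) b) := by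
  let : Algebra k k' := φ.toAlgebra
  refine ⟨Algebra.TensorProduct.basis k' b, MonoidHom.ext fun σ => ?_⟩
  exact LinearMap.toMatrix_baseChange (A := k') (r.ρ σ) b b

variable {A : Type} [CommRing A] [IsLocalRing A]

/-- Matrices of the residual representation. -/
lemma matrixIn_residual (ρ : GaloisRepAdic A) (b : Module.Basis (Fin 2) A ρ.V) :
    ∃ b' : Module.Basis (Fin 2) (ResidueField A) ρ.residual.V,
      matrixIn (GaloisRepAdic.ofResidualGaloisRep ρ.residual) b' =
        mapRep (residue A) (matrixIn ρ b) :=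
  ⟨Algebra.TensorProduct.basis (ResidueField A) b, MonoidHom.ext fun σ =>
    LinearMap.toMatrix_baseChange (A := ResidueField A) (ρ.ρ σ) b b⟩

/-- The residual condition of the deformation problem in matrices. -/
lemma residual_isEquiv_baseChangeAlong_iff (ρ : GaloisRepAdic A)
    (b : Module.Basis (Fin 2) A ρ.V) (φ : k →+* ResidueField A) (r : ResidualGaloisRep k) :
    ρ.residual.IsEquiv (r.baseChangeAlong φ) ↔
      MatConj (mapRep (residue A) (matrixIn ρ b)) (mapRep φ (residualMatrix r)) := by
  obtain ⟨b₁, h₁⟩ := matrixIn_residual ρ b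
  obtain ⟨b₂, h₂⟩ := matrixIn_baseChangeAlong φ r (Module.finBasisOfFinrankEq k r.V r.finrank_eq)
  rw [residual_isEquiv_iff _ _ b₁ b₂, h₁, h₂]
  rfl

end Residual

/-! ### Burnside in dimension two -/

section Burnside

variable {K : Type} [Field K]

/-- Over an algebraically closed field, an irreducible algebra of 2×2 matrices is everything. -/
lemma subalgebra_eq_top_of_irreducible [IsAlgClosed K]
    (S : Subalgebra K (Matrix (Fin 2) (Fin 2) K))
    (h : ∀ W : Submodule K (Fin 2 → K), (∀ s ∈ S, ∀ x ∈ W, s.mulVec x ∈ W) → W = ⊥ ∨ W = ⊤) :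
    S = ⊤ := by
  let e := Matrix.toLinAlgEquiv' (R := K) (n := Fin 2)
  let T := S.map e.toAlgHom
  have : IsSimpleModule T (Fin 2 → K) :=
    { eq_bot_or_eq_top := fun W => (h (W.restrictScalars K) fun s hs x hx =>
          W.smul_mem ⟨e s, s, hs, rfl⟩ hx).imp (by simp) (by simp)
      exists_pair_ne := ⟨⊥, ⊤, bot_ne_top⟩ }
  have : Module.Finite (Module.End T (Fin 2 → K)) (Fin 2 → K) :=
    Module.Finite.of_restrictScalars_finite K _ _
  refine eq_top_iff.mpr fun M _ => ?_
  -- Schur: the commutant is the scalars, so the density theorem applies to every matrix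
  have hend := IsSimpleModule.algebraMap_end_bijective_of_isAlgClosed (A := T) (V := Fin 2 → K) K
  obtain ⟨⟨_, s, hs, rfl⟩, ht⟩ := Module.Finite.toModuleEnd_moduleEnd_surjective (R := T)
    (M := Fin 2 → K)
    { toFun := e M
      map_add' := map_add _
      map_smul' := fun f x => by
        obtain ⟨c, rfl⟩ := hend.2 f
        simp }
  have hM : s = M := e.injective (LinearMap.ext fun x => congr($ht x))
  exact hM ▸ hs

/-- Burnside: an irreducible representation over an algebraically closed field spans in any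
basis. -/
theorem span_range_eq_top_of_isIrreducible [IsAlgClosed K] (r : ResidualGaloisRep K)
    (h : r.IsIrreducible) (b : Module.Basis (Fin 2) K r.V) :
    Submodule.span K (Set.range (matrixIn (GaloisRepAdic.ofResidualGaloisRep r) b)) = ⊤ := by
  set N := matrixIn (GaloisRepAdic.ofResidualGaloisRep r) b
  have hS : Algebra.adjoin K (Set.range N) = ⊤ := by
    refine subalgebra_eq_top_of_irreducible _ fun W hW => ?_
    have hinj := Submodule.comap_injective_of_surjective (f := b.equivFun.toLinearMap)
      b.equivFun.surjective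
    refine (h (W.comap b.equivFun.toLinearMap) fun σ x hx => Submodule.mem_comap.mpr ?_).imp
      (fun h1 => hinj (h1.trans ?_)) fun h1 => hinj h1
    · exact Set.mem_of_eq_of_mem (repr_apply_eq_mulVec (GaloisRepAdic.ofResidualGaloisRep r) b σ x)
        (hW _ (Algebra.subset_adjoin ⟨σ, rfl⟩) _ hx)
    · exact (LinearMap.ker_eq_bot.mpr b.equivFun.injective).symm
  rw [← Algebra.top_toSubmodule, ← hS, Algebra.adjoin_eq_span, ← MonoidHom.coe_mrange,
    Submonoid.closure_eq, MonoidHom.coe_mrange]

/-- Burnside: the image of an absolutely irreducible two-dimensional representation spans. -/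
theorem span_range_eq_top_of_absIrr {k : Type} [Field k] (r : ResidualGaloisRep k)
    (h : r.IsAbsolutelyIrreducible) :
    Submodule.span k (Set.range (residualMatrix r)) = ⊤ := by
  by_contra hne
  set Ω := AlgebraicClosure k
  let φ : k →+* Ω := algebraMap k Ω
  let b := Module.finBasisOfFinrankEq k r.V r.finrank_eq
  let bΩ : Module.Basis (Fin 2) Ω (r.baseChange Ω).V := Algebra.TensorProduct.basis Ω b
  let N : MatRep Ω := matrixIn (GaloisRepAdic.ofResidualGaloisRep (r.baseChange Ω)) bΩ
  have hN : ∀ σ, N σ = (residualMatrix r σ).map φ := fun σ =>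
    LinearMap.toMatrix_baseChange (A := Ω) (r.ρ σ) b b
  have hspanΩ : Submodule.span Ω (Set.range N) = ⊤ := span_range_eq_top_of_isIrreducible _ h bΩ
  obtain ⟨F, hF0, hF⟩ := Submodule.exists_le_ker_of_lt_top _ (lt_top_iff_ne_top.mpr hne)
  let c : Fin 2 → Fin 2 → k := fun i j => F (Matrix.single i j 1)
  have hFc : ∀ M, F M = ∑ i, ∑ j, M i j * c i j := by
    intro M
    conv_lhs => rw [Matrix.matrix_eq_sum_single M]
    simp only [map_sum, c]
    refine Finset.sum_congr rfl fun i _ => Finset.sum_congr rfl fun j _ => ?_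
    rw [show Matrix.single i j (M i j) = M i j • Matrix.single i j (1 : k) by
      rw [Matrix.smul_single, smul_eq_mul, mul_one], map_smul, smul_eq_mul]
  let FΩ : Matrix (Fin 2) (Fin 2) Ω →ₗ[Ω] Ω :=
    { toFun := fun M => ∑ i, ∑ j, M i j * φ (c i j)
      map_add' := fun M M' => by simp [add_mul, Finset.sum_add_distrib]
      map_smul' := fun a M => by simp [mul_assoc]; ring }
  have hker : ⊤ ≤ LinearMap.ker FΩ := by
    rw [← hspanΩ, Submodule.span_le]
    rintro _ ⟨σ, rfl⟩
    rw [SetLike.mem_coe, LinearMap.mem_ker]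
    have h1 := congrArg φ (LinearMap.mem_ker.mp (hF (Submodule.subset_span ⟨σ, rfl⟩)))
    rw [hFc, map_zero] at h1
    simp only [map_sum, map_mul] at h1
    simpa [FΩ, hN, Fin.sum_univ_two] using h1
  refine hF0 (LinearMap.ext fun M => ?_)
  have h2 : FΩ (M.map φ) = 0 := hker Submodule.mem_top
  rw [LinearMap.zero_apply, hFc]
  apply φ.injective
  rw [map_zero, ← h2]
  simp [FΩ]

end Burnside

end FermatAgent.GaloisBasic
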