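import Mathlib.Data.Matrix.Basis
import Mathlib.LinearAlgebra.Matrix.Trace
import Mathlib.LinearAlgebra.Span.Basic

/-!
# The trace pairing with a spanning family

A matrix orthogonal for the trace pairing to a family spanning the matrices is zero.
-/

set_option autoImplicit false

namespace FermatAgent.GaloisBasic

/-- A matrix orthogonal to a spanning family for the trace pairing is zero. -/
theorem eq_zero_of_trace_mul_span {A : Type*} [CommRing A] {ι n : Type*} [Fintype n]
    [DecidableEq n] {M : ι → Matrix n n A} (hspan : Submodule.span A (Set.range M) = ⊤)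
    {X : Matrix n n A} (h : ∀ g, (X * M g).trace = 0) : X = 0 := by
  refine Matrix.ext_iff_trace_mul_right.mpr fun Y => ?_
  rw [zero_mul, Matrix.trace_zero]
  have hY : Y ∈ Submodule.span A (Set.range M) := hspan ▸ Submodule.mem_top
  induction hY using Submodule.span_induction with
  | mem y hy => obtain ⟨g, rfl⟩ := hy; exact h g
  | zero => rw [mul_zero, Matrix.trace_zero]
  | add y z _ _ hy hz => rw [mul_add, Matrix.trace_add, hy, hz, add_zero]
  | smul a y _ hy => rw [Matrix.mul_smul, Matrix.trace_smul, hy, smul_zero]

end FermatAgent.GaloisBasic
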