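import Mathlib

/-!
# The variables and a uniformiser form a regular sequence in a power series ring
-/

set_option autoImplicit false

noncomputable section

open MvPowerSeries RingTheory.Sequence Pointwise

namespace FermatAgent.GaloisBasic

variable {σ A : Type} [CommRing A]

lemma mem_span_X_image_iff (s : Finset σ) (f : MvPowerSeries σ A) :
    f ∈ Ideal.span (MvPowerSeries.X '' (s : Set σ)) ↔
      ∀ m : σ →₀ ℕ, (∀ i ∈ s, m i = 0) → coeff m f = 0 := by
  classical
  induction s using Finset.induction generalizing f with
  | empty =>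
    simp only [Finset.coe_empty, Set.image_empty, Ideal.span_empty, Ideal.mem_bot]
    refine ⟨fun h m _ => by simp [h], fun h => MvPowerSeries.ext fun m => by
      rw [h m (by simp), map_zero]⟩
  | insert a s ha ih =>
    rw [Finset.coe_insert, Set.image_insert_eq, Ideal.mem_span_insert]
    constructor
    · rintro ⟨g, z, hz, rfl⟩ m hm
      have h1 : coeff m (g * X a) = 0 :=
        MvPowerSeries.X_dvd_iff.mp (Dvd.intro_left g rfl) m (hm a (Finset.mem_insert_self _ _))
      rw [map_add, h1, zero_add]
      exact (ih z).mp hz m fun i hi => hm i (Finset.mem_insert_of_mem hi)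
    · intro h
      let z : MvPowerSeries σ A := fun m => if m a = 0 then coeff m f else 0
      have hcz : ∀ m, coeff m z = if m a = 0 then coeff m f else 0 := fun m => rfl
      have hdvd : (X a : MvPowerSeries σ A) ∣ f - z := by
        rw [MvPowerSeries.X_dvd_iff]
        intro m hm
        rw [map_sub, hcz, if_pos hm, sub_self]
      obtain ⟨g, hg⟩ := hdvd
      refine ⟨g, z, (ih z).mpr fun m hm => ?_, by rw [mul_comm, ← hg]; ring⟩
      rw [hcz]
      split_ifs with hma
      · refine h m fun i hi => ?_
        rcases Finset.mem_insert.mp hi with rfl | hi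
        · exact hma
        · exact hm i hi
      · rfl

/-- The variables generate the series without constant term. -/
lemma mem_span_range_X_iff [Fintype σ] (f : MvPowerSeries σ A) :
    f ∈ Ideal.span (Set.range (MvPowerSeries.X : σ → MvPowerSeries σ A)) ↔
      constantCoeff f = 0 := by
  rw [← Set.image_univ, ← Finset.coe_univ, mem_span_X_image_iff]
  constructor
  · intro h
    rw [← coeff_zero_eq_constantCoeff_apply]
    exact h 0 (by simp)
  · intro h m hm
    have : m = 0 := Finsupp.ext fun i => hm i (Finset.mem_univ i)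
    rw [this, coeff_zero_eq_constantCoeff_apply, h]

lemma isSMulRegular_quotient_span_X (s : Finset σ) (j : σ) (hj : j ∉ s)
    (f : MvPowerSeries σ A)
    (h : MvPowerSeries.X j * f ∈ Ideal.span (MvPowerSeries.X '' (s : Set σ))) :
    f ∈ Ideal.span (MvPowerSeries.X '' (s : Set σ)) := by
  classical
  rw [mem_span_X_image_iff] at h ⊢
  intro m hm
  have h1 := h (Finsupp.single j 1 + m) fun i hi => by
    have : i ≠ j := fun e => hj (e ▸ hi)
    simp [Finsupp.single_eq_of_ne this, hm i hi]
  rwa [MvPowerSeries.X, coeff_add_monomial_mul, one_mul] at h1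

/-- `X₀, …, X_{r-1}, C a` is weakly regular on `A⟦X₀,…,X_{r-1}⟧` for a regular `a : A`. -/
theorem isWeaklyRegular_X_C (r : ℕ) {a : A} (ha : IsSMulRegular A a) :
    IsWeaklyRegular (MvPowerSeries (Fin r) A)
      (List.ofFn (MvPowerSeries.X : Fin r → MvPowerSeries (Fin r) A) ++ [MvPowerSeries.C a]) := by
  classical
  set P := MvPowerSeries (Fin r) A
  set rs : List P := List.ofFn (MvPowerSeries.X : Fin r → P) ++ [MvPowerSeries.C a]
  have hlen : rs.length = r + 1 := by simp [rs]
  rw [isWeaklyRegular_iff]
  intro i hi
  rw [isSMulRegular_iff_right_eq_zero_of_smul]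
  intro q hq
  obtain ⟨f, rfl⟩ := Submodule.Quotient.mk_surjective _ q
  rw [← Submodule.Quotient.mk_smul, Submodule.Quotient.mk_eq_zero] at hq
  rw [Submodule.Quotient.mk_eq_zero]
  have hid : ∀ I : Ideal P, I • (⊤ : Submodule P P) = I := fun I => by
    rw [smul_eq_mul]; exact Ideal.mul_top I
  rw [hid, smul_eq_mul] at hq
  rw [hid]
  have htake : ∀ k, k ≤ r → Ideal.ofList (rs.take k) =
      Ideal.span (MvPowerSeries.X ''
        ((Finset.univ.filter fun j : Fin r => (j : ℕ) < k) : Set (Fin r))) := by
    intro k hk
    unfold Ideal.ofList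
    congr 1
    ext x
    simp only [Set.mem_ofPred_eq, Finset.coe_filter, Finset.mem_univ, true_and, Set.mem_image]
    rw [List.take_append_of_le_length (by simpa using hk), List.mem_take_iff_getElem]
    constructor
    · rintro ⟨j, hj, rfl⟩
      simp only [List.length_ofFn, lt_min_iff] at hj
      exact ⟨⟨j, hj.2⟩, hj.1, by simp [P]⟩
    · rintro ⟨j, hj, rfl⟩
      exact ⟨j, by rw [List.length_ofFn]; exact lt_min hj j.2, by simp [P]⟩
  by_cases hir : i < r
  · have hg : rs[i] = MvPowerSeries.X (⟨i, hir⟩ : Fin r) := by
      simp [rs, P, List.getElem_append_left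
        (show i < (List.ofFn (MvPowerSeries.X : Fin r → P)).length by simpa using hir)]
    rw [hg, htake i hir.le] at hq
    rw [htake i hir.le]
    exact isSMulRegular_quotient_span_X _ _ (by simp) f hq
  · have hir' : i = r := by omega
    subst hir'
    have hg : rs[i] = MvPowerSeries.C a := by simp [rs, P]
    have hall : ((Finset.univ.filter fun j : Fin i => (j : ℕ) < i) : Finset (Fin i)) =
        Finset.univ :=
      Finset.filter_true_of_mem fun j _ => j.2
    rw [hg, htake i le_rfl, hall, Finset.coe_univ, Set.image_univ, mem_span_range_X_iff,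
      map_mul, constantCoeff_C] at hq
    rw [htake i le_rfl, hall, Finset.coe_univ, Set.image_univ, mem_span_range_X_iff]
    exact ha.right_eq_zero_of_smul hq

/-- A power series over a local ring is a nonunit iff its constant term is. -/
lemma mem_maximalIdeal_iff_constantCoeff [IsLocalRing A] (f : MvPowerSeries σ A) :
    f ∈ IsLocalRing.maximalIdeal (MvPowerSeries σ A) ↔
      constantCoeff f ∈ IsLocalRing.maximalIdeal A := by
  rw [IsLocalRing.mem_maximalIdeal, IsLocalRing.mem_maximalIdeal, mem_nonunits_iff,
    mem_nonunits_iff, MvPowerSeries.isUnit_iff_constantCoeff]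

/-- The maximal ideal of a power series ring is generated by a uniformiser and the variables. -/
lemma maximalIdeal_eq_span (r : ℕ) [IsLocalRing A] {a : A}
    (ha : IsLocalRing.maximalIdeal A = Ideal.span {a}) :
    IsLocalRing.maximalIdeal (MvPowerSeries (Fin r) A) =
      Ideal.span (Set.range (Fin.cons (MvPowerSeries.C a)
        (MvPowerSeries.X : Fin r → MvPowerSeries (Fin r) A) : Fin (r + 1) → _)) := by
  rw [Fin.range_cons]
  apply le_antisymm
  · intro f hf
    rw [mem_maximalIdeal_iff_constantCoeff, ha, Ideal.mem_span_singleton'] at hf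
    obtain ⟨c, hc⟩ := hf
    rw [Ideal.mem_span_insert]
    refine ⟨MvPowerSeries.C c, f - MvPowerSeries.C c * MvPowerSeries.C a, ?_, by ring⟩
    rw [mem_span_range_X_iff]
    simp [hc]
  · rw [Ideal.span_le]
    intro x hx
    rw [SetLike.mem_coe, mem_maximalIdeal_iff_constantCoeff]
    rcases hx with rfl | ⟨i, rfl⟩
    · rw [constantCoeff_C, ha]
      exact Ideal.subset_span rfl
    · simp

end FermatAgent.GaloisBasic
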