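import Mathlib
import Fermat.Agent.GaloisBasic.PowerSeriesRegular

/-!
# Power series over a complete local ring are complete; evaluation at nilpotents
-/

set_option autoImplicit false

noncomputable section

open MvPowerSeries IsLocalRing Finsupp

namespace FermatAgent.GaloisBasic

/-- The coefficient ring maps locally into the power series. -/
lemma isLocalHom_algebraMap_series {A : Type} [CommRing A] {ι : Type} :
    IsLocalHom (algebraMap A (MvPowerSeries ι A)) :=
  ⟨fun a ha => by
    rw [MvPowerSeries.isUnit_iff_constantCoeff] at ha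
    simpa [MvPowerSeries.algebraMap_apply] using ha⟩

variable {σ : Type} [Finite σ] {A : Type} [CommRing A] [IsLocalRing A]

/-- Series whose degree `e` coefficient lies in `m^(n - e)`. -/
def coeffFiltration (n : ℕ) : Ideal (MvPowerSeries σ A) where
  carrier := {f | ∀ d : σ →₀ ℕ, coeff d f ∈ maximalIdeal A ^ (n - degree d)}
  zero_mem' d := by simp
  add_mem' hf hg d := by rw [map_add]; exact add_mem (hf d) (hg d)
  smul_mem' g f hf d := by
    classical
    rw [smul_eq_mul, coeff_mul]
    refine Ideal.sum_mem _ fun p hp => Ideal.mul_mem_left _ _ ?_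
    rw [Finset.HasAntidiagonal.mem_antidiagonal] at hp
    refine Ideal.pow_le_pow_right ?_ (hf p.2)
    rw [← hp, map_add]
    omega

omit [Finite σ] in
/-- Powers of the maximal ideal lie in the coefficient filtration. -/
lemma pow_le_coeffFiltration (n : ℕ) :
    maximalIdeal (MvPowerSeries σ A) ^ n ≤ coeffFiltration n := by
  induction n with
  | zero => intro f _ d; simp
  | succ n ih =>
    rw [pow_succ']
    refine Ideal.mul_le.mpr fun g hg f hf d => ?_
    classical
    rw [coeff_mul]
    refine Ideal.sum_mem _ fun p hp => ?_
    rw [Finset.HasAntidiagonal.mem_antidiagonal] at hp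
    have hdeg : degree p.1 + degree p.2 = degree d := by rw [← map_add, hp]
    by_cases h0 : p.1 = 0
    · rw [h0, map_zero, zero_add] at hdeg
      rw [h0, coeff_zero_eq_constantCoeff_apply]
      have hg' := (mem_maximalIdeal_iff_constantCoeff g).mp hg
      refine Ideal.pow_le_pow_right (show n + 1 - degree d ≤ n - degree p.2 + 1 by omega) ?_
      rw [pow_succ']
      exact Ideal.mul_mem_mul hg' (ih hf p.2)
    · have hpos : 0 < degree p.1 := Nat.pos_of_ne_zero fun h => h0 (degree_eq_zero_iff _ |>.mp h)
      exact Ideal.mul_mem_left _ _ (Ideal.pow_le_pow_right (by omega) (ih hf p.2))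

/-- The coefficient filtration is the adic filtration. -/
lemma coeffFiltration_le_maximalIdeal_pow :
    ∀ n : ℕ, coeffFiltration n ≤ maximalIdeal (MvPowerSeries σ A) ^ n := by
  classical
  have := Fintype.ofFinite σ
  intro n
  induction n with
  | zero => simp
  | succ n ih =>
    intro f hf
    let : LinearOrder σ := LinearOrder.lift' _ (Fintype.equivFin σ).injective
    let g : σ → MvPowerSeries σ A := fun i d =>
      if ∀ j < i, d j = 0 then coeff (d + Finsupp.single i 1) f else 0
    have hg : ∀ i, g i ∈ coeffFiltration n := by
      intro i d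
      show (if ∀ j < i, d j = 0 then coeff (d + Finsupp.single i 1) f else 0) ∈ _
      split_ifs
      · have := hf (d + Finsupp.single i 1)
        rwa [map_add, degree_single, Nat.add_sub_add_right] at this
      · exact Ideal.zero_mem _
    have hdecomp : f = MvPowerSeries.C (coeff 0 f) + ∑ i, MvPowerSeries.X i * g i := by
      ext d
      rw [map_add, map_sum, coeff_C]
      have hterm : ∀ i, coeff d (MvPowerSeries.X i * g i) =
          if d i ≠ 0 ∧ ∀ j < i, d j = 0 then coeff d f else 0 := by
        intro i
        rw [MvPowerSeries.X, coeff_monomial_mul]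
        by_cases hi : d i = 0
        · rw [if_neg, if_neg]
          · exact fun h => h.1 hi
          · intro h
            have := h i
            simp [hi] at this

        · have hle : Finsupp.single i 1 ≤ d := by
            intro j
            by_cases hj : j = i
            · subst hj; simp; omega
            · simp [Finsupp.single_eq_of_ne hj]
          rw [if_pos hle, one_mul]
          show (if ∀ j < i, (d - Finsupp.single i 1 : σ →₀ ℕ) j = 0 then
            coeff ((d - Finsupp.single i 1) + Finsupp.single i 1) f else 0) = _
          rw [tsub_add_cancel_of_le hle]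
          refine if_congr ?_ rfl rfl
          simp only [ne_eq, hi, not_false_eq_true, true_and]
          refine forall₂_congr fun j hj => ?_
          rw [Finsupp.tsub_apply, Finsupp.single_eq_of_ne hj.ne, Nat.sub_zero]
      simp only [hterm]
      by_cases hd : d = 0
      · subst hd; simp
      · rw [if_neg hd, zero_add]
        obtain ⟨i₀, hi₀, hmin⟩ := Finset.exists_min_image d.support id
          (Finsupp.support_nonempty_iff.mpr hd)
        rw [Finset.sum_eq_single i₀]
        · have hlo : ∀ j < i₀, d j = 0 := fun j hj => by
            by_contra h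
            exact absurd (hmin j (Finsupp.mem_support_iff.mpr h)) (not_le.mpr hj)
          rw [if_pos ⟨Finsupp.mem_support_iff.mp hi₀, hlo⟩]
        · intro i _ hne
          rw [if_neg]
          rintro ⟨h1, h2⟩
          rcases lt_or_gt_of_ne hne with h | h
          · exact absurd (hmin i (Finsupp.mem_support_iff.mpr h1)) (not_le.mpr h)
          · exact Finsupp.mem_support_iff.mp hi₀ (h2 i₀ h)
        · intro h; exact absurd (Finset.mem_univ i₀) h
    rw [hdecomp]
    refine add_mem ?_ (Ideal.sum_mem _ fun i _ => ?_)
    · have h0 := hf 0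
      rw [map_zero, Nat.sub_zero] at h0
      have hle : (maximalIdeal A).map (MvPowerSeries.C (σ := σ)) ≤
          maximalIdeal (MvPowerSeries σ A) :=
        Ideal.map_le_iff_le_comap.mpr fun x hx => by
          rw [Ideal.mem_comap, mem_maximalIdeal_iff_constantCoeff, constantCoeff_C]; exact hx
      refine Ideal.pow_right_mono hle (n + 1) ?_
      rw [← Ideal.map_pow]
      exact Ideal.mem_map_of_mem _ h0
    · rw [pow_succ']
      refine Ideal.mul_mem_mul ?_ (ih (hg i))
      rw [mem_maximalIdeal_iff_constantCoeff, constantCoeff_X]
      exact Ideal.zero_mem _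

/-- A series is congruent to its truncation. -/
lemma sub_truncTotal_mem_pow (f : MvPowerSeries σ A) (n : ℕ) :
    f - (truncTotal n f : MvPolynomial σ A) ∈ maximalIdeal (MvPowerSeries σ A) ^ n := by
  refine coeffFiltration_le_maximalIdeal_pow n fun d => ?_
  by_cases hd : degree d < n
  · rw [map_sub, MvPolynomial.coeff_coe, coeff_truncTotal _ hd, sub_self]
    exact Ideal.zero_mem _
  · rw [Nat.sub_eq_zero_of_le (not_lt.mp hd)]
    simp

/-- Power series in finitely many variables over a complete local ring form a complete local
ring. -/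
theorem isAdicComplete_mvPowerSeries_of_complete [IsAdicComplete (maximalIdeal A) A] :
    IsAdicComplete (maximalIdeal (MvPowerSeries σ A)) (MvPowerSeries σ A) := by
  refine IsAdicComplete.mk (toIsHausdorff := ⟨fun f hf => ?_⟩) (toIsPrecomplete := ⟨fun u hu => ?_⟩)
  · ext d
    rw [map_zero]
    refine IsHausdorff.haus' (I := maximalIdeal A) _ fun n => ?_
    have h := hf (n + degree d)
    rw [SModEq.zero, smul_eq_mul, Ideal.mul_top] at h ⊢
    simpa using pow_le_coeffFiltration (n + degree d) h d
  · have hu' : ∀ {m n}, m ≤ n → ∀ d, coeff d (u m) - coeff d (u n) ∈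
        maximalIdeal A ^ (m - degree d) := fun {m n} h d => by
      have := hu h
      rw [SModEq.sub_mem, smul_eq_mul, Ideal.mul_top] at this
      rw [← map_sub]
      exact pow_le_coeffFiltration m this d
    have hlim : ∀ d : σ →₀ ℕ, ∃ L, ∀ k, coeff d (u (k + degree d)) - L ∈ maximalIdeal A ^ k := by
      intro d
      obtain ⟨L, hL⟩ := IsPrecomplete.prec' (I := maximalIdeal A)
        (fun k => coeff d (u (k + degree d)))
        (fun {m n} h => by
          rw [SModEq.sub_mem, smul_eq_mul, Ideal.mul_top]
          simpa using hu' (Nat.add_le_add_right h (degree d)) d)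
      refine ⟨L, fun k => ?_⟩
      have := hL k
      rwa [SModEq.sub_mem, smul_eq_mul, Ideal.mul_top] at this
    choose L hL using hlim
    let lim : MvPowerSeries σ A := fun d => L d
    refine ⟨lim, fun n => ?_⟩
    rw [SModEq.sub_mem, smul_eq_mul, Ideal.mul_top]
    refine coeffFiltration_le_maximalIdeal_pow n fun d => ?_
    rw [map_sub]
    show coeff d (u n) - L d ∈ _
    by_cases h : degree d ≤ n
    · have := hL d (n - degree d)
      rwa [Nat.sub_add_cancel h] at this
    · rw [Nat.sub_eq_zero_of_le (by omega)]
      simp

section Eval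

variable {R B : Type} [CommRing R] [CommRing B] [Algebra R B]

/-- Evaluation of power series at elements of an ideal with vanishing `n`-th power. -/
def evalNilpotent (x : σ → B) (I : Ideal B) (hx : ∀ i, x i ∈ I) {n : ℕ} (hI : I ^ n = ⊥) :
    MvPowerSeries σ R →ₐ[R] B :=
  (Ideal.Quotient.liftₐ (MvPolynomial.idealOfVars σ R ^ n) (MvPolynomial.aeval x) (fun p hp => by
    have h : (MvPolynomial.idealOfVars σ R).map (MvPolynomial.aeval (R := R) x) ≤ I := by
      rw [Ideal.map_le_iff_le_comap, MvPolynomial.idealOfVars, Ideal.span_le]
      rintro _ ⟨i, rfl⟩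
      simpa using hx i
    have h2 := Ideal.pow_right_mono h n (by rw [← Ideal.map_pow]; exact Ideal.mem_map_of_mem _ hp)
    rwa [hI, Ideal.mem_bot] at h2)).comp
    ((MvPowerSeries.truncTotalAlgHom σ R n).restrictScalars R)

/-- Evaluation at nilpotents extends the evaluation of polynomials. -/
lemma evalNilpotent_coe (x : σ → B) (I : Ideal B) (hx : ∀ i, x i ∈ I) {n : ℕ} (hI : I ^ n = ⊥)
    (p : MvPolynomial σ R) :
    evalNilpotent x I hx hI (p : MvPowerSeries σ R) = MvPolynomial.aeval x p := by
  have h := (MvPowerSeries.truncTotalAlgHom σ R n).commutes p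
  rw [show (algebraMap (MvPolynomial σ R) (MvPowerSeries σ R)) p = (p : MvPowerSeries σ R) from rfl]
    at h
  simp only [evalNilpotent, AlgHom.coe_comp, Function.comp_apply, AlgHom.coe_restrictScalars']
  rw [h]
  rfl

/-- A variable evaluates to its value. -/
lemma evalNilpotent_X (x : σ → B) (I : Ideal B) (hx : ∀ i, x i ∈ I) {n : ℕ} (hI : I ^ n = ⊥)
    (i : σ) : evalNilpotent (R := R) x I hx hI (MvPowerSeries.X i) = x i := by
  rw [← MvPolynomial.coe_X, evalNilpotent_coe, MvPolynomial.aeval_X]

end Eval

end FermatAgent.GaloisBasic
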