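import Fermat.Agent.GaloisBasic.AdicLimit
import Mathlib
import Fermat.Agent.GaloisBasic.ResidualMatrix

/-!
# Normalised lifts of an absolutely irreducible residual representation

A lift `M` is normalised if a fixed element `x` of the group algebra acts by a diagonal matrix and a
fixed element `y` has lower-left entry `1`.  Each lift is conjugate to exactly one normalised one.
-/

set_option autoImplicit false

noncomputable section

open IsLocalRing

namespace FermatAgent.GaloisBasic

lemma exists_fixed_point {A : Type} [CommRing A] [IsLocalRing A]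
    [IsAdicComplete (maximalIdeal A) A] {α β : A} (hα : α ∈ maximalIdeal A)
    (hβ : β ∈ maximalIdeal A) : ∃ t ∈ maximalIdeal A, t = α + β * t ^ 2 := by
  let f : A → A := fun t => α + β * t ^ 2
  let t : ℕ → A := fun n => f^[n] 0
  have hsucc : ∀ n, t (n + 1) = α + β * t n ^ 2 := fun n => Function.iterate_succ_apply' f n 0
  have hmem : ∀ n, t n ∈ maximalIdeal A := by
    intro n
    cases n with
    | zero => exact Ideal.zero_mem _
    | succ n => rw [hsucc]; exact add_mem hα (Ideal.mul_mem_right _ _ hβ)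
  have hdiff : ∀ n, t (n + 1) - t n ∈ maximalIdeal A ^ n := by
    intro n
    induction n with
    | zero => simp
    | succ n ih =>
      rw [hsucc (n + 1), hsucc n, show α + β * (α + β * t n ^ 2) ^ 2 - (α + β * t n ^ 2) =
        (β * ((α + β * t n ^ 2) + t n)) * ((α + β * t n ^ 2) - t n) by ring, pow_succ']
      rw [← hsucc n]
      exact Ideal.mul_mem_mul (Ideal.mul_mem_right _ _ hβ) ih
  obtain ⟨L, hL⟩ := exists_limit_of_succ (maximalIdeal A) t hdiff
  have hL' : ∀ n, t n - L ∈ maximalIdeal A ^ n := fun n => by simpa using neg_mem (hL n)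
  have hLmem : L ∈ maximalIdeal A := by
    have h1 := hL' 1
    rw [pow_one] at h1
    have h2 := Ideal.sub_mem _ (hmem 1) h1
    rwa [sub_sub_cancel] at h2
  refine ⟨L, hLmem, sub_eq_zero.mp (IsHausdorff.haus' (I := maximalIdeal A) _ fun n => ?_)⟩
  rw [SModEq.zero, smul_eq_mul, Ideal.mul_top]
  have h1 : L - (α + β * L ^ 2) =
      -(t (n + 1) - L) + (β * (t n + L)) * (t n - L) := by rw [hsucc]; ring
  rw [h1]
  exact add_mem (neg_mem (Ideal.pow_le_pow_right n.le_succ (hL' (n + 1))))
    (Ideal.mul_mem_left _ _ (hL' n))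

variable (𝒪 : Type) [CommRing 𝒪] [IsLocalRing 𝒪]

/-- Group algebra elements used for normalisation. -/
structure NormData (rbar : MatRep (ResidueField 𝒪)) where
  /-- an element of the group algebra acting residually as the first diagonal matrix unit -/
  cx : GQ →₀ 𝒪
  /-- an element of the group algebra acting residually as the lower left matrix unit -/
  cy : GQ →₀ 𝒪
  cx_spec : cx.sum (fun g a => residue 𝒪 a • rbar g) = Matrix.single 0 0 1
  cy_spec : cy.sum (fun g a => residue 𝒪 a • rbar g) = Matrix.single 1 0 1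

variable {𝒪}

/-- Normalisation data exists as soon as the residual image spans. -/
lemma nonempty_normData (rbar : MatRep (ResidueField 𝒪))
    (h : Submodule.span (ResidueField 𝒪) (Set.range rbar) = ⊤) : Nonempty (NormData 𝒪 rbar) := by
  have key : ∀ N : Matrix (Fin 2) (Fin 2) (ResidueField 𝒪),
      ∃ c : GQ →₀ 𝒪, c.sum (fun g a => residue 𝒪 a • rbar g) = N := by
    intro N
    obtain ⟨c, hc⟩ := Finsupp.mem_span_range_iff_exists_finsupp.mp
      (show N ∈ Submodule.span (ResidueField 𝒪) (Set.range rbar) from h ▸ Submodule.mem_top)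
    obtain ⟨c', hc'⟩ := Finsupp.mapRange_surjective (α := GQ) (residue 𝒪) (map_zero _)
      residue_surjective c
    refine ⟨c', ?_⟩
    rw [← hc, ← hc', Finsupp.sum_mapRange_index]
    intro g
    exact zero_smul _ _
  obtain ⟨cx, hx⟩ := key (Matrix.single 0 0 1)
  obtain ⟨cy, hy⟩ := key (Matrix.single 1 0 1)
  exact ⟨⟨cx, cy, hx, hy⟩⟩

section

variable {A B : Type} [CommRing A] [CommRing B] [Algebra 𝒪 A] [Algebra 𝒪 B]

/-- The action of a group algebra element. -/
def linComb (c : GQ →₀ 𝒪) (M : MatRep A) : Matrix (Fin 2) (Fin 2) A :=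
  c.sum fun g a => algebraMap 𝒪 A a • M g

omit [IsLocalRing 𝒪] in
lemma linComb_conj (c : GQ →₀ 𝒪) {M M' : MatRep A} (U : (Matrix (Fin 2) (Fin 2) A)ˣ)
    (h : ∀ σ, M' σ = U.1 * M σ * (U⁻¹).1) :
    linComb c M' = U.1 * linComb c M * (U⁻¹).1 := by
  simp only [linComb, Finsupp.sum, Finset.mul_sum, Finset.sum_mul]
  refine Finset.sum_congr rfl fun g _ => ?_
  rw [h, Matrix.mul_smul, Matrix.smul_mul]

omit [IsLocalRing 𝒪] in
/-- Linear combinations of matrices commute with maps of algebras. -/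
lemma linComb_map (c : GQ →₀ 𝒪) (φ : A →+* B)
    (hφ : φ.comp (algebraMap 𝒪 A) = algebraMap 𝒪 B) (M : MatRep A) :
    linComb c (mapRep φ M) = (linComb c M).map φ := by
  simp only [linComb, Finsupp.sum]
  ext i j
  simp only [Matrix.map_apply, Matrix.sum_apply, Matrix.smul_apply, mapRep_apply, smul_eq_mul,
    map_sum, map_mul]
  refine Finset.sum_congr rfl fun g _ => ?_
  rw [← hφ, RingHom.comp_apply]

end

variable {rbar : MatRep (ResidueField 𝒪)} (nd : NormData 𝒪 rbar)
variable {A : Type} [CommRing A] [IsLocalRing A] [Algebra 𝒪 A] [IsLocalHom (algebraMap 𝒪 A)]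

/-- The structure map on residue fields. -/
abbrev iotaRes (A : Type) [CommRing A] [IsLocalRing A] [Algebra 𝒪 A]
    [IsLocalHom (algebraMap 𝒪 A)] : ResidueField 𝒪 →+* ResidueField A :=
  ResidueField.map (algebraMap 𝒪 A)

/-- Reduction is exactly `rbar`. -/
def HasResidual (rbar : MatRep (ResidueField 𝒪)) (M : MatRep A) : Prop :=
  mapRep (residue A) M = mapRep (iotaRes A) rbar

/-- The normalisation condition. -/
def IsNormal (nd : NormData 𝒪 rbar) (M : MatRep A) : Prop :=
  linComb nd.cx M 0 1 = 0 ∧ linComb nd.cx M 1 0 = 0 ∧ linComb nd.cy M 1 0 = 1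

lemma residue_linComb (c : GQ →₀ 𝒪) {M : MatRep A} (hM : HasResidual rbar M) (i j : Fin 2) :
    residue A (linComb c M i j) =
      iotaRes A ((c.sum fun g a => residue 𝒪 a • rbar g) i j) := by
  simp only [linComb, Finsupp.sum, Matrix.sum_apply, map_sum, Matrix.smul_apply, smul_eq_mul,
    map_mul]
  refine Finset.sum_congr rfl fun g _ => ?_
  have h1 := congrFun (congrFun (DFunLike.congr_fun hM g) i) j
  simp only [mapRep_apply, Matrix.map_apply] at h1
  rw [h1, iotaRes, ResidueField.map_residue]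

lemma residue_X {M : MatRep A} (hM : HasResidual rbar M) (i j : Fin 2) :
    residue A (linComb nd.cx M i j) = if i = 0 ∧ j = 0 then 1 else 0 := by
  rw [residue_linComb _ hM, nd.cx_spec]
  fin_cases i <;> fin_cases j <;> simp

lemma residue_Y {M : MatRep A} (hM : HasResidual rbar M) :
    residue A (linComb nd.cy M 1 0) = 1 := by
  rw [residue_linComb _ hM, nd.cy_spec]
  simp

/-- The difference of the diagonal entries of the chosen combination is a unit. -/
lemma isUnit_X_diag {M M' : MatRep A} (hM : HasResidual rbar M) (hM' : HasResidual rbar M') :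
    IsUnit (linComb nd.cx M 0 0 - linComb nd.cx M' 1 1) := by
  rw [← residue_ne_zero_iff_isUnit, map_sub, residue_X nd hM, residue_X nd hM']
  simp

/-- Conjugate normalised lifts are equal. -/
theorem IsNormal.eq_of_matConj {M M' : MatRep A} (hM : HasResidual rbar M)
    (hM' : HasResidual rbar M') (hn : IsNormal nd M) (hn' : IsNormal nd M')
    (h : MatConj M M') : M' = M := by
  obtain ⟨U, hU⟩ := h
  have hX : linComb nd.cx M' * U.1 = U.1 * linComb nd.cx M := by
    rw [linComb_conj nd.cx U hU, mul_assoc (U.1 * linComb nd.cx M), U.inv_mul, mul_one]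
  have hY : linComb nd.cy M' * U.1 = U.1 * linComb nd.cy M := by
    rw [linComb_conj nd.cy U hU, mul_assoc (U.1 * linComb nd.cy M), U.inv_mul, mul_one]
  obtain ⟨a01, a10, y10⟩ := hn
  obtain ⟨b01, b10, y10'⟩ := hn'
  have e01 := congrFun (congrFun hX 0) 1
  have e10 := congrFun (congrFun hX 1) 0
  simp only [Matrix.mul_apply, Fin.sum_univ_two, a01, a10, b01, b10, mul_zero, zero_mul,
    add_zero, zero_add] at e01 e10
  have u01 : U.1 0 1 = 0 := by
    refine (isUnit_X_diag nd hM' hM).mul_right_eq_zero.mp ?_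
    linear_combination e01
  have u10 : U.1 1 0 = 0 := by
    refine (isUnit_X_diag nd hM hM').mul_right_eq_zero.mp ?_
    linear_combination -e10
  have f10 := congrFun (congrFun hY 1) 0
  simp only [Matrix.mul_apply, Fin.sum_univ_two, y10, y10', u10, mul_zero, zero_mul,
    add_zero, zero_add, one_mul, mul_one] at f10
  have hUs : U.1 = U.1 0 0 • (1 : Matrix (Fin 2) (Fin 2) A) := by
    ext i j
    fin_cases i <;> fin_cases j <;> simp [u01, u10, ← f10]
  refine MonoidHom.ext fun σ => ?_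
  have hcomm : U.1 * M σ = M σ * U.1 := by
    rw [hUs, Matrix.smul_mul, Matrix.mul_smul, one_mul, mul_one]
  rw [hU, hcomm, mul_assoc, U.mul_inv, mul_one]

/-- Conjugate a representation by a unit. -/
def conjRep (U : (Matrix (Fin 2) (Fin 2) A)ˣ) (M : MatRep A) : MatRep A where
  toFun σ := U.1 * M σ * (U⁻¹).1
  map_one' := by simp
  map_mul' σ τ := by
    rw [map_mul]
    simp [mul_assoc]

omit [IsLocalRing A] in
lemma matConj_conjRep (U : (Matrix (Fin 2) (Fin 2) A)ˣ) (M : MatRep A) : MatConj M (conjRep U M) :=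
  ⟨U, fun _ => rfl⟩

lemma MatConj.matContinuous {M M' : MatRep A} (h : MatConj M M') (hM : MatContinuous A M) :
    MatContinuous A M' := by
  obtain ⟨U, hU⟩ := h
  intro n
  obtain ⟨L, hL, hc⟩ := hM n
  refine ⟨L, hL, fun σ hσ i j => ?_⟩
  have h1 : M' σ - 1 = U.1 * (M σ - 1) * (U⁻¹).1 := by
    rw [hU, mul_sub, sub_mul, mul_one, U.mul_inv]
  have h2 := congrFun (congrFun h1 i) j
  rw [Matrix.sub_apply] at h2
  rw [h2, Matrix.mul_apply]
  refine Ideal.sum_mem _ fun k _ => Ideal.mul_mem_right _ _ ?_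
  rw [Matrix.mul_apply]
  exact Ideal.sum_mem _ fun l _ => Ideal.mul_mem_left _ _ (hc σ hσ l k)

omit [Algebra 𝒪 A] [IsLocalHom (algebraMap 𝒪 A)] in
/-- Invertible residual matrices lift. -/
lemma exists_unit_lift (V : (Matrix (Fin 2) (Fin 2) (ResidueField A))ˣ) :
    ∃ U : (Matrix (Fin 2) (Fin 2) A)ˣ, U.1.map (residue A) = V.1 := by
  choose f hf using residue_surjective (R := A)
  let W : Matrix (Fin 2) (Fin 2) A := V.1.map f
  have hW : W.map (residue A) = V.1 := by ext i j; simp [W, hf]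
  have hdet : IsUnit W.det := by
    rw [← residue_ne_zero_iff_isUnit, RingHom.map_det, RingHom.mapMatrix_apply, hW]
    exact ((Matrix.isUnit_iff_isUnit_det _).mp V.isUnit).ne_zero
  obtain ⟨U, hU⟩ := (Matrix.isUnit_iff_isUnit_det W).mpr hdet
  exact ⟨U, by rw [hU, hW]⟩

lemma hasResidual_conjRep {M : MatRep A} (hM : HasResidual rbar M)
    (U : (Matrix (Fin 2) (Fin 2) A)ˣ) (hU : U.1.map (residue A) = 1) :
    HasResidual rbar (conjRep U M) := by
  refine MonoidHom.ext fun σ => ?_
  have hUinv : (U⁻¹).1.map (residue A) = 1 := by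
    have h1 : (U.1 * (U⁻¹).1).map (residue A) = 1 := by
      rw [U.mul_inv, Matrix.map_one _ (map_zero _) (map_one _)]
    rwa [Matrix.map_mul, hU, one_mul] at h1
  rw [mapRep_apply]
  show (U.1 * M σ * (U⁻¹).1).map (residue A) = _
  rw [Matrix.map_mul, Matrix.map_mul, hU, hUinv, one_mul, mul_one]
  exact DFunLike.congr_fun hM σ

/-- Every lift is conjugate to a normalised one. -/
theorem exists_normalised [IsAdicComplete (maximalIdeal A) A] {M : MatRep A}
    (hc : MatContinuous A M)
    (hres : MatConj (mapRep (residue A) M) (mapRep (iotaRes A) rbar)) :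
    ∃ M' : MatRep A, MatConj M M' ∧ MatContinuous A M' ∧ HasResidual rbar M' ∧ IsNormal nd M' := by
  obtain ⟨V, hV⟩ := hres
  obtain ⟨U, hU⟩ := exists_unit_lift V
  set M₁ := conjRep U M with hM₁
  have hUinv : (U⁻¹).1.map (residue A) = (V⁻¹).1 := by
    have h1 : (U.1 * (U⁻¹).1).map (residue A) = 1 := by
      rw [U.mul_inv, Matrix.map_one _ (map_zero _) (map_one _)]
    rw [Matrix.map_mul, hU] at h1
    calc (U⁻¹).1.map (residue A) = (V⁻¹).1 * (V.1 * (U⁻¹).1.map (residue A)) := by
          rw [← mul_assoc, V.inv_mul, one_mul]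
      _ = (V⁻¹).1 := by rw [h1, mul_one]
  have hM₁res : HasResidual rbar M₁ := by
    refine MonoidHom.ext fun σ => ?_
    rw [hV σ, mapRep_apply, mapRep_apply]
    show (U.1 * M σ * (U⁻¹).1).map (residue A) = _
    rw [Matrix.map_mul, Matrix.map_mul, hU, hUinv]
  set X := linComb nd.cx M₁ with hX
  obtain ⟨u, hu⟩ := isUnit_X_diag nd hM₁res hM₁res
  rw [← hX] at hu
  have hb : X 0 1 ∈ maximalIdeal A := by rw [← residue_eq_zero_iff, hX, residue_X nd hM₁res]; simp
  have hc' : X 1 0 ∈ maximalIdeal A := by rw [← residue_eq_zero_iff, hX, residue_X nd hM₁res]; simp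
  obtain ⟨t, htm, ht⟩ := exists_fixed_point (α := (u⁻¹ : Aˣ).1 * X 1 0)
    (β := -((u⁻¹ : Aˣ).1 * X 0 1)) (Ideal.mul_mem_left _ _ hc')
    (neg_mem (Ideal.mul_mem_left _ _ hb))
  obtain ⟨s, hsm, hs⟩ := exists_fixed_point (α := -((u⁻¹ : Aˣ).1 * X 0 1))
    (β := (u⁻¹ : Aˣ).1 * X 1 0) (neg_mem (Ideal.mul_mem_left _ _ hb))
    (Ideal.mul_mem_left _ _ hc')
  have huinv : (X 0 0 - X 1 1) * (u⁻¹ : Aˣ).1 = 1 := by rw [← hu]; exact u.mul_inv
  have ht' : (X 0 0 - X 1 1) * t = X 1 0 - X 0 1 * t ^ 2 := by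
    linear_combination (X 0 0 - X 1 1) * ht + (X 1 0 - X 0 1 * t ^ 2) * huinv
  have hs' : (X 0 0 - X 1 1) * s = -X 0 1 + X 1 0 * s ^ 2 := by
    linear_combination (X 0 0 - X 1 1) * hs + (-X 0 1 + X 1 0 * s ^ 2) * huinv
  let W : Matrix (Fin 2) (Fin 2) A := !![1, s; t, 1]
  have hWdet : IsUnit W.det := by
    rw [← residue_ne_zero_iff_isUnit]
    simp [W, Matrix.det_fin_two, (residue_eq_zero_iff _).mpr hsm]
  obtain ⟨Wu, hWu⟩ := (Matrix.isUnit_iff_isUnit_det W).mpr hWdet
  set M₂ := conjRep Wu⁻¹ M₁ with hM₂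
  have hWres : W.map (residue A) = 1 := by
    ext i j
    fin_cases i <;> fin_cases j <;>
      simp [W, (residue_eq_zero_iff _).mpr hsm, (residue_eq_zero_iff _).mpr htm]
  have hWinvres : (Wu⁻¹).1.map (residue A) = 1 := by
    have h1 : (Wu.1 * (Wu⁻¹).1).map (residue A) = 1 := by
      rw [Wu.mul_inv, Matrix.map_one _ (map_zero _) (map_one _)]
    rwa [Matrix.map_mul, hWu, hWres, one_mul] at h1
  have hM₂res : HasResidual rbar M₂ := hasResidual_conjRep hM₁res _ hWinvres
  set l₁ := X 0 0 + X 0 1 * t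
  set l₂ := X 1 0 * s + X 1 1
  have hdiag : X * W = W * !![l₁, 0; 0, l₂] := by
    ext i j
    fin_cases i <;> fin_cases j <;>
      simp [W, Matrix.mul_apply, Fin.sum_univ_two, l₁, l₂]
    · linear_combination hs'
    · linear_combination -ht'
  have hX₂ : linComb nd.cx M₂ = !![l₁, 0; 0, l₂] := by
    rw [linComb_conj nd.cx Wu⁻¹ (fun σ => rfl), inv_inv, ← hX, hWu, mul_assoc, hdiag,
      ← mul_assoc, ← hWu, Wu.inv_mul, one_mul]
  set y := linComb nd.cy M₂ 1 0 with hy
  obtain ⟨yu, hyu⟩ : IsUnit y := by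
    rw [← residue_ne_zero_iff_isUnit, hy, residue_Y nd hM₂res]; exact one_ne_zero
  let D : (Matrix (Fin 2) (Fin 2) A)ˣ :=
    ⟨!![1, 0; 0, (yu⁻¹ : Aˣ).1], !![1, 0; 0, y], by
      ext i j; fin_cases i <;> fin_cases j <;> simp [Matrix.mul_apply, Fin.sum_univ_two, ← hyu], by
      ext i j; fin_cases i <;> fin_cases j <;> simp [Matrix.mul_apply, Fin.sum_univ_two, ← hyu]⟩
  have hyres : residue A y = 1 := by rw [hy]; exact residue_Y nd hM₂res
  have hDres : D.1.map (residue A) = 1 := by
    have h1 : residue A (yu⁻¹ : Aˣ).1 = 1 := by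
      have h2 : residue A (yu⁻¹ : Aˣ).1 * residue A y = 1 := by
        rw [← map_mul, ← hyu, yu.inv_mul, map_one]
      rwa [hyres, mul_one] at h2
    ext i j
    fin_cases i <;> fin_cases j <;> simp [D, h1]
  have hconj : MatConj M (conjRep D M₂) :=
    ((matConj_conjRep U M).trans (matConj_conjRep Wu⁻¹ M₁)).trans (matConj_conjRep D M₂)
  refine ⟨conjRep D M₂, hconj, hconj.matContinuous hc, hasResidual_conjRep hM₂res D hDres,
    ?_, ?_, ?_⟩
  · rw [linComb_conj nd.cx D (fun σ => rfl), hX₂]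
    simp [D, Matrix.mul_apply, Fin.sum_univ_two]
  · rw [linComb_conj nd.cx D (fun σ => rfl), hX₂]
    simp [D, Matrix.mul_apply, Fin.sum_univ_two]
  · rw [linComb_conj nd.cy D (fun σ => rfl)]
    simp only [D, Units.inv_mk, Matrix.mul_apply, Fin.sum_univ_two]
    simp [← hy, ← hyu]

end FermatAgent.GaloisBasic
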