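import Mathlib
import Fermat.Agent.GaloisBasic.Normalize

/-!
# Artinian test algebras: finiteness, subalgebras, fibre products over the residue field
-/

set_option autoImplicit false

noncomputable section

open IsLocalRing GaloisRep

namespace FermatAgent.GaloisBasic

variable {𝒪 : Type} [CommRing 𝒪] [IsLocalRing 𝒪]

section OneAlgebra

variable {A : Type} [CommRing A] [IsLocalRing A] [Algebra 𝒪 A] [IsLocalHom (algebraMap 𝒪 A)]

/-- The residue field of a test algebra is that of the coefficients. -/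
lemma iotaRes_bijective (hs : Function.Surjective (residue A ∘ algebraMap 𝒪 A)) :
    Function.Bijective (iotaRes (𝒪 := 𝒪) A) := by
  refine ⟨(iotaRes (𝒪 := 𝒪) A).injective, fun y => ?_⟩
  obtain ⟨o, ho⟩ := hs y
  exact ⟨residue 𝒪 o, by rw [iotaRes, ResidueField.map_residue]; exact ho⟩

/-- The reduction of a test algebra to the residue field of the base. -/
def resK (hs : Function.Surjective (residue A ∘ algebraMap 𝒪 A)) : A →ₐ[𝒪] ResidueField 𝒪 where
  toRingHom := ((RingEquiv.ofBijective _ (iotaRes_bijective hs)).symm : _ →+* _).comp (residue A)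
  commutes' o := by
    apply (RingEquiv.ofBijective _ (iotaRes_bijective hs)).injective
    simp [ResidueField.map_residue, IsLocalRing.ResidueField.algebraMap_eq]

/-- The reduction is the residue. -/
lemma iotaRes_resK (hs : Function.Surjective (residue A ∘ algebraMap 𝒪 A)) (a : A) :
    iotaRes A (resK hs a) = residue A a :=
  (RingEquiv.ofBijective _ (iotaRes_bijective hs)).apply_symm_apply _

/-- The reduction kills exactly the maximal ideal. -/
lemma resK_eq_zero_iff (hs : Function.Surjective (residue A ∘ algebraMap 𝒪 A)) (a : A) :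
    resK hs a = 0 ↔ a ∈ maximalIdeal A := by
  rw [← residue_eq_zero_iff, ← iotaRes_resK hs, map_eq_zero_iff _ (iotaRes (𝒪 := 𝒪) A).injective]

omit [Algebra 𝒪 A] [IsLocalHom (algebraMap 𝒪 A)] in
/-- The maximal ideal of an Artinian local ring is nilpotent. -/
lemma exists_maximalIdeal_pow_eq_bot [IsArtinianRing A] : ∃ n, maximalIdeal A ^ n = ⊥ :=
  (isArtinianRing_iff_isNilpotent_maximalIdeal A).mp ‹_›

/-- Test algebras are finite. -/
lemma finite_of_isArtinianTestAlgebra [Finite (ResidueField 𝒪)]
    (h : IsArtinianTestAlgebra 𝒪 A) : Finite A := by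
  have := h.isArtinian
  obtain ⟨n, hn⟩ := exists_maximalIdeal_pow_eq_bot (A := A)
  have : Finite (A ⧸ maximalIdeal A) :=
    Finite.of_surjective _ (iotaRes_bijective (𝒪 := 𝒪) (A := A) h.residue_surjective).surjective
  have := Ideal.finite_quotient_pow (IsNoetherian.noetherian (maximalIdeal A)) n
  rw [hn] at this
  exact Finite.of_equiv _ (RingEquiv.quotientBot A).toEquiv

variable (B : Type) [CommRing B] [IsLocalRing B] [Algebra 𝒪 B]

omit [IsLocalHom (algebraMap 𝒪 A)] in
omit [IsLocalRing 𝒪] in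
/-- Algebra maps out of an Artinian local ring are local. -/
lemma isLocalHom_of_isArtinian [IsArtinianRing A] (φ : A →ₐ[𝒪] B) :
    IsLocalHom (φ : A →+* B) := by
  refine ((IsLocalRing.local_hom_TFAE (φ : A →+* B)).out 1 0).mp ?_
  rintro _ ⟨a, ha, rfl⟩
  obtain ⟨n, hn⟩ := exists_maximalIdeal_pow_eq_bot (A := A)
  have h := Ideal.pow_mem_pow ha n
  rw [hn, Ideal.mem_bot] at h
  have hnil : IsNilpotent ((φ : A →+* B) a) := ⟨n, by rw [← map_pow, h, map_zero]⟩
  intro hu
  exact hnil.not_isUnit hu

omit [IsLocalRing 𝒪] in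
/-- A finite algebra whose units are detected by a map to a test algebra is one. -/
lemma isArtinianTestAlgebra_of_isUnit_iff {C : Type} [CommRing C] [Algebra 𝒪 C] [Finite C]
    [Nontrivial C] (hA : Function.Surjective (residue A ∘ algebraMap 𝒪 A)) (φ : C →ₐ[𝒪] A)
    (key : ∀ c : C, IsUnit c ↔ φ c ∉ maximalIdeal A) :
    ∃ _ : IsLocalRing C, IsArtinianTestAlgebra 𝒪 C ∧
      ∀ c : C, c ∈ maximalIdeal C ↔ φ c ∈ maximalIdeal A := by
  have hloc : IsLocalRing C := IsLocalRing.of_nonunits_add fun a b ha hb => by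
    rw [mem_nonunits_iff, key, not_not] at ha hb ⊢
    rw [map_add]
    exact add_mem ha hb
  have hmax : ∀ c : C, c ∈ maximalIdeal C ↔ φ c ∈ maximalIdeal A := fun c => by
    rw [IsLocalRing.mem_maximalIdeal, mem_nonunits_iff, key, not_not]
  refine ⟨hloc, ⟨⟨fun o ho => ?_⟩, fun y => ?_, isArtinian_of_finite⟩, hmax⟩
  · rw [key, AlgHom.commutes] at ho
    exact IsUnit.of_map (algebraMap 𝒪 A) o (notMem_maximalIdeal.mp ho)
  · obtain ⟨c, rfl⟩ := residue_surjective y
    obtain ⟨o, ho⟩ := hA (residue A (φ c))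
    refine ⟨o, ?_⟩
    rw [Function.comp_apply, ← sub_eq_zero, ← map_sub, residue_eq_zero_iff, hmax, map_sub,
      AlgHom.commutes, ← residue_eq_zero_iff, map_sub, sub_eq_zero]
    exact ho

/-- A local subalgebra of an Artinian test algebra is again one. -/
lemma isArtinianTestAlgebra_of_injective [Finite (ResidueField 𝒪)] {C : Type} [CommRing C]
    [Algebra 𝒪 C] (hA : IsArtinianTestAlgebra 𝒪 A) (φ : C →ₐ[𝒪] A) (hφ : Function.Injective φ) :
    ∃ _ : IsLocalRing C, IsArtinianTestAlgebra 𝒪 C ∧
      ∀ c : C, c ∈ maximalIdeal C ↔ φ c ∈ maximalIdeal A := by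
  have := hA.isArtinian
  have : Finite A := finite_of_isArtinianTestAlgebra hA
  have : Finite C := Finite.of_injective φ hφ
  have : Nontrivial C := φ.toRingHom.domain_nontrivial
  have key : ∀ c : C, IsUnit c ↔ φ c ∉ maximalIdeal A := by
    refine fun c => ⟨fun hc => notMem_maximalIdeal.mpr (hc.map φ), fun hc => ?_⟩
    obtain ⟨o, ho⟩ := hA.residue_surjective (residue A (φ c))
    have hmem : φ (c - algebraMap 𝒪 C o) ∈ maximalIdeal A := by
      rw [map_sub, AlgHom.commutes, ← residue_eq_zero_iff, map_sub, sub_eq_zero]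
      exact ho.symm
    obtain ⟨n, hn⟩ := exists_maximalIdeal_pow_eq_bot (A := A)
    have hnil : IsNilpotent (c - algebraMap 𝒪 C o) := ⟨n, hφ (by
      rw [map_pow, map_zero]
      have := Ideal.pow_mem_pow hmem n
      rwa [hn, Ideal.mem_bot] at this)⟩
    have ho' : IsUnit o := by
      by_contra h
      have h1 : residue A (algebraMap 𝒪 A o) = 0 :=
        (residue_eq_zero_iff _).mpr (map_nonunit (algebraMap 𝒪 A) o h)
      exact hc ((residue_eq_zero_iff _).mp (ho ▸ h1))
    have := hnil.isUnit_add_left_of_commute (ho'.map (algebraMap 𝒪 C)) (Commute.all _ _)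
    rwa [add_sub_cancel] at this
  exact isArtinianTestAlgebra_of_isUnit_iff hA.residue_surjective φ key

end OneAlgebra

section Fibre

variable {A B : Type} [CommRing A] [IsLocalRing A] [Algebra 𝒪 A] [IsLocalHom (algebraMap 𝒪 A)]
variable [CommRing B] [IsLocalRing B] [Algebra 𝒪 B] [IsLocalHom (algebraMap 𝒪 B)]

/-- The fibre product of two test algebras over the residue field. -/
abbrev fibreProd (hA : Function.Surjective (residue A ∘ algebraMap 𝒪 A))
    (hB : Function.Surjective (residue B ∘ algebraMap 𝒪 B)) : Subalgebra 𝒪 (A × B) :=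
  AlgHom.equalizer ((resK hA).comp (AlgHom.fst 𝒪 A B)) ((resK hB).comp (AlgHom.snd 𝒪 A B))

/-- Fibre products of test algebras over the residue field are test algebras. -/
lemma fibreProd_isArtinianTestAlgebra [Finite (ResidueField 𝒪)]
    (hA : IsArtinianTestAlgebra 𝒪 A) (hB : IsArtinianTestAlgebra 𝒪 B) :
    ∃ _ : IsLocalRing (fibreProd hA.residue_surjective hB.residue_surjective),
      IsArtinianTestAlgebra 𝒪 (fibreProd hA.residue_surjective hB.residue_surjective) := by
  set P := fibreProd hA.residue_surjective hB.residue_surjective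
  have : Finite A := finite_of_isArtinianTestAlgebra hA
  have : Finite B := finite_of_isArtinianTestAlgebra hB
  have : Finite P := Subtype.finite
  have hiff : ∀ x : P, (x.1.1 ∈ maximalIdeal A ↔ x.1.2 ∈ maximalIdeal B) := fun x => by
    rw [← resK_eq_zero_iff hA.residue_surjective, ← resK_eq_zero_iff hB.residue_surjective]
    exact iff_of_eq (congrArg (· = 0) x.2)
  have key : ∀ x : P, IsUnit x ↔ x.1.1 ∉ maximalIdeal A := by
    refine fun x => ⟨fun hx => notMem_maximalIdeal.mpr ((hx.map P.val).map (AlgHom.fst 𝒪 A B)),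
      fun hx => ?_⟩
    obtain ⟨u, hu⟩ := notMem_maximalIdeal.mp hx
    obtain ⟨v, hv⟩ := notMem_maximalIdeal.mp (fun h => hx ((hiff x).mpr h))
    have hmem : (((u⁻¹ : Aˣ) : A), ((v⁻¹ : Bˣ) : B)) ∈ P := by
      show resK hA.residue_surjective _ = resK hB.residue_surjective _
      have h1 : resK hA.residue_surjective u.1 = resK hB.residue_surjective v.1 := by
        rw [hu, hv]; exact x.2
      show resK hA.residue_surjective ((u⁻¹ : Aˣ) : A) = resK hB.residue_surjective ((v⁻¹ : Bˣ) : B)
      rw [map_units_inv, map_units_inv, h1]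
    exact IsUnit.of_mul_eq_one ⟨_, hmem⟩ (Subtype.ext (Prod.ext
      (by show x.1.1 * _ = 1; rw [← hu, u.mul_inv]) (by show x.1.2 * _ = 1; rw [← hv, v.mul_inv])))
  have : Nontrivial P := (P.val.toRingHom).domain_nontrivial
  obtain ⟨hloc, h, -⟩ := isArtinianTestAlgebra_of_isUnit_iff hA.residue_surjective
    ((AlgHom.fst 𝒪 A B).comp P.val) key
  exact ⟨hloc, h⟩

end Fibre

end FermatAgent.GaloisBasic
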