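import Mathlib
import Fermat.Agent.GaloisBasic.TestAlgebra
import Fermat.Agent.GaloisBasic.PowerSeriesComplete

/-!
# The directed family of normalised lifts satisfying a deformation condition

A good lift is a continuous normalised lift of the residual representation over an Artinian test
algebra satisfying the deformation condition.  Good lifts pass along algebra maps, are reflected
by injective ones, and two of them combine over the fibre product over the residue field.
-/

set_option autoImplicit false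

noncomputable section

open IsLocalRing GaloisRep

namespace FermatAgent.GaloisBasic

variable {𝒪 : Type} [CommRing 𝒪] [IsLocalRing 𝒪]
variable {rbar : MatRep (ResidueField 𝒪)} (nd : NormData 𝒪 rbar)
variable (𝒟 : ∀ ⦃A : Type⦄ [CommRing A] [IsLocalRing A] [Algebra 𝒪 A], GaloisRepAdic A → Prop)

section

variable {A B : Type} [CommRing A] [IsLocalRing A] [Algebra 𝒪 A] [IsLocalHom (algebraMap 𝒪 A)]
variable [CommRing B] [IsLocalRing B] [Algebra 𝒪 B] [IsLocalHom (algebraMap 𝒪 B)]

/-- A normalised lift over an Artinian test algebra satisfying the deformation condition. -/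
structure GoodLift (M : MatRep A) : Prop where
  test : IsArtinianTestAlgebra 𝒪 A
  cont : MatContinuous A M
  res : HasResidual rbar M
  normal : IsNormal nd M
  cond : 𝒟 (toRep M cont)

variable {nd 𝒟}

/-- Over an Artinian ring continuity means triviality on the group of a number field. -/
lemma matContinuous_iff_of_isArtinian [IsArtinianRing A] (M : MatRep A) :
    MatContinuous A M ↔ ∃ L : IntermediateField ℚ Qbar, FiniteDimensional ℚ L ∧
      ∀ σ ∈ L.fixingSubgroup, M σ = 1 := by
  refine ⟨fun h => ?_, fun ⟨L, hL, h⟩ n => ⟨L, hL, fun σ hσ i j => by simp [h σ hσ]⟩⟩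
  obtain ⟨n, hn⟩ := exists_maximalIdeal_pow_eq_bot (A := A)
  obtain ⟨L, hL, hM⟩ := h n
  refine ⟨L, hL, fun σ hσ => Matrix.ext fun i j => ?_⟩
  have := hM σ hσ i j
  rwa [hn, Ideal.mem_bot, sub_eq_zero] at this

/-- Having a given residual representation passes along morphisms. -/
lemma HasResidual.map {M : MatRep A} (h : HasResidual rbar M) (φ : A →ₐ[𝒪] B)
    [IsLocalHom (φ : A →+* B)] : HasResidual rbar (mapRep (φ : A →+* B) M) := by
  unfold HasResidual at h ⊢
  have h1 : (residue B).comp (φ : A →+* B) =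
      (ResidueField.map (φ : A →+* B)).comp (residue A) :=
    RingHom.ext fun a => (ResidueField.map_residue (φ : A →+* B) a).symm
  have h2 : (ResidueField.map (φ : A →+* B)).comp (iotaRes A) = iotaRes (𝒪 := 𝒪) B := by
    refine RingHom.ext fun x => ?_
    obtain ⟨o, rfl⟩ := residue_surjective x
    simp [ResidueField.map_residue]
  rw [mapRep_mapRep, h1, ← mapRep_mapRep, h, mapRep_mapRep, h2]

/-- A local morphism reflects the residual representation. -/
lemma HasResidual.of_map {M : MatRep A} (φ : A →ₐ[𝒪] B) [IsLocalHom (φ : A →+* B)]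
    (h : HasResidual rbar (mapRep (φ : A →+* B) M)) : HasResidual rbar M := by
  refine MonoidHom.ext fun σ => Matrix.ext fun i j => ?_
  apply (ResidueField.map (φ : A →+* B)).injective
  have h1 := congrFun (congrFun (DFunLike.congr_fun h σ) i) j
  simp only [mapRep_apply, Matrix.map_apply] at h1 ⊢
  rw [ResidueField.map_residue, h1]
  obtain ⟨o, ho⟩ := residue_surjective (rbar σ i j)
  rw [← ho]
  simp [ResidueField.map_residue]

omit [IsLocalRing A] [IsLocalHom (algebraMap 𝒪 A)] [IsLocalRing B] [IsLocalHom (algebraMap 𝒪 B)] in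
/-- Normalisation passes along morphisms. -/
lemma IsNormal.map {M : MatRep A} (h : IsNormal nd M) (φ : A →ₐ[𝒪] B) :
    IsNormal nd (mapRep (φ : A →+* B) M) := by
  obtain ⟨h1, h2, h3⟩ := h
  have hφ : (φ : A →+* B).comp (algebraMap 𝒪 A) = algebraMap 𝒪 B := φ.comp_algebraMap
  refine ⟨?_, ?_, ?_⟩ <;> rw [linComb_map _ _ hφ] <;> simp [h1, h2, h3]

/-- Good lifts pass along algebra maps. -/
lemma GoodLift.map (h𝒟 : IsDeformationCondition 𝒪 𝒟) {M : MatRep A} (h : GoodLift nd 𝒟 M)
    (hB : IsArtinianTestAlgebra 𝒪 B) (φ : A →ₐ[𝒪] B) :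
    GoodLift nd 𝒟 (mapRep (φ : A →+* B) M) := by
  have := h.test.isArtinian
  have := isLocalHom_of_isArtinian B φ
  exact ⟨hB, h.cont.map (φ : A →+* B), h.res.map φ, h.normal.map φ,
    h𝒟.of_isEquiv hB (baseChangeAlong_toRep (φ : A →+* B) inferInstance M h.cont)
      (h𝒟.baseChangeAlong h.test hB φ inferInstance h.cond)⟩

/-- Injective algebra maps reflect good lifts. -/
lemma GoodLift.of_injective (h𝒟 : IsDeformationCondition 𝒪 𝒟)
    (hA : IsArtinianTestAlgebra 𝒪 A) {M : MatRep A} (φ : A →ₐ[𝒪] B) (hφ : Function.Injective φ)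
    (h : GoodLift nd 𝒟 (mapRep (φ : A →+* B) M)) : GoodLift nd 𝒟 M := by
  have := hA.isArtinian
  have := h.test.isArtinian
  have := isLocalHom_of_isArtinian B φ
  have hcont : MatContinuous A M := by
    obtain ⟨L, hL, hM⟩ := (matContinuous_iff_of_isArtinian _).mp h.cont
    refine (matContinuous_iff_of_isArtinian _).mpr ⟨L, hL, fun σ hσ => Matrix.ext fun i j => hφ ?_⟩
    have := congrFun (congrFun (hM σ hσ) i) j
    simpa [Matrix.one_apply, apply_ite φ] using this
  have hres : HasResidual rbar M := h.res.of_map φ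
  have hnorm : IsNormal nd M := by
    obtain ⟨h1, h2, h3⟩ := h.normal
    have hh : (φ : A →+* B).comp (algebraMap 𝒪 A) = algebraMap 𝒪 B := φ.comp_algebraMap
    rw [linComb_map _ _ hh] at h1 h2 h3
    refine ⟨hφ ?_, hφ ?_, hφ ?_⟩
    · simpa using h1
    · simpa using h2
    · simpa using h3
  refine ⟨hA, hcont, hres, hnorm, h𝒟.of_baseChangeAlong_injective hA h.test φ inferInstance hφ ?_⟩
  obtain ⟨e⟩ := baseChangeAlong_toRep (φ : A →+* B) inferInstance M hcont
  exact h𝒟.of_isEquiv h.test ⟨e.symm⟩ h.cond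

omit [IsLocalHom (algebraMap 𝒪 A)] [IsLocalHom (algebraMap 𝒪 B)] in
/-- The residue field is a test algebra. -/
lemma isArtinianTestAlgebra_residueField : IsArtinianTestAlgebra 𝒪 (ResidueField 𝒪) := by
  refine ⟨⟨fun o ho => ?_⟩, fun y => ?_, inferInstance⟩
  · by_contra h
    rw [IsLocalRing.ResidueField.algebraMap_eq] at ho
    exact ho.ne_zero ((residue_eq_zero_iff o).mpr h)
  · obtain ⟨z, rfl⟩ := residue_surjective y
    obtain ⟨o, rfl⟩ := residue_surjective z
    exact ⟨o, rfl⟩

/-- A lift reduces to the residual representation. -/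
lemma mapRep_resK {hA : Function.Surjective (residue A ∘ algebraMap 𝒪 A)} {M : MatRep A}
    (h : HasResidual rbar M) : mapRep (resK hA : A →+* ResidueField 𝒪) M = rbar := by
  refine MonoidHom.ext fun σ => Matrix.ext fun i j => ?_
  apply (iotaRes (𝒪 := 𝒪) A).injective
  have h1 := congrFun (congrFun (DFunLike.congr_fun h σ) i) j
  simp only [mapRep_apply, Matrix.map_apply] at h1 ⊢
  exact (iotaRes_resK hA _).trans h1

/-- Two good lifts combine over the fibre product. -/
lemma GoodLift.prod [Finite (ResidueField 𝒪)] (h𝒟 : IsDeformationCondition 𝒪 𝒟)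
    {MA : MatRep A} {MB : MatRep B} (hA : GoodLift nd 𝒟 MA) (hB : GoodLift nd 𝒟 MB) :
    ∃ (_ : IsLocalRing (fibreProd hA.test.residue_surjective hB.test.residue_surjective))
      (_ : IsLocalHom (algebraMap 𝒪
        (fibreProd hA.test.residue_surjective hB.test.residue_surjective)))
      (M : MatRep (fibreProd hA.test.residue_surjective hB.test.residue_surjective)),
      GoodLift nd 𝒟 M ∧ ∀ σ i j, (M σ i j).1 = (MA σ i j, MB σ i j) := by
  obtain ⟨hloc, hP⟩ := fibreProd_isArtinianTestAlgebra hA.test hB.test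
  have := hP.isLocalHom
  have := hP.isArtinian
  have := hA.test.isArtinian
  have := hB.test.isArtinian
  set P := fibreProd hA.test.residue_surjective hB.test.residue_surjective
  have hmem : ∀ σ i j, (MA σ i j, MB σ i j) ∈ P := fun σ i j => by
    show resK hA.test.residue_surjective (MA σ i j) = resK hB.test.residue_surjective (MB σ i j)
    exact (congrFun (congrFun (DFunLike.congr_fun
      (mapRep_resK (hA := hA.test.residue_surjective) hA.res) σ) i) j).trans
      (congrFun (congrFun (DFunLike.congr_fun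
        (mapRep_resK (hA := hB.test.residue_surjective) hB.res) σ) i) j).symm
  let pA : P →ₐ[𝒪] A := (AlgHom.fst 𝒪 A B).comp P.val
  let pB : P →ₐ[𝒪] B := (AlgHom.snd 𝒪 A B).comp P.val
  have hext : ∀ x y : P, pA x = pA y → pB x = pB y → x = y := fun x y h1 h2 =>
    Subtype.ext (Prod.ext h1 h2)
  let M : MatRep P :=
    { toFun := fun σ => Matrix.of fun i j => (⟨(MA σ i j, MB σ i j), hmem σ i j⟩ : P)
      map_one' := by
        ext i j <;> simp [Matrix.one_apply] <;> split_ifs <;> rfl
      map_mul' := fun σ τ => by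
        ext i j <;> simp [Matrix.mul_apply, map_mul] }
  have hMA : mapRep (pA : P →+* A) M = MA := by ext σ i j; rfl
  have hMB : mapRep (pB : P →+* B) M = MB := by ext σ i j; rfl
  have := isLocalHom_of_isArtinian A pA
  have := isLocalHom_of_isArtinian B pB
  have hcont : MatContinuous P M := by
    obtain ⟨LA, hLA, hA'⟩ := (matContinuous_iff_of_isArtinian _).mp hA.cont
    obtain ⟨LB, hLB, hB'⟩ := (matContinuous_iff_of_isArtinian _).mp hB.cont
    refine (matContinuous_iff_of_isArtinian _).mpr ⟨LA ⊔ LB, inferInstance, fun σ hσ => ?_⟩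
    rw [IntermediateField.fixingSubgroup_sup] at hσ
    refine Matrix.ext fun i j => hext _ _ ?_ ?_
    · show MA σ i j = pA ((1 : Matrix (Fin 2) (Fin 2) P) i j)
      rw [hA' σ hσ.1]; simp [Matrix.one_apply, apply_ite pA]
    · show MB σ i j = pB ((1 : Matrix (Fin 2) (Fin 2) P) i j)
      rw [hB' σ hσ.2]; simp [Matrix.one_apply, apply_ite pB]
  have hres : HasResidual rbar M := HasResidual.of_map pA (hMA.symm ▸ hA.res)
  have hnorm : IsNormal nd M := by
    have eA : ∀ c i j, pA (linComb c M i j) = linComb (𝒪 := 𝒪) c MA i j := fun c i j => by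
      rw [← hMA, linComb_map _ _ pA.comp_algebraMap]; rfl
    have eB : ∀ c i j, pB (linComb c M i j) = linComb (𝒪 := 𝒪) c MB i j := fun c i j => by
      rw [← hMB, linComb_map _ _ pB.comp_algebraMap]; rfl
    refine ⟨hext _ _ ?_ ?_, hext _ _ ?_ ?_, hext _ _ ?_ ?_⟩
    · rw [eA, map_zero]; exact hA.normal.1
    · rw [eB, map_zero]; exact hB.normal.1
    · rw [eA, map_zero]; exact hA.normal.2.1
    · rw [eB, map_zero]; exact hB.normal.2.1
    · rw [eA, map_one]; exact hA.normal.2.2
    · rw [eB, map_one]; exact hB.normal.2.2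
  refine ⟨hloc, hP.isLocalHom, M, ⟨hP, hcont, hres, hnorm, ?_⟩, fun σ i j => rfl⟩
  refine h𝒟.of_fibreProduct hA.test hB.test isArtinianTestAlgebra_residueField hP
    (resK hA.test.residue_surjective) (resK hB.test.residue_surjective) pA pB
    inferInstance inferInstance (AlgHom.ext fun x => x.2)
    (fun x y h => hext x y (congrArg Prod.fst h) (congrArg Prod.snd h))
    (fun a b h => ⟨⟨(a, b), h⟩, rfl, rfl⟩) ?_ ?_
  · obtain ⟨e⟩ := baseChangeAlong_toRep (pA : P →+* A) inferInstance M hcont
    have h1 : (toRep (mapRep (pA : P →+* A) M) (hcont.map _)).IsEquiv (toRep MA hA.cont) :=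
      isEquiv_toRep_of_matConj _ _ ⟨1, fun σ => by rw [hMA]; simp⟩
    obtain ⟨e1⟩ := h1
    exact h𝒟.of_isEquiv hA.test ⟨(e.trans e1).symm⟩ hA.cond
  · obtain ⟨e⟩ := baseChangeAlong_toRep (pB : P →+* B) inferInstance M hcont
    have h1 : (toRep (mapRep (pB : P →+* B) M) (hcont.map _)).IsEquiv (toRep MB hB.cont) :=
      isEquiv_toRep_of_matConj _ _ ⟨1, fun σ => by rw [hMB]; simp⟩
    obtain ⟨e1⟩ := h1
    exact h𝒟.of_isEquiv hB.test ⟨(e.trans e1).symm⟩ hB.cond

end

end FermatAgent.GaloisBasic
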