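import Mathlib
import Fermat.Agent.GaloisBasic.LiftFamily

/-!
# Lifts generated by their entries are quotients of a fixed power series ring

If a finite set `S` of matrix entries separates the normalised lifts over the dual numbers, then
for every good lift over an Artinian algebra `A` generated by its entries, the maximal ideal of
`A` is spanned by the uniformiser and the centred entries in `S` (by Nakayama, as otherwise `A`
has a quotient `k[ε]` where the lift is constant), so these entries generate `A`.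
-/

set_option autoImplicit false

noncomputable section

open IsLocalRing GaloisRep

namespace FermatAgent.GaloisBasic

/-- The index of a matrix entry. -/
abbrev EntryIdx : Type := GQ × Fin 2 × Fin 2

variable {𝒪 : Type} [CommRing 𝒪] [IsLocalRing 𝒪]

instance residueField_isLocalHom : IsLocalHom (algebraMap 𝒪 (ResidueField 𝒪)) :=
  (isArtinianTestAlgebra_residueField (𝒪 := 𝒪)).isLocalHom

/-- The structure map of dual numbers used in the definition of finite tangent space. -/
@[instance_reducible]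
def dualAlgebra : Algebra 𝒪 (DualNumber (ResidueField 𝒪)) :=
  ((algebraMap (ResidueField 𝒪) (DualNumber (ResidueField 𝒪))).comp
    (algebraMap 𝒪 (ResidueField 𝒪))).toAlgebra

attribute [local instance] dualAlgebra

/-- The structure map of the dual numbers is the residue. -/
lemma dual_algebraMap (o : 𝒪) :
    algebraMap 𝒪 (DualNumber (ResidueField 𝒪)) o = TrivSqZeroExt.inl (residue 𝒪 o) := rfl

instance dual_isLocalHom : IsLocalHom (algebraMap 𝒪 (DualNumber (ResidueField 𝒪))) :=
  ⟨fun o ho => by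
    rw [dual_algebraMap, TrivSqZeroExt.isUnit_inl_iff] at ho
    exact IsUnit.of_map (residue 𝒪) o ho⟩

/-- The dual numbers over a finite residue field are a test algebra. -/
lemma dual_test [Finite (ResidueField 𝒪)] :
    IsArtinianTestAlgebra 𝒪 (DualNumber (ResidueField 𝒪)) := by
  have : Finite (DualNumber (ResidueField 𝒪)) :=
    Finite.of_injective (fun x => (x.fst, x.snd)) fun x y h =>
      TrivSqZeroExt.ext (congrArg Prod.fst h) (congrArg Prod.snd h)
  refine ⟨inferInstance, fun y => ?_, isArtinian_of_finite⟩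
  obtain ⟨z, rfl⟩ := residue_surjective y
  obtain ⟨o, ho⟩ := residue_surjective z.fst
  refine ⟨o, ?_⟩
  rw [Function.comp_apply, ← sub_eq_zero, ← map_sub, residue_eq_zero_iff,
    IsLocalRing.mem_maximalIdeal, mem_nonunits_iff, TrivSqZeroExt.isUnit_iff_isUnit_fst]
  simp [dual_algebraMap, ho]

variable {rbar : MatRep (ResidueField 𝒪)} (nd : NormData 𝒪 rbar)
variable (𝒟 : ∀ ⦃A : Type⦄ [CommRing A] [IsLocalRing A] [Algebra 𝒪 A], GaloisRepAdic A → Prop)

/-- A finite set of entries separating the normalised lifts over the dual numbers. -/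
def Separates (S : Finset EntryIdx) : Prop :=
  ∀ M M' : MatRep (DualNumber (ResidueField 𝒪)), GoodLift nd 𝒟 M → GoodLift nd 𝒟 M' →
    (∀ x ∈ S, M x.1 x.2.1 x.2.2 = M' x.1 x.2.1 x.2.2) → M = M'

variable {A : Type} [CommRing A] [IsLocalRing A] [Algebra 𝒪 A]

/-- The entries generate the coefficient algebra. -/
def Generates (M : MatRep A) : Prop :=
  Algebra.adjoin 𝒪 (Set.range fun x : EntryIdx => M x.1 x.2.1 x.2.2) = ⊤

variable (rbar) in
/-- An entry minus a lift of its residual value. -/
def centred (M : MatRep A) (x : EntryIdx) : A :=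
  M x.1 x.2.1 x.2.2 -
    algebraMap 𝒪 A (Function.surjInv residue_surjective (rbar x.1 x.2.1 x.2.2))

omit [IsLocalRing A] in
/-- The centred entries commute with maps of algebras. -/
lemma centred_map {B : Type} [CommRing B] [Algebra 𝒪 B] (φ : A →ₐ[𝒪] B)
    (M : MatRep A) (x : EntryIdx) :
    centred rbar (mapRep (φ : A →+* B) M) x = φ (centred rbar M x) := by
  simp [centred]

/-- The centred entries of a lift lie in the maximal ideal. -/
lemma centred_mem [IsLocalHom (algebraMap 𝒪 A)] {M : MatRep A} (h : HasResidual rbar M)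
    (x : EntryIdx) : centred rbar M x ∈ maximalIdeal A := by
  rw [centred, ← residue_eq_zero_iff, map_sub, sub_eq_zero]
  have h1 := congrFun (congrFun (DFunLike.congr_fun h x.1) x.2.1) x.2.2
  simp only [mapRep_apply, Matrix.map_apply] at h1
  rw [h1]
  conv_lhs => rw [← Function.surjInv_eq residue_surjective (rbar x.1 x.2.1 x.2.2)]
  rw [ResidueField.map_residue]

variable {nd 𝒟}
variable [IsLocalHom (algebraMap 𝒪 A)]

/-- If `J ⊔ m²` is smaller than the maximal ideal `m` and contains the uniformiser, the algebra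
maps onto the dual numbers over the residue field by a map killing `J`. -/
lemma exists_algHom_dualNumber_surjective [Finite (ResidueField 𝒪)]
    (htest : IsArtinianTestAlgebra 𝒪 A) {ϖ : 𝒪} (hϖ : maximalIdeal 𝒪 = Ideal.span {ϖ})
    {J : Ideal A} (hϖJ : algebraMap 𝒪 A ϖ ∈ J) (hJm : J ≤ maximalIdeal A)
    (hle : ¬maximalIdeal A ≤ J ⊔ maximalIdeal A ^ 2) :
    ∃ ψ : A →ₐ[𝒪] DualNumber (ResidueField 𝒪),
      Function.Surjective ψ ∧ ∀ a ∈ J, ψ a = 0 := by
  classical
  have := htest.isArtinian
  have : Finite A := finite_of_isArtinianTestAlgebra htest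
  set m := maximalIdeal A
  -- choose a maximal ideal strictly inside `m` containing `J ⊔ m^2`
  obtain ⟨J', hJ', hmaxJ'⟩ : ∃ J' : Ideal A, (J ⊔ m ^ 2 ≤ J' ∧ J' < m) ∧
      ∀ K, J ⊔ m ^ 2 ≤ K ∧ K < m → J' ≤ K → K ≤ J' := by
    have : Finite (Ideal A) :=
      Finite.of_injective (SetLike.coe : Ideal A → Set A) SetLike.coe_injective
    obtain ⟨J', h1, h2⟩ := Set.Finite.exists_maximal
      (Set.toFinite {K : Ideal A | J ⊔ m ^ 2 ≤ K ∧ K < m})
      ⟨J ⊔ m ^ 2, le_rfl, lt_of_le_of_ne (sup_le hJm (Ideal.pow_le_self two_ne_zero))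
        fun h => hle (by rw [h])⟩
    exact ⟨J', h1, fun K hK hle' => h2 hK hle'⟩
  obtain ⟨hJJ', hlt⟩ := hJ'
  obtain ⟨v, hvm, hvJ⟩ := SetLike.exists_of_lt hlt
  have hcover : m ≤ J' ⊔ Ideal.span {v} := by
    by_contra h
    have hK : J' ⊔ Ideal.span {v} < m :=
      lt_of_le_of_ne (sup_le hlt.le ((Ideal.span_singleton_le_iff_mem _).mpr hvm))
        fun e => h e.ge
    exact hvJ (hmaxJ' _ ⟨hJJ'.trans le_sup_left, hK⟩ le_sup_left
      (Submodule.mem_sup_right (Ideal.subset_span rfl)))
  let mk := Ideal.Quotient.mkₐ 𝒪 J'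
  have hsq : ∀ a b, a ∈ m → b ∈ m → mk (a * b) = 0 := fun a b ha hb =>
    Ideal.Quotient.eq_zero_iff_mem.mpr (hJJ' (Submodule.mem_sup_right (by
      rw [pow_two]; exact Ideal.mul_mem_mul ha hb)))
  have hπ : ∀ o ∈ maximalIdeal 𝒪, mk (algebraMap 𝒪 A o) = 0 := by
    intro o ho
    rw [hϖ, Ideal.mem_span_singleton'] at ho
    obtain ⟨c, rfl⟩ := ho
    refine Ideal.Quotient.eq_zero_iff_mem.mpr ?_
    rw [map_mul]
    exact J'.mul_mem_left _ (hJJ' (Submodule.mem_sup_left hϖJ))
  let f : ResidueField 𝒪 →+* A ⧸ J' :=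
    Ideal.Quotient.lift (maximalIdeal 𝒪) ((mk : A →+* A ⧸ J').comp (algebraMap 𝒪 A)) hπ
  have hf : ∀ o, f (residue 𝒪 o) = mk (algebraMap 𝒪 A o) := fun o => rfl
  have hv2 : mk v * mk v = 0 := by rw [← map_mul]; exact hsq v v hvm hvm
  let e : DualNumber (ResidueField 𝒪) →ₐ[𝒪] A ⧸ J' :=
    { toFun := fun z => f z.fst + f z.snd * mk v
      map_one' := by simp
      map_mul' := fun z w => by
        rw [TrivSqZeroExt.fst_mul, DualNumber.snd_mul, map_mul, map_add, map_mul, map_mul]
        linear_combination (-(f z.snd * f w.snd)) * hv2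
      map_zero' := by simp
      map_add' := fun z w => by simp; ring
      commutes' := fun o => by simp [dual_algebraMap, hf] }
  have hesurj : Function.Surjective e := by
    intro y
    obtain ⟨a, rfl⟩ := Ideal.Quotient.mk_surjective y
    obtain ⟨o, ho⟩ := htest.residue_surjective (residue A a)
    have hm : a - algebraMap 𝒪 A o ∈ m := by
      rw [← residue_eq_zero_iff, map_sub, sub_eq_zero]; exact ho.symm
    obtain ⟨j, hj, w, hw, hjw⟩ := Submodule.mem_sup.mp (hcover hm)
    obtain ⟨c, rfl⟩ := Ideal.mem_span_singleton'.mp hw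
    obtain ⟨o', ho'⟩ := htest.residue_surjective (residue A c)
    refine ⟨⟨residue 𝒪 o, residue 𝒪 o'⟩, ?_⟩
    show f (residue 𝒪 o) + f (residue 𝒪 o') * mk v = _
    have hc : mk (algebraMap 𝒪 A o') * mk v = mk c * mk v := by
      rw [← sub_eq_zero, ← sub_mul, ← map_sub, ← map_mul]
      exact hsq _ _ (by rw [← residue_eq_zero_iff, map_sub, sub_eq_zero]; exact ho') hvm
    rw [hf, hf, hc, ← map_mul, ← map_add]
    refine Ideal.Quotient.eq.mpr ?_
    have : algebraMap 𝒪 A o + c * v - a = -j := by linear_combination hjw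
    rw [this]
    exact neg_mem hj
  have heinj : Function.Injective e := by
    rw [injective_iff_map_eq_zero]
    intro z hz
    have : Nontrivial (A ⧸ J') := Ideal.Quotient.nontrivial_iff.mpr
      fun h => (maximalIdeal.isMaximal A).ne_top (top_le_iff.mp (h ▸ hlt.le))
    have hz' : f z.fst + f z.snd * mk v = 0 := hz
    have hfst : z.fst = 0 := by
      have h2 : f z.fst * mk v = 0 := by
        have := congrArg (· * mk v) hz'
        simpa [add_mul, mul_assoc, hv2] using this
      by_contra h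
      have hu : IsUnit (f z.fst) := (isUnit_iff_ne_zero.mpr h).map f
      exact hvJ (Ideal.Quotient.eq_zero_iff_mem.mp (hu.mul_right_eq_zero.mp h2))
    have hsnd : z.snd = 0 := by
      rw [hfst, map_zero, zero_add] at hz'
      by_contra h
      have hu : IsUnit (f z.snd) := (isUnit_iff_ne_zero.mpr h).map f
      exact hvJ (Ideal.Quotient.eq_zero_iff_mem.mp (hu.mul_right_eq_zero.mp hz'))
    exact TrivSqZeroExt.ext hfst hsnd
  let ψ : A →ₐ[𝒪] DualNumber (ResidueField 𝒪) :=
    (AlgEquiv.ofBijective e ⟨heinj, hesurj⟩).symm.toAlgHom.comp mk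
  have hψsurj : Function.Surjective ψ :=
    (AlgEquiv.ofBijective e ⟨heinj, hesurj⟩).symm.surjective.comp Ideal.Quotient.mk_surjective
  refine ⟨ψ, hψsurj, fun a ha => ?_⟩
  show (AlgEquiv.ofBijective e ⟨heinj, hesurj⟩).symm (mk a) = 0
  rw [show mk a = 0 from Ideal.Quotient.eq_zero_iff_mem.mpr (hJJ' (Submodule.mem_sup_left ha)),
    map_zero]

/-- The maximal ideal of a generated lift is spanned by the uniformiser and the chosen entries. -/
lemma maximalIdeal_le_span [Finite (ResidueField 𝒪)] {ϖ : 𝒪}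
    (hϖ : maximalIdeal 𝒪 = Ideal.span {ϖ}) (h𝒟 : IsDeformationCondition 𝒪 𝒟)
    (hbase : GoodLift nd 𝒟 rbar) {S : Finset EntryIdx} (hS : Separates nd 𝒟 S) {M : MatRep A}
    (hM : GoodLift nd 𝒟 M) (hgen : Generates (𝒪 := 𝒪) M) :
    maximalIdeal A ≤
      Ideal.span (insert (algebraMap 𝒪 A ϖ) (Set.range fun x : S => centred rbar M x.1)) := by
  classical
  have := hM.test.isArtinian
  have : Finite A := finite_of_isArtinianTestAlgebra hM.test
  have : IsNoetherianRing A := inferInstance
  set J := Ideal.span (insert (algebraMap 𝒪 A ϖ) (Set.range fun x : S => centred rbar M x.1))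
  set m := maximalIdeal A
  refine Submodule.le_of_le_smul_of_le_jacobson_bot (IsNoetherian.noetherian m)
    (maximalIdeal_le_jacobson _) ?_
  rw [smul_eq_mul, ← pow_two]
  by_contra hle
  have hJm : J ≤ m := by
    rw [Ideal.span_le]
    rintro _ (rfl | ⟨x, rfl⟩)
    · exact map_nonunit (algebraMap 𝒪 A) ϖ (hϖ ▸ Ideal.subset_span rfl)
    · exact centred_mem hM.res _
  obtain ⟨ψ, hψsurj, hψJ⟩ := exists_algHom_dualNumber_surjective hM.test hϖ (J := J)
    (Ideal.subset_span (Set.mem_insert _ _)) hJm hle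
  let incl : ResidueField 𝒪 →ₐ[𝒪] DualNumber (ResidueField 𝒪) :=
    { (algebraMap (ResidueField 𝒪) (DualNumber (ResidueField 𝒪))) with commutes' := fun o => rfl }
  have hg1 : GoodLift nd 𝒟 (mapRep (ψ : A →+* DualNumber (ResidueField 𝒪)) M) :=
    hM.map h𝒟 dual_test ψ
  have hg2 : GoodLift nd 𝒟 (mapRep (incl : ResidueField 𝒪 →+* DualNumber (ResidueField 𝒪)) rbar) :=
    hbase.map h𝒟 dual_test incl
  have hagree := hS _ _ hg1 hg2 (fun x hx => by
    have h0 : ψ (centred rbar M x) = 0 :=
      hψJ _ (Ideal.subset_span (Set.mem_insert_of_mem _ ⟨⟨x, hx⟩, rfl⟩))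
    rw [centred, map_sub, AlgHom.commutes, sub_eq_zero] at h0
    simp only [mapRep_apply, Matrix.map_apply]
    show ψ (M x.1 x.2.1 x.2.2) = incl (rbar x.1 x.2.1 x.2.2)
    rw [h0, dual_algebraMap, Function.surjInv_eq residue_surjective]
    rfl)
  have hrange : ∀ a : A, ∃ c, ψ a = TrivSqZeroExt.inl c := by
    intro a
    have : a ∈ Algebra.adjoin 𝒪 (Set.range fun x : EntryIdx => M x.1 x.2.1 x.2.2) := by
      rw [hgen]; exact Algebra.mem_top
    induction this using Algebra.adjoin_induction with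
    | mem y hy =>
      obtain ⟨x, rfl⟩ := hy
      exact ⟨rbar x.1 x.2.1 x.2.2, congrFun (congrFun (DFunLike.congr_fun hagree x.1) x.2.1) x.2.2⟩
    | algebraMap o => exact ⟨residue 𝒪 o, by rw [AlgHom.commutes, dual_algebraMap]⟩
    | add y z _ _ hy hz =>
      obtain ⟨c, hc⟩ := hy; obtain ⟨d, hd⟩ := hz
      exact ⟨c + d, by rw [map_add, hc, hd, TrivSqZeroExt.inl_add]⟩
    | mul y z _ _ hy hz =>
      obtain ⟨c, hc⟩ := hy; obtain ⟨d, hd⟩ := hz
      exact ⟨c * d, by rw [map_mul, hc, hd, TrivSqZeroExt.inl_mul]⟩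
  obtain ⟨a, ha⟩ := hψsurj DualNumber.eps
  obtain ⟨c, hc⟩ := hrange a
  rw [ha] at hc
  have := congrArg TrivSqZeroExt.snd hc
  simp at this

/-- A generated lift is a quotient of the polynomial ring in the chosen entries. -/
theorem aeval_centred_surjective [Finite (ResidueField 𝒪)] {ϖ : 𝒪}
    (hϖ : maximalIdeal 𝒪 = Ideal.span {ϖ}) (h𝒟 : IsDeformationCondition 𝒪 𝒟)
    (hbase : GoodLift nd 𝒟 rbar) {S : Finset EntryIdx} (hS : Separates nd 𝒟 S) {M : MatRep A}
    (hM : GoodLift nd 𝒟 M) (hgen : Generates (𝒪 := 𝒪) M) :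
    Function.Surjective (MvPolynomial.aeval (R := 𝒪) fun x : S => centred rbar M x.1) := by
  have := hM.test.isArtinian
  set T := (MvPolynomial.aeval (R := 𝒪) fun x : S => centred rbar M x.1).range with hT
  have hmle := maximalIdeal_le_span hϖ h𝒟 hbase hS hM hgen
  have hlow : ∀ a : A, ∃ t ∈ T, a - t ∈ maximalIdeal A := fun a => by
    obtain ⟨o, ho⟩ := hM.test.residue_surjective (residue A a)
    exact ⟨algebraMap 𝒪 A o, T.algebraMap_mem o, by
      rw [← residue_eq_zero_iff, map_sub, sub_eq_zero]; exact ho.symm⟩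
  have key : ∀ i : ℕ, ∀ c ∈ maximalIdeal A ^ i, ∃ t ∈ T, c - t ∈ maximalIdeal A ^ (i + 1) := by
    intro i
    induction i with
    | zero => intro c _; simpa using hlow c
    | succ i ih =>
      intro c hc
      rw [pow_succ' (maximalIdeal A) i] at hc
      refine Submodule.mul_induction_on hc (fun y hy z hz => ?_) ?_
      · revert z
        refine Submodule.span_induction (fun g hg => ?_) ?_ ?_ ?_ (hmle hy)
        · intro z hz
          have hgT : g ∈ T := by
            rcases hg with rfl | ⟨x, rfl⟩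
            · exact T.algebraMap_mem _
            · exact ⟨MvPolynomial.X x, MvPolynomial.aeval_X _ x⟩
          have hgm : g ∈ maximalIdeal A := by
            rcases hg with rfl | ⟨x, rfl⟩
            · exact map_nonunit (algebraMap 𝒪 A) ϖ (hϖ ▸ Ideal.subset_span rfl)
            · exact centred_mem hM.res _
          obtain ⟨t, ht, hzt⟩ := ih z hz
          refine ⟨g * t, T.mul_mem hgT ht, ?_⟩
          rw [← mul_sub, pow_succ' (maximalIdeal A) (i + 1)]
          exact Ideal.mul_mem_mul hgm hzt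
        · intro z _
          exact ⟨0, T.zero_mem, by simp⟩
        · intro y y' _ _ hy hy' z hz
          obtain ⟨t, ht, h1⟩ := hy z hz
          obtain ⟨t', ht', h2⟩ := hy' z hz
          refine ⟨t + t', T.add_mem ht ht', ?_⟩
          have : (y + y') * z - (t + t') = (y * z - t) + (y' * z - t') := by ring
          rw [this]
          exact add_mem h1 h2
        · intro a y _ hy z hz
          obtain ⟨t, ht, h⟩ := hy (a * z) (Ideal.mul_mem_left _ _ hz)
          refine ⟨t, ht, ?_⟩
          rwa [smul_eq_mul, mul_assoc, mul_left_comm]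
      · rintro y z ⟨t, ht, h1⟩ ⟨t', ht', h2⟩
        refine ⟨t + t', T.add_mem ht ht', ?_⟩
        have : y + z - (t + t') = (y - t) + (z - t') := by ring
        rw [this]
        exact add_mem h1 h2
  intro a
  have hall : ∀ i, ∃ t ∈ T, a - t ∈ maximalIdeal A ^ i := by
    intro i
    induction i with
    | zero => exact ⟨0, T.zero_mem, by simp⟩
    | succ i ih =>
      obtain ⟨t, ht, h⟩ := ih
      obtain ⟨t', ht', h'⟩ := key i _ h
      exact ⟨t + t', T.add_mem ht ht', by rwa [sub_add_eq_sub_sub]⟩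
  obtain ⟨n, hn⟩ := exists_maximalIdeal_pow_eq_bot (A := A)
  obtain ⟨t, ht, h⟩ := hall n
  rw [hn, Ideal.mem_bot, sub_eq_zero] at h
  rw [h]
  exact ht

end FermatAgent.GaloisBasic
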