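import Fermat.Agent.GaloisBasic.AdicLimit
import Mathlib
import Fermat.Prelude.Thm_IsLocalRing_isAdicComplete_of_module_finite
import Fermat.Agent.GaloisBasic.Generated

/-!
# The levels of the universal deformation ring

A good lift over `A` with `m_A^n = 0` generated by its entries is a quotient of `𝒪⟦X_s : s ∈ S⟧`
by an ideal containing `m^n`.  These ideals are finite in number and closed under intersection,
so there is a least one, `level`.  Their intersection `univKer` satisfies
`level n = univKer + m^(n+1)`.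
-/

set_option autoImplicit false

noncomputable section

open IsLocalRing GaloisRep

namespace FermatAgent.GaloisBasic

/-- All the data of a deformation problem in normalised form. -/
structure DefProblem (𝒪 : Type) [CommRing 𝒪] [IsLocalRing 𝒪] where
  /-- the residual representation -/
  rbar : MatRep (ResidueField 𝒪)
  /-- the normalisation data -/
  nd : NormData 𝒪 rbar
  /-- the deformation condition -/
  cond : ∀ ⦃A : Type⦄ [CommRing A] [IsLocalRing A] [Algebra 𝒪 A], GaloisRepAdic A → Prop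
  isCond : IsDeformationCondition 𝒪 cond
  base : GoodLift nd cond rbar
  /-- the matrix entries separating normalised lifts -/
  S : Finset EntryIdx
  separates : Separates nd cond S
  /-- a generator of the maximal ideal -/
  ϖ : 𝒪
  hϖ : maximalIdeal 𝒪 = Ideal.span {ϖ}

namespace DefProblem

variable {𝒪 : Type} [CommRing 𝒪] [IsLocalRing 𝒪] (D : DefProblem 𝒪)

/-- The power series ring in the chosen entries. -/
abbrev Pw : Type := MvPowerSeries D.S 𝒪

variable {A : Type} [CommRing A] [IsLocalRing A] [Algebra 𝒪 A] [IsLocalHom (algebraMap 𝒪 A)]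

/-- An algebra map sends each variable to the corresponding centred entry. -/
def Compatible (M : MatRep A) (φ : D.Pw →ₐ[𝒪] A) : Prop :=
  ∀ x : D.S, φ (MvPowerSeries.X x) = centred D.rbar M x.1

lemma maximalIdeal_map_le (φ : D.Pw →ₐ[𝒪] A)
    (hx : ∀ x : D.S, φ (MvPowerSeries.X x) ∈ maximalIdeal A) :
    ∀ f ∈ maximalIdeal D.Pw, φ f ∈ maximalIdeal A := by
  intro f hf
  have h1 : f - MvPowerSeries.C (MvPowerSeries.constantCoeff f) ∈
      Ideal.span (Set.range (MvPowerSeries.X : D.S → D.Pw)) := by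
    rw [mem_span_range_X_iff]; simp
  have h2 : Ideal.span (Set.range (MvPowerSeries.X : D.S → D.Pw)) ≤ (maximalIdeal A).comap φ := by
    rw [Ideal.span_le]
    rintro _ ⟨x, rfl⟩
    exact hx x
  have h3 : φ (MvPowerSeries.C (MvPowerSeries.constantCoeff f)) ∈ maximalIdeal A := by
    rw [show (MvPowerSeries.C (MvPowerSeries.constantCoeff f) : D.Pw) =
      algebraMap 𝒪 D.Pw (MvPowerSeries.constantCoeff f) from rfl, AlgHom.commutes]
    exact map_nonunit (algebraMap 𝒪 A) _ ((mem_maximalIdeal_iff_constantCoeff f).mp hf)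
  have h4 := h2 h1
  rw [Ideal.mem_comap, map_sub] at h4
  have := add_mem h4 h3
  rwa [sub_add_cancel] at this

lemma map_pow_eq_zero {n : ℕ} (hn : maximalIdeal A ^ n = ⊥) {φ : D.Pw →ₐ[𝒪] A}
    (hx : ∀ x : D.S, φ (MvPowerSeries.X x) ∈ maximalIdeal A) :
    maximalIdeal D.Pw ^ n ≤ RingHom.ker φ := by
  intro f hf
  have h := Ideal.mem_map_of_mem (φ : D.Pw →+* A) hf
  rw [Ideal.map_pow] at h
  have hle : (maximalIdeal D.Pw).map (φ : D.Pw →+* A) ≤ maximalIdeal A :=
    Ideal.map_le_iff_le_comap.mpr (fun g hg => D.maximalIdeal_map_le φ hx g hg)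
  have h2 := Ideal.pow_right_mono hle n h
  rw [hn, Ideal.mem_bot] at h2
  exact h2

/-- Evaluations are determined by the variables. -/
lemma algHom_ext {n : ℕ} (hn : maximalIdeal A ^ n = ⊥) {φ ψ : D.Pw →ₐ[𝒪] A}
    (hx : ∀ x : D.S, φ (MvPowerSeries.X x) ∈ maximalIdeal A)
    (h : ∀ x : D.S, φ (MvPowerSeries.X x) = ψ (MvPowerSeries.X x)) : φ = ψ := by
  refine AlgHom.ext fun f => ?_
  set p := MvPowerSeries.truncTotal n f with hp
  have hmem : f - (p : D.Pw) ∈ maximalIdeal D.Pw ^ n :=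
    sub_truncTotal_mem_pow _ _
  have e1 := D.map_pow_eq_zero hn hx hmem
  have e2 := D.map_pow_eq_zero hn (fun x => (h x) ▸ hx x) hmem
  rw [RingHom.mem_ker, map_sub, sub_eq_zero] at e1 e2
  rw [e1, e2]
  have : φ.comp (MvPolynomial.coeToMvPowerSeries.algHom 𝒪) =
      ψ.comp (MvPolynomial.coeToMvPowerSeries.algHom 𝒪) :=
    MvPolynomial.algHom_ext fun x => by simpa using h x
  have h5 := AlgHom.congr_fun this p
  simpa using h5

variable [Finite (ResidueField 𝒪)]

omit [Finite (ResidueField 𝒪)] in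
/-- Evaluation at the centred entries extends to the power series ring. -/
lemma exists_compatible {M : MatRep A} (hM : GoodLift D.nd D.cond M) :
    ∃ φ : D.Pw →ₐ[𝒪] A, D.Compatible M φ := by
  have := hM.test.isArtinian
  obtain ⟨n, hn⟩ := exists_maximalIdeal_pow_eq_bot (A := A)
  exact ⟨evalNilpotent (fun x : D.S => centred D.rbar M x.1) (maximalIdeal A)
    (fun x => centred_mem hM.res _) hn, fun x => evalNilpotent_X _ _ _ hn x⟩

/-- For a lift generated by its entries the evaluation is surjective. -/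
lemma surjective_of_generates {M : MatRep A} (hM : GoodLift D.nd D.cond M)
    (hgen : Generates (𝒪 := 𝒪) M) {φ : D.Pw →ₐ[𝒪] A} (hφ : D.Compatible M φ) :
    Function.Surjective φ := by
  intro a
  obtain ⟨p, hp⟩ := aeval_centred_surjective D.hϖ D.isCond D.base D.separates hM hgen a
  refine ⟨(p : D.Pw), ?_⟩
  have : φ.comp (MvPolynomial.coeToMvPowerSeries.algHom 𝒪) =
      MvPolynomial.aeval (fun x : D.S => centred D.rbar M x.1) :=
    MvPolynomial.algHom_ext fun x => by simpa using hφ x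
  rw [← hp, ← this]
  simp

/-- The ideals cut out by good lifts with `m^n = 0` which are generated by their entries. -/
def InLevel (n : ℕ) (K : Ideal D.Pw) : Prop :=
  ∃ (A : Type) (_ : CommRing A) (_ : IsLocalRing A) (_ : Algebra 𝒪 A)
    (_ : IsLocalHom (algebraMap 𝒪 A)) (M : MatRep A) (φ : D.Pw →ₐ[𝒪] A),
    GoodLift D.nd D.cond M ∧ D.Compatible M φ ∧ Function.Surjective φ ∧
      maximalIdeal A ^ n = ⊥ ∧ RingHom.ker φ = K

/-- Reduce a good lift to the subalgebra generated by its entries. -/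
lemma exists_generated {M : MatRep A} (hM : GoodLift D.nd D.cond M) {n : ℕ}
    (hn : maximalIdeal A ^ n = ⊥) :
    ∃ (B : Type) (_ : CommRing B) (_ : IsLocalRing B) (_ : Algebra 𝒪 B)
      (_ : IsLocalHom (algebraMap 𝒪 B)) (ι : B →ₐ[𝒪] A) (M' : MatRep B) (φ : D.Pw →ₐ[𝒪] B),
      Function.Injective ι ∧ mapRep (ι : B →+* A) M' = M ∧ GoodLift D.nd D.cond M' ∧
        D.Compatible M' φ ∧ Function.Surjective φ ∧ maximalIdeal B ^ n = ⊥ := by
  let B := Algebra.adjoin 𝒪 (Set.range fun x : EntryIdx => M x.1 x.2.1 x.2.2)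
  obtain ⟨hloc, htest, hmax⟩ := isArtinianTestAlgebra_of_injective hM.test B.val
    Subtype.val_injective
  have := htest.isLocalHom
  have hmem : ∀ σ i j, M σ i j ∈ B := fun σ i j => Algebra.subset_adjoin ⟨(σ, i, j), rfl⟩
  let M' : MatRep B :=
    { toFun := fun σ => Matrix.of fun i j => (⟨M σ i j, hmem σ i j⟩ : B)
      map_one' := by
        ext i j
        simp [Matrix.one_apply]
        split_ifs <;> rfl
      map_mul' := fun σ τ => by
        ext i j
        simp [Matrix.mul_apply] }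
  have hmap : mapRep (B.val : B →+* A) M' = M := by ext σ i j; rfl
  have hM' : GoodLift D.nd D.cond M' :=
    GoodLift.of_injective D.isCond htest B.val Subtype.val_injective (hmap.symm ▸ hM)
  have hgen : Generates (𝒪 := 𝒪) M' := by
    unfold Generates
    refine Subalgebra.map_injective (f := B.val) Subtype.val_injective ?_
    rw [AlgHom.map_adjoin, Algebra.map_top, Subalgebra.range_val, ← Set.range_comp]
    rfl
  obtain ⟨φ, hφ⟩ := D.exists_compatible hM'
  have hnB : maximalIdeal B ^ n = ⊥ := by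
    rw [eq_bot_iff]
    intro b hb
    have h := Ideal.mem_map_of_mem (B.val : B →+* A) hb
    rw [Ideal.map_pow] at h
    have hle : (maximalIdeal B).map (B.val : B →+* A) ≤ maximalIdeal A :=
      Ideal.map_le_iff_le_comap.mpr (fun g hg => (hmax g).mp hg)
    have h2 := Ideal.pow_right_mono hle n h
    rw [hn, Ideal.mem_bot] at h2
    exact Ideal.mem_bot.mpr (Subtype.ext h2)
  exact ⟨B, inferInstance, hloc, inferInstance, htest.isLocalHom, B.val, M', φ,
    Subtype.val_injective, hmap, hM', hφ, D.surjective_of_generates hM' hgen hφ, hnB⟩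

variable {B : Type} [CommRing B] [IsLocalRing B] [Algebra 𝒪 B] [IsLocalHom (algebraMap 𝒪 B)]

/-- The fibre product of two lifts gives a generated lift cutting out the intersection. -/
lemma exists_inf {n : ℕ} {M₁ : MatRep A} {φ₁ : D.Pw →ₐ[𝒪] A} (h₁ : GoodLift D.nd D.cond M₁)
    (hc₁ : D.Compatible M₁ φ₁) (hn₁ : maximalIdeal A ^ n = ⊥) {M₂ : MatRep B}
    {φ₂ : D.Pw →ₐ[𝒪] B} (h₂ : GoodLift D.nd D.cond M₂) (hc₂ : D.Compatible M₂ φ₂)
    (hn₂ : maximalIdeal B ^ n = ⊥) :
    D.InLevel n (RingHom.ker φ₁ ⊓ RingHom.ker φ₂) ∧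
      ∀ (f : D.Pw) (x : EntryIdx), RingHom.ker φ₁ ≤ RingHom.ker φ₂ →
        φ₁ f = M₁ x.1 x.2.1 x.2.2 → φ₂ f = M₂ x.1 x.2.1 x.2.2 := by
  obtain ⟨hloc, hlocal, M, hM, hMval⟩ := GoodLift.prod D.isCond h₁ h₂
  have := h₁.test.isArtinian
  have := h₂.test.isArtinian
  have := hM.test.isArtinian
  let pA := (AlgHom.fst 𝒪 A B).comp
    (fibreProd h₁.test.residue_surjective h₂.test.residue_surjective).val
  let pB := (AlgHom.snd 𝒪 A B).comp
    (fibreProd h₁.test.residue_surjective h₂.test.residue_surjective).val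
  have hnP : maximalIdeal
      (fibreProd h₁.test.residue_surjective h₂.test.residue_surjective) ^ n = ⊥ := by
    have := isLocalHom_of_isArtinian A pA
    have := isLocalHom_of_isArtinian B pB
    rw [eq_bot_iff]
    intro p hp
    have hA := Ideal.mem_map_of_mem (pA : _ →+* A) hp
    have hB := Ideal.mem_map_of_mem (pB : _ →+* B) hp
    rw [Ideal.map_pow] at hA hB
    have hA' := Ideal.pow_right_mono
      (((IsLocalRing.local_hom_TFAE (pA : _ →+* A)).out 0 2).mp
        (isLocalHom_of_isArtinian A pA)) n hA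
    have hB' := Ideal.pow_right_mono
      (((IsLocalRing.local_hom_TFAE (pB : _ →+* B)).out 0 2).mp
        (isLocalHom_of_isArtinian B pB)) n hB
    rw [hn₁, Ideal.mem_bot] at hA'
    rw [hn₂, Ideal.mem_bot] at hB'
    exact Ideal.mem_bot.mpr (Subtype.ext (Prod.ext hA' hB'))
  obtain ⟨C, iC, iCl, iCa, iCh, ι, M', φ, hι, hmap, hM', hφ, hsurj, hnC⟩ :=
    D.exists_generated hM hnP
  have hval : ∀ σ i j, (ι (M' σ i j)).1 = (M₁ σ i j, M₂ σ i j) := fun σ i j => by
    rw [← hMval σ i j, ← hmap]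
    rfl
  have hfst : (pA.comp ι).comp φ = φ₁ := by
    refine (D.algHom_ext hn₁ (fun x => by rw [hc₁]; exact centred_mem h₁.res _) fun x => ?_).symm
    rw [hc₁]
    simp only [AlgHom.comp_apply, hφ x, centred, map_sub, AlgHom.commutes]
    exact congrArg (· - _) (congrArg Prod.fst (hval _ _ _)).symm
  have hsnd : (pB.comp ι).comp φ = φ₂ := by
    refine (D.algHom_ext hn₂ (fun x => by rw [hc₂]; exact centred_mem h₂.res _) fun x => ?_).symm
    rw [hc₂]
    simp only [AlgHom.comp_apply, hφ x, centred, map_sub, AlgHom.commutes]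
    exact congrArg (· - _) (congrArg Prod.snd (hval _ _ _)).symm
  have hker : RingHom.ker φ = RingHom.ker φ₁ ⊓ RingHom.ker φ₂ := by
    ext f
    rw [Submodule.mem_inf, RingHom.mem_ker, RingHom.mem_ker, RingHom.mem_ker, ← hfst, ← hsnd]
    refine ⟨fun h => ⟨by simp [h], by simp [h]⟩, fun ⟨ha, hb⟩ => hι ?_⟩
    rw [map_zero]
    exact Subtype.ext (Prod.ext ha hb)
  refine ⟨⟨C, iC, iCl, iCa, iCh, M', φ, hM', hφ, hsurj, hnC, hker⟩, fun f x hle hf => ?_⟩
  obtain ⟨g, hg⟩ := hsurj (M' x.1 x.2.1 x.2.2)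
  have hgA : φ₁ g = M₁ x.1 x.2.1 x.2.2 := by
    rw [← hfst]
    simp only [AlgHom.comp_apply, hg]
    exact congrArg Prod.fst (hval _ _ _)
  have hgB : φ₂ g = M₂ x.1 x.2.1 x.2.2 := by
    rw [← hsnd]
    simp only [AlgHom.comp_apply, hg]
    exact congrArg Prod.snd (hval _ _ _)
  have hmem : f - g ∈ RingHom.ker φ₂ := hle (by rw [RingHom.mem_ker, map_sub, hf, hgA, sub_self])
  rw [RingHom.mem_ker, map_sub, sub_eq_zero] at hmem
  rw [hmem, hgB]

omit [IsLocalRing B] [IsLocalHom (algebraMap 𝒪 B)] in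
omit [Finite (ResidueField 𝒪)] in
lemma inLevel_succ {n : ℕ} {K : Ideal D.Pw} (h : D.InLevel n K) : D.InLevel (n + 1) K := by
  obtain ⟨A, i1, i2, i3, i4, M, φ, hM, hc, hs, hn, hk⟩ := h
  exact ⟨A, i1, i2, i3, i4, M, φ, hM, hc, hs, by rw [pow_succ, hn, Ideal.bot_mul], hk⟩

omit [Finite (ResidueField 𝒪)] in
lemma inLevel_pow_le {n : ℕ} {K : Ideal D.Pw} (h : D.InLevel n K) :
    maximalIdeal D.Pw ^ n ≤ K := by
  obtain ⟨A, i1, i2, i3, i4, M, φ, hM, hc, hs, hn, rfl⟩ := h
  exact D.map_pow_eq_zero hn fun x => by rw [hc]; exact centred_mem hM.res _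

variable [IsNoetherianRing 𝒪]

/-- The least ideal of each level. -/
lemma exists_least (n : ℕ) :
    ∃ K, D.InLevel (n + 1) K ∧ ∀ K', D.InLevel (n + 1) K' → K ≤ K' := by
  have hbase : maximalIdeal (ResidueField 𝒪) ^ (n + 1) = ⊥ := by
    rw [IsLocalRing.maximalIdeal_eq_bot, Ideal.bot_pow n.succ_ne_zero]
  obtain ⟨B, _, _, _, _, ι, M', φ, -, -, hM', hφ, hs, hn⟩ := D.exists_generated D.base hbase
  have hne : {K | D.InLevel (n + 1) K}.Nonempty :=
    ⟨RingHom.ker φ, B, _, _, _, ‹_›, M', φ, hM', hφ, hs, hn, rfl⟩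
  have hfin : {K | D.InLevel (n + 1) K}.Finite := by
    let I := maximalIdeal D.Pw ^ (n + 1)
    have : Finite (D.Pw ⧸ maximalIdeal D.Pw) := by
      refine Finite.of_surjective (α := ResidueField 𝒪)
        (Ideal.Quotient.lift (maximalIdeal 𝒪)
          ((Ideal.Quotient.mk (maximalIdeal D.Pw)).comp MvPowerSeries.C) (fun o ho => by
            rw [RingHom.comp_apply, Ideal.Quotient.eq_zero_iff_mem,
              mem_maximalIdeal_iff_constantCoeff, MvPowerSeries.constantCoeff_C]
            exact ho)) fun y => ?_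
      obtain ⟨f, rfl⟩ := Ideal.Quotient.mk_surjective y
      refine ⟨residue 𝒪 (MvPowerSeries.constantCoeff f), ?_⟩
      show Ideal.Quotient.mk _ (MvPowerSeries.C (MvPowerSeries.constantCoeff f)) = _
      rw [Ideal.Quotient.eq, mem_maximalIdeal_iff_constantCoeff]
      simp
    have : Finite (D.Pw ⧸ I) :=
      Ideal.finite_quotient_pow (IsNoetherian.noetherian (maximalIdeal D.Pw)) _
    have : Finite (Ideal (D.Pw ⧸ I)) :=
      Finite.of_injective (SetLike.coe : Ideal (D.Pw ⧸ I) → Set (D.Pw ⧸ I)) SetLike.coe_injective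
    refine Set.Finite.subset (Set.finite_range (Ideal.comap (Ideal.Quotient.mk I))) fun K hK => ?_
    refine ⟨K.map (Ideal.Quotient.mk I), ?_⟩
    rw [Ideal.comap_map_of_surjective _ Ideal.Quotient.mk_surjective, ← RingHom.ker_eq_comap_bot,
      Ideal.mk_ker]
    exact sup_eq_left.mpr (D.inLevel_pow_le hK)
  obtain ⟨K, hK, hmin⟩ := hfin.exists_minimal hne
  refine ⟨K, hK, fun K' hK' => ?_⟩
  obtain ⟨A₁, _, _, _, _, M₁, φ₁, hM₁, hc₁, -, hn₁, rfl⟩ := hK
  obtain ⟨A₂, _, _, _, _, M₂, φ₂, hM₂, hc₂, -, hn₂, rfl⟩ := hK'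
  exact (hmin (D.exists_inf hM₁ hc₁ hn₁ hM₂ hc₂ hn₂).1 inf_le_left).trans inf_le_right

/-- The kernel of level `n`. -/
def level (n : ℕ) : Ideal D.Pw := (D.exists_least n).choose

/-- The chosen level is a level. -/
lemma level_inLevel (n : ℕ) : D.InLevel (n + 1) (D.level n) := (D.exists_least n).choose_spec.1

/-- The chosen level is the smallest one. -/
lemma level_le {n : ℕ} {K : Ideal D.Pw} (h : D.InLevel (n + 1) K) : D.level n ≤ K :=
  (D.exists_least n).choose_spec.2 K h

omit [IsLocalHom (algebraMap 𝒪 B)] [IsLocalRing B] in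
lemma level_antitone (n : ℕ) : D.level (n + 1) ≤ D.level n :=
  D.level_le (D.inLevel_succ (D.level_inLevel n))

lemma pow_le_level (n : ℕ) : maximalIdeal D.Pw ^ (n + 1) ≤ D.level n :=
  D.inLevel_pow_le (D.level_inLevel n)

lemma level_le_sup (n : ℕ) : D.level n ≤ D.level (n + 1) ⊔ maximalIdeal D.Pw ^ (n + 1) := by
  obtain ⟨A, _, _, _, _, M, φ, hM, hc, hs, hn, hk⟩ := D.level_inLevel (n + 1)
  have := hM.test.isArtinian
  have : Finite A := finite_of_isArtinianTestAlgebra hM.test
  let J := maximalIdeal A ^ (n + 1)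
  have : Nontrivial (A ⧸ J) := Ideal.Quotient.nontrivial_iff.mpr fun h =>
    (maximalIdeal.isMaximal A).ne_top (top_le_iff.mp (h ▸ Ideal.pow_le_self n.succ_ne_zero))
  have : IsLocalRing (A ⧸ J) :=
    IsLocalRing.of_surjective' (Ideal.Quotient.mk J) Ideal.Quotient.mk_surjective
  have : IsLocalHom (Ideal.Quotient.mk J) := IsLocalHom.of_surjective _ Ideal.Quotient.mk_surjective
  have : IsLocalHom (algebraMap 𝒪 (A ⧸ J)) := RingHom.isLocalHom_comp (Ideal.Quotient.mk J) _
  have htest : IsArtinianTestAlgebra 𝒪 (A ⧸ J) := by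
    refine ⟨inferInstance, fun y => ?_, inferInstance⟩
    obtain ⟨z, rfl⟩ := residue_surjective y
    obtain ⟨a, rfl⟩ := Ideal.Quotient.mk_surjective z
    obtain ⟨o, ho⟩ := hM.test.residue_surjective (residue A a)
    refine ⟨o, ?_⟩
    have h2 := congrArg (ResidueField.map (Ideal.Quotient.mk J)) ho
    simp only [Function.comp_apply, ResidueField.map_residue] at h2
    exact h2
  have hM' := hM.map D.isCond htest (Ideal.Quotient.mkₐ 𝒪 J)
  have hc' : D.Compatible (mapRep (Ideal.Quotient.mkₐ 𝒪 J : A →+* A ⧸ J) M)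
      ((Ideal.Quotient.mkₐ 𝒪 J).comp φ) := fun x => by
    rw [AlgHom.comp_apply, hc x, centred_map]
  have hn' : maximalIdeal (A ⧸ J) ^ (n + 1) = ⊥ := by
    rw [← IsLocalRing.map_maximalIdeal_of_surjective (Ideal.Quotient.mk J)
      Ideal.Quotient.mk_surjective, ← Ideal.map_pow]
    exact Ideal.map_quotient_self J
  refine D.level_le ⟨A ⧸ J, _, _, _, ‹_›, _, _, hM', hc',
    Ideal.Quotient.mk_surjective.comp hs, hn', ?_⟩
  rw [← hk]
  have hmmap : (maximalIdeal D.Pw).map (φ : D.Pw →+* A) = maximalIdeal A := by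
    have : Nontrivial A := inferInstance
    exact IsLocalRing.map_maximalIdeal_of_surjective (φ : D.Pw →+* A) hs
  ext f
  rw [RingHom.mem_ker, AlgHom.comp_apply, Ideal.Quotient.mkₐ_eq_mk, Ideal.Quotient.eq_zero_iff_mem]
  show φ f ∈ maximalIdeal A ^ (n + 1) ↔ _
  rw [← hmmap, ← Ideal.map_pow, sup_comm]
  have := Ideal.comap_map_of_surjective (φ : D.Pw →+* A) hs (maximalIdeal D.Pw ^ (n + 1))
  rw [← RingHom.ker_eq_comap_bot] at this
  rw [show (φ f ∈ Ideal.map (φ : D.Pw →+* A) (maximalIdeal D.Pw ^ (n + 1))) =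
    (f ∈ Ideal.comap (φ : D.Pw →+* A) (Ideal.map (φ : D.Pw →+* A) (maximalIdeal D.Pw ^ (n + 1))))
    from rfl, this]
  rfl

variable [IsAdicComplete (maximalIdeal 𝒪) 𝒪]

/-- Successive approximations inside the level filtration converge. -/
lemma exists_limit (n : ℕ) (r : ℕ → D.Pw) (hr : ∀ j, r (j + 1) - r j ∈ D.level (n + j)) :
    ∃ l, (∀ j, l - r j ∈ D.level (n + j)) ∧ l - r 0 ∈ maximalIdeal D.Pw ^ (n + 1) := by
  have := isAdicComplete_mvPowerSeries_of_complete (σ := D.S) (A := 𝒪)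
  have step : ∀ (j : ℕ) (s : D.Pw), ∃ s', s - r j ∈ D.level (n + j) →
      (s' - r (j + 1) ∈ D.level (n + (j + 1)) ∧ s' - s ∈ maximalIdeal D.Pw ^ (n + j + 1)) := by
    intro j s
    by_cases hs : s - r j ∈ D.level (n + j)
    · have h1 : r (j + 1) - s ∈ D.level (n + j) := by
        have := Ideal.sub_mem _ (hr j) hs
        rwa [sub_sub_sub_cancel_right] at this
      obtain ⟨k, hk, m, hm, hkm⟩ := Submodule.mem_sup.mp (D.level_le_sup (n + j) h1)
      refine ⟨r (j + 1) - k, fun _ => ⟨?_, ?_⟩⟩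
      · rw [sub_sub_cancel_left, ← add_assoc]
        exact neg_mem hk
      · have : r (j + 1) - k - s = m := by linear_combination -hkm
        rwa [this]
    · exact ⟨0, fun h => absurd h hs⟩
  choose next hnext using step
  let s : ℕ → D.Pw := fun j => Nat.rec (r 0) (fun i si => next i si) j
  have hs : ∀ j, s j - r j ∈ D.level (n + j) := by
    intro j
    induction j with
    | zero => simp [s]
    | succ j ih => exact (hnext j (s j) ih).1
  have hdiff : ∀ j, s (j + 1) - s j ∈ maximalIdeal D.Pw ^ (n + j + 1) :=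
    fun j => (hnext j (s j) (hs j)).2
  obtain ⟨l, hl⟩ := exists_limit_of_succ (maximalIdeal D.Pw) s fun j =>
    Ideal.pow_le_pow_right (by omega) (hdiff j)
  have hls : ∀ j, l - s j ∈ maximalIdeal D.Pw ^ (n + j + 1) := by
    intro j
    have hc : s (n + j + 1) - s j ∈ maximalIdeal D.Pw ^ (n + j + 1) := by
      rw [← Finset.sum_Ico_sub s (show j ≤ n + j + 1 by omega)]
      exact Ideal.sum_mem _ fun k hk => Ideal.pow_le_pow_right
        (by have := (Finset.mem_Ico.mp hk).1; omega) (hdiff k)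
    have := add_mem (hl (n + j + 1)) hc
    rwa [sub_add_sub_cancel] at this
  refine ⟨l, fun j => ?_, hls 0⟩
  have := add_mem (D.pow_le_level _ (hls j)) (hs j)
  rwa [sub_add_sub_cancel] at this

/-- The kernel of the universal ring. -/
def univKer : Ideal D.Pw := ⨅ n, D.level n

/-- `level n = univKer + m^(n+1)`. -/
lemma level_eq (n : ℕ) : D.level n = D.univKer ⊔ maximalIdeal D.Pw ^ (n + 1) := by
  refine le_antisymm (fun f hf => ?_) (sup_le (iInf_le _ n) (D.pow_le_level n))
  obtain ⟨l, hl, hl0⟩ := D.exists_limit n (fun j => if j = 0 then f else 0) (fun j => by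
    cases j with
    | zero => simpa using hf
    | succ j => simp)
  have hl' : l ∈ D.univKer := by
    refine Ideal.mem_iInf.mpr fun m => ?_
    have h1 := hl (m + 1)
    simp only [Nat.succ_ne_zero, if_false, sub_zero] at h1
    exact antitone_nat_of_succ_le D.level_antitone (by omega) h1
  rw [show f = l + (f - l) by ring]
  refine Submodule.add_mem_sup hl' ?_
  rw [← neg_mem_iff, neg_sub]
  simpa using hl0

end DefProblem

end FermatAgent.GaloisBasic
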