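import Mathlib
import Fermat.Prelude.Def_GaloisRep_DeformationRingData
import Fermat.Agent.GaloisBasic.Levels

/-!
# The universal deformation ring

`UR = 𝒪⟦X_s : s ∈ S⟧ / univKer` is a complete local `𝒪`-algebra with the residue field of `𝒪`.
The universal entries are the power series taking the right value on every good lift; they form
a continuous normalised lift `univMat` of the residual representation, and the representation
`univRep` it defines satisfies the deformation condition.
-/

set_option autoImplicit false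

noncomputable section

open IsLocalRing GaloisRep

namespace FermatAgent.GaloisBasic

/-- Residual surjectivity passes to quotients. -/
lemma residue_surjective_quotient {O R : Type} [CommRing O] [CommRing R] [IsLocalRing R]
    [Algebra O R]
    (J : Ideal R) [IsLocalRing (R ⧸ J)] (hs : Function.Surjective (residue R ∘ algebraMap O R)) :
    Function.Surjective (residue (R ⧸ J) ∘ algebraMap O (R ⧸ J)) := by
  have : IsLocalHom (Ideal.Quotient.mk J) := IsLocalHom.of_surjective _ Ideal.Quotient.mk_surjective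
  intro y
  obtain ⟨z, rfl⟩ := residue_surjective y
  obtain ⟨a, rfl⟩ := Ideal.Quotient.mk_surjective z
  obtain ⟨o, ho⟩ := hs (residue R a)
  refine ⟨o, ?_⟩
  have h := congrArg (ResidueField.map (Ideal.Quotient.mk J)) ho
  simp only [Function.comp_apply, ResidueField.map_residue] at h
  exact h

/-- Truncations of a lift over a complete ring are good lifts. -/
lemma isArtinianTestAlgebra_quotient {𝒪 : Type} [CommRing 𝒪] [IsLocalRing 𝒪]
    [Finite (ResidueField 𝒪)] {A : Type} [CommRing A] [IsLocalRing A] [IsNoetherianRing A]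
    [Algebra 𝒪 A] [IsLocalHom (algebraMap 𝒪 A)]
    (hs : Function.Surjective (residue A ∘ algebraMap 𝒪 A)) (n : ℕ) :
    ∃ _ : IsLocalRing (A ⧸ maximalIdeal A ^ (n + 1)),
      IsArtinianTestAlgebra 𝒪 (A ⧸ maximalIdeal A ^ (n + 1)) ∧
      maximalIdeal (A ⧸ maximalIdeal A ^ (n + 1)) ^ (n + 1) = ⊥ := by
  let J := maximalIdeal A ^ (n + 1)
  have : Nontrivial (A ⧸ J) := Ideal.Quotient.nontrivial_iff.mpr fun h =>
    (maximalIdeal.isMaximal A).ne_top (top_le_iff.mp (h ▸ Ideal.pow_le_self n.succ_ne_zero))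
  have : IsLocalRing (A ⧸ J) :=
    IsLocalRing.of_surjective' (Ideal.Quotient.mk J) Ideal.Quotient.mk_surjective
  have : IsLocalHom (Ideal.Quotient.mk J) := IsLocalHom.of_surjective _ Ideal.Quotient.mk_surjective
  have : IsLocalHom (algebraMap 𝒪 (A ⧸ J)) := RingHom.isLocalHom_comp (Ideal.Quotient.mk J) _
  have : Finite (A ⧸ maximalIdeal A) :=
    Finite.of_surjective _ (iotaRes_bijective (𝒪 := 𝒪) hs).surjective
  have : Finite (A ⧸ J) :=
    Ideal.finite_quotient_pow (IsNoetherian.noetherian (maximalIdeal A)) _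
  refine ⟨inferInstance, ⟨inferInstance, residue_surjective_quotient J hs, isArtinian_of_finite⟩,
    ?_⟩
  rw [← IsLocalRing.map_maximalIdeal_of_surjective (Ideal.Quotient.mk J)
    Ideal.Quotient.mk_surjective, ← Ideal.map_pow]
  exact Ideal.map_quotient_self J

namespace DefProblem

variable {𝒪 : Type} [CommRing 𝒪] [IsLocalRing 𝒪] [IsNoetherianRing 𝒪]
  [Finite (ResidueField 𝒪)] (D : DefProblem 𝒪)

/-- The universal deformation ring. -/
abbrev UR : Type := D.Pw ⧸ D.univKer

/-- The universal kernel lies in every level. -/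
lemma univKer_le_level (n : ℕ) : D.univKer ≤ D.level n := iInf_le _ n

lemma univKer_le_maximalIdeal : D.univKer ≤ maximalIdeal D.Pw := by
  refine (D.univKer_le_level 0).trans (IsLocalRing.le_maximalIdeal ?_)
  obtain ⟨A, _, _, _, _, M, φ, hM, hc, hs, hn, hk⟩ := D.level_inLevel 0
  rw [← hk]
  exact RingHom.ker_ne_top _

instance : Nontrivial D.UR :=
  Ideal.Quotient.nontrivial_iff.mpr fun h =>
    (maximalIdeal.isMaximal D.Pw).ne_top (top_le_iff.mp (h ▸ D.univKer_le_maximalIdeal))

instance : IsLocalRing D.UR :=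
  IsLocalRing.of_surjective' (Ideal.Quotient.mk _) Ideal.Quotient.mk_surjective

instance : IsLocalHom (Ideal.Quotient.mk D.univKer) :=
  IsLocalHom.of_surjective _ Ideal.Quotient.mk_surjective

instance pw_isLocalHom : IsLocalHom (algebraMap 𝒪 D.Pw) := isLocalHom_algebraMap_series

instance : IsLocalHom (algebraMap 𝒪 D.UR) :=
  RingHom.isLocalHom_comp (Ideal.Quotient.mk D.univKer) (algebraMap 𝒪 D.Pw)

variable [IsAdicComplete (maximalIdeal 𝒪) 𝒪] in
instance : IsAdicComplete (maximalIdeal D.UR) D.UR := by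
  have := isAdicComplete_mvPowerSeries_of_complete (σ := D.S) (A := 𝒪)
  have : IsLocalHom (algebraMap D.Pw D.UR) :=
    inferInstanceAs (IsLocalHom (Ideal.Quotient.mk D.univKer))
  exact IsLocalRing.isAdicComplete_of_module_finite (𝒪 := D.Pw)

/-- The residue field of the universal ring is that of the coefficients. -/
lemma residue_surjective_UR : Function.Surjective (residue D.UR ∘ algebraMap 𝒪 D.UR) := by
  intro y
  obtain ⟨z, rfl⟩ := residue_surjective y
  obtain ⟨f, rfl⟩ := Ideal.Quotient.mk_surjective z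
  refine ⟨MvPowerSeries.constantCoeff f, ?_⟩
  rw [Function.comp_apply, ← sub_eq_zero, ← map_sub, residue_eq_zero_iff,
    show algebraMap 𝒪 D.UR (MvPowerSeries.constantCoeff f) =
      Ideal.Quotient.mk D.univKer (MvPowerSeries.C (MvPowerSeries.constantCoeff f)) from rfl,
    ← map_sub, IsLocalRing.mem_maximalIdeal]
  refine map_nonunit (Ideal.Quotient.mk D.univKer) _ ?_
  rw [mem_maximalIdeal_iff_constantCoeff]
  simp

variable [IsAdicComplete (maximalIdeal 𝒪) 𝒪] in
/-- Level `n` lies in the `(n + 1)`-st power of the maximal ideal of the universal ring. -/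
lemma mk_mem_maximalIdeal_pow {f : D.Pw} {n : ℕ} (h : f ∈ D.level n) :
    Ideal.Quotient.mk D.univKer f ∈ maximalIdeal D.UR ^ (n + 1) := by
  rw [D.level_eq] at h
  obtain ⟨k, hk, m, hm, rfl⟩ := Submodule.mem_sup.mp h
  rw [map_add, Ideal.Quotient.eq_zero_iff_mem.mpr hk, zero_add,
    ← IsLocalRing.map_maximalIdeal_of_surjective (Ideal.Quotient.mk D.univKer)
      Ideal.Quotient.mk_surjective, ← Ideal.map_pow]
  exact Ideal.mem_map_of_mem _ hm

/-- The representatives at level `n` of a matrix entry. -/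
def IsEntry (n : ℕ) (x : EntryIdx) (f : D.Pw) : Prop :=
  ∀ (A : Type) [CommRing A] [IsLocalRing A] [Algebra 𝒪 A] [IsLocalHom (algebraMap 𝒪 A)]
    (M : MatRep A) (φ : D.Pw →ₐ[𝒪] A), GoodLift D.nd D.cond M → D.Compatible M φ →
      maximalIdeal A ^ (n + 1) = ⊥ → φ f = M x.1 x.2.1 x.2.2

/-- Every good lift at level `n` kills the level ideal. -/
lemma level_le_ker {A : Type} [CommRing A] [IsLocalRing A] [Algebra 𝒪 A]
    [IsLocalHom (algebraMap 𝒪 A)] {M : MatRep A} {φ : D.Pw →ₐ[𝒪] A}
    (hM : GoodLift D.nd D.cond M) (hc : D.Compatible M φ) {n : ℕ}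
    (hn : maximalIdeal A ^ (n + 1) = ⊥) : D.level n ≤ RingHom.ker φ := by
  obtain ⟨h, -⟩ := D.exists_inf hM hc hn hM hc hn
  rw [inf_idem] at h
  exact D.level_le h

lemma exists_isEntry (n : ℕ) (x : EntryIdx) : ∃ f, D.IsEntry n x f := by
  obtain ⟨A₁, _, _, _, _, M₁, φ₁, hM₁, hc₁, hs₁, hn₁, hk⟩ := D.level_inLevel n
  obtain ⟨f, hf⟩ := hs₁ (M₁ x.1 x.2.1 x.2.2)
  refine ⟨f, fun A _ _ _ _ M φ hM hc hn => ?_⟩
  exact (D.exists_inf hM₁ hc₁ hn₁ hM hc hn).2 f x (hk.trans_le (D.level_le_ker hM hc hn)) hf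

lemma isEntry_congr {n : ℕ} {x : EntryIdx} {f g : D.Pw} (hf : D.IsEntry n x f)
    (hg : g - f ∈ D.level n) : D.IsEntry n x g := by
  intro A _ _ _ _ M φ hM hc hn
  have h := D.level_le_ker hM hc hn hg
  rw [RingHom.mem_ker, map_sub, sub_eq_zero] at h
  rw [h]
  exact hf A M φ hM hc hn

lemma sub_mem_of_isEntry {n : ℕ} {x : EntryIdx} {f g : D.Pw} (hf : D.IsEntry n x f)
    (hg : D.IsEntry n x g) : g - f ∈ D.level n := by
  obtain ⟨A, _, _, _, _, M, φ, hM, hc, -, hn, hk⟩ := D.level_inLevel n
  rw [← hk, RingHom.mem_ker, map_sub, hf A M φ hM hc hn, hg A M φ hM hc hn, sub_self]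

variable [IsAdicComplete (maximalIdeal 𝒪) 𝒪]

/-- Each matrix entry has one representative good for all levels. -/
lemma exists_entry (x : EntryIdx) : ∃ f, ∀ n, D.IsEntry n x f := by
  choose r hr using fun n => D.exists_isEntry n x
  have hmono : ∀ n, D.IsEntry n x (r (n + 1)) := fun n A _ _ _ _ M φ hM hc hn =>
    hr (n + 1) A M φ hM hc (by rw [pow_succ, hn, Ideal.bot_mul])
  obtain ⟨l, hl, -⟩ := D.exists_limit 0 r fun j => by
    rw [zero_add]
    exact D.sub_mem_of_isEntry (hr j) (hmono j)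
  exact ⟨l, fun n => D.isEntry_congr (hr n) (by simpa using hl n)⟩

/-- A chosen representative of each universal entry. -/
def entry (x : EntryIdx) : D.Pw := (D.exists_entry x).choose

/-- The universal entry takes the value of the entry on every good lift. -/
lemma entry_spec {A : Type} [CommRing A] [IsLocalRing A] [Algebra 𝒪 A]
    [IsLocalHom (algebraMap 𝒪 A)] {M : MatRep A} {φ : D.Pw →ₐ[𝒪] A}
    (hM : GoodLift D.nd D.cond M) (hc : D.Compatible M φ) {n : ℕ}
    (hn : maximalIdeal A ^ (n + 1) = ⊥) (x : EntryIdx) :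
    φ (D.entry x) = M x.1 x.2.1 x.2.2 :=
  (D.exists_entry x).choose_spec n A M φ hM hc hn

omit [IsAdicComplete (maximalIdeal 𝒪) 𝒪] in
/-- Equality in the universal ring can be tested on lifts. -/
lemma mk_eq_mk_of_forall {f g : D.Pw}
    (h : ∀ (A : Type) [CommRing A] [IsLocalRing A] [Algebra 𝒪 A] [IsLocalHom (algebraMap 𝒪 A)]
      (M : MatRep A) (φ : D.Pw →ₐ[𝒪] A) (n : ℕ), GoodLift D.nd D.cond M → D.Compatible M φ →
        maximalIdeal A ^ (n + 1) = ⊥ → φ f = φ g) :
    Ideal.Quotient.mk D.univKer f = Ideal.Quotient.mk D.univKer g := by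
  refine Ideal.Quotient.eq.mpr (Ideal.mem_iInf.mpr fun n => ?_)
  obtain ⟨A, _, _, _, _, M, φ, hM, hc, -, hn, hk⟩ := D.level_inLevel n
  rw [← hk, RingHom.mem_ker, map_sub, h A M φ n hM hc hn, sub_self]

/-- The universal matrix representation. -/
def univMat : MatRep D.UR where
  toFun σ := Matrix.of fun i j => Ideal.Quotient.mk D.univKer (D.entry (σ, i, j))
  map_one' := by
    ext i j
    rw [Matrix.of_apply,
      show (1 : Matrix (Fin 2) (Fin 2) D.UR) i j =
        Ideal.Quotient.mk D.univKer ((1 : Matrix (Fin 2) (Fin 2) D.Pw) i j) by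
          simp [Matrix.one_apply, apply_ite (Ideal.Quotient.mk D.univKer)]]
    refine D.mk_eq_mk_of_forall fun A _ _ _ _ M φ n hM hc hn => ?_
    rw [D.entry_spec hM hc hn, map_one]
    simp [Matrix.one_apply, apply_ite φ]
  map_mul' σ τ := by
    ext i j
    rw [Matrix.of_apply, Matrix.mul_apply]
    simp only [Matrix.of_apply, ← map_mul, ← map_sum]
    refine D.mk_eq_mk_of_forall fun A _ _ _ _ M φ n hM hc hn => ?_
    rw [D.entry_spec hM hc hn, map_mul, Matrix.mul_apply, map_sum]
    refine Finset.sum_congr rfl fun k _ => ?_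
    rw [map_mul, D.entry_spec hM hc hn, D.entry_spec hM hc hn]

/-- The universal matrix representation is continuous. -/
lemma univMat_continuous : MatContinuous D.UR D.univMat := by
  intro n
  obtain ⟨A, _, _, _, _, M, φ, hM, hc, -, hn, hk⟩ := D.level_inLevel n
  have := hM.test.isArtinian
  obtain ⟨L, hL, hLM⟩ := (matContinuous_iff_of_isArtinian M).mp hM.cont
  refine ⟨L, hL, fun σ hσ i j => Ideal.pow_le_pow_right n.le_succ ?_⟩
  have h1 : (1 : Matrix (Fin 2) (Fin 2) D.UR) i j =
      Ideal.Quotient.mk D.univKer ((1 : Matrix (Fin 2) (Fin 2) D.Pw) i j) := by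
    simp [Matrix.one_apply, apply_ite (Ideal.Quotient.mk D.univKer)]
  show Ideal.Quotient.mk D.univKer (D.entry (σ, i, j)) - _ ∈ _
  rw [h1, ← map_sub]
  refine D.mk_mem_maximalIdeal_pow ?_
  rw [← hk, RingHom.mem_ker, map_sub, D.entry_spec hM hc hn, hLM σ hσ, sub_eq_zero]
  simp [Matrix.one_apply, apply_ite φ]

/-- The universal matrix representation lifts the residual one. -/
lemma univMat_residual : HasResidual D.rbar D.univMat := by
  obtain ⟨A, _, _, _, _, M, φ, hM, hc, -, hn, hk⟩ := D.level_inLevel 0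
  refine MonoidHom.ext fun σ => Matrix.ext fun i j => ?_
  obtain ⟨o, ho⟩ := residue_surjective (D.rbar σ i j)
  simp only [mapRep_apply, Matrix.map_apply]
  rw [← ho, ResidueField.map_residue, ← sub_eq_zero, ← map_sub, residue_eq_zero_iff]
  show Ideal.Quotient.mk D.univKer (D.entry (σ, i, j)) -
    Ideal.Quotient.mk D.univKer (algebraMap 𝒪 D.Pw o) ∈ _
  rw [← map_sub]
  refine Ideal.pow_le_self one_ne_zero (D.mk_mem_maximalIdeal_pow (n := 0) ?_)
  rw [← hk, RingHom.mem_ker, map_sub, D.entry_spec hM hc hn, AlgHom.commutes]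
  have h1 := congrFun (congrFun (DFunLike.congr_fun hM.res σ) i) j
  simp only [mapRep_apply, Matrix.map_apply] at h1
  rw [← ho, ResidueField.map_residue] at h1
  rw [zero_add, pow_one] at hn
  rw [← Ideal.mem_bot, ← hn, ← residue_eq_zero_iff, map_sub, h1, sub_self]

/-- The universal matrix representation is normalised. -/
lemma univMat_normal : IsNormal D.nd D.univMat := by
  have hlin : ∀ (c : GQ →₀ 𝒪) (i j : Fin 2) (v : 𝒪),
      (∀ (A : Type) [CommRing A] [IsLocalRing A] [Algebra 𝒪 A] [IsLocalHom (algebraMap 𝒪 A)]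
        (M : MatRep A), GoodLift D.nd D.cond M → linComb c M i j = algebraMap 𝒪 A v) →
      linComb c D.univMat i j = algebraMap 𝒪 D.UR v := by
    intro c i j v h
    have hrw : linComb c D.univMat i j = Ideal.Quotient.mk D.univKer
        (c.sum fun g a => algebraMap 𝒪 D.Pw a * D.entry (g, i, j)) := by
      simp only [linComb, Finsupp.sum, Matrix.sum_apply, map_sum]
      exact Finset.sum_congr rfl fun g _ => by rw [map_mul]; rfl
    rw [hrw]
    refine D.mk_eq_mk_of_forall (g := algebraMap 𝒪 D.Pw v) fun A _ _ _ _ M φ n hM hc hn => ?_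
    rw [AlgHom.commutes, ← h A M hM]
    simp only [linComb, Finsupp.sum, map_sum, Matrix.sum_apply]
    exact Finset.sum_congr rfl fun g _ => by
      rw [map_mul, D.entry_spec hM hc hn, AlgHom.commutes]; rfl
  refine ⟨?_, ?_, ?_⟩
  · rw [hlin _ _ _ 0 (fun A _ _ _ _ M hM => by rw [hM.normal.1, map_zero]), map_zero]
  · rw [hlin _ _ _ 0 (fun A _ _ _ _ M hM => by rw [hM.normal.2.1, map_zero]), map_zero]
  · rw [hlin _ _ _ 1 (fun A _ _ _ _ M hM => by rw [hM.normal.2.2, map_one]), map_one]

/-- **The universal representation**, on `UR²`. -/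
def univRep : GaloisRepAdic D.UR := toRep D.univMat D.univMat_continuous

/-- The variable `X_x` is the centred universal entry `x`. -/
lemma mk_X (x : D.S) :
    Ideal.Quotient.mk D.univKer (MvPowerSeries.X x) = centred D.rbar D.univMat x.1 := by
  have : centred D.rbar D.univMat x.1 = Ideal.Quotient.mk D.univKer (D.entry x.1 -
      algebraMap 𝒪 D.Pw (Function.surjInv residue_surjective
        (D.rbar x.1.1 x.1.2.1 x.1.2.2))) := by
    rw [map_sub]; rfl
  rw [this]
  refine D.mk_eq_mk_of_forall fun A _ _ _ _ M φ n hM hc hn => ?_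
  rw [hc x, map_sub, D.entry_spec hM hc hn, AlgHom.commutes]
  rfl

/-- **The universal representation satisfies the deformation condition.** -/
lemma univRep_cond : D.cond D.univRep := by
  rw [D.isCond.iff_forall_surjective inferInstance D.residue_surjective_UR]
  intro B _ _ _ hB q hq hqs
  have := hB.isArtinian
  have := hB.isLocalHom
  obtain ⟨m, hm⟩ := exists_maximalIdeal_pow_eq_bot (A := B)
  have hm1 : maximalIdeal B ^ (m + 1) = ⊥ := by rw [pow_succ, hm, Ideal.bot_mul]
  obtain ⟨A, _, _, _, _, M, φ, hM, hc, hs, hn, hk⟩ := D.level_inLevel m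
  have hkill : RingHom.ker φ ≤ RingHom.ker (q.comp (Ideal.Quotient.mkₐ 𝒪 D.univKer)) := by
    rw [hk]
    intro f hf
    have h1 := Ideal.mem_map_of_mem (q : D.UR →+* B) (D.mk_mem_maximalIdeal_pow hf)
    rw [Ideal.map_pow] at h1
    have h2 := Ideal.pow_right_mono
      (((IsLocalRing.local_hom_TFAE (q : D.UR →+* B)).out 0 2).mp hq) (m + 1) h1
    rw [hm1, Ideal.mem_bot] at h2
    exact h2
  let ψ := AlgHom.liftOfSurjective φ hs (q.comp (Ideal.Quotient.mkₐ 𝒪 D.univKer)) hkill
  have hψ : mapRep (ψ : A →+* B) M = mapRep (q : D.UR →+* B) D.univMat := by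
    refine MonoidHom.ext fun σ => Matrix.ext fun i j => ?_
    simp only [mapRep_apply, Matrix.map_apply]
    rw [← D.entry_spec hM hc hn (σ, i, j)]
    exact AlgHom.liftOfSurjective_apply φ hs _ hkill _
  have hgood := hM.map D.isCond hB ψ
  obtain ⟨e⟩ := baseChangeAlong_toRep (q : D.UR →+* B) hq D.univMat D.univMat_continuous
  have := hq
  obtain ⟨e1⟩ := isEquiv_toRep_of_matConj hgood.cont (D.univMat_continuous.map (q : D.UR →+* B))
    ⟨1, fun σ => by rw [hψ]; simp⟩
  exact D.isCond.of_isEquiv hB ⟨e1.trans e.symm⟩ hgood.cond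

end DefProblem

end FermatAgent.GaloisBasic
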