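import Mathlib
import Fermat.Agent.GaloisBasic.Universal
import Fermat.Agent.RT.Eval

/-!
# Maps from the universal deformation ring to complete algebras

A normalised lift to a complete algebra whose truncations satisfy the condition comes from exactly
one map from the universal ring.
-/

set_option autoImplicit false

noncomputable section

open IsLocalRing GaloisRep FermatAgent.RT

namespace FermatAgent.GaloisBasic

variable {𝒪 : Type} [CommRing 𝒪] [IsLocalRing 𝒪]

/-- The reduction of a lift over a complete ring to an Artinian quotient is good. -/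
lemma goodLift_quotient {rbar : MatRep (ResidueField 𝒪)} {nd : NormData 𝒪 rbar}
    {𝒟 : ∀ ⦃A : Type⦄ [CommRing A] [IsLocalRing A] [Algebra 𝒪 A], GaloisRepAdic A → Prop}
    (h𝒟 : IsDeformationCondition 𝒪 𝒟) {A : Type} [CommRing A] [IsLocalRing A] [IsNoetherianRing A]
    [IsAdicComplete (maximalIdeal A) A] [Algebra 𝒪 A] [IsLocalHom (algebraMap 𝒪 A)]
    (hs : Function.Surjective (residue A ∘ algebraMap 𝒪 A)) {M : MatRep A}
    (hM : MatContinuous A M) (hres : HasResidual rbar M) (hn : IsNormal nd M)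
    (hcond : 𝒟 (toRep M hM)) {J : Ideal A} [IsLocalRing (A ⧸ J)]
    [IsLocalHom (algebraMap 𝒪 (A ⧸ J))] (htest : IsArtinianTestAlgebra 𝒪 (A ⧸ J)) :
    GoodLift nd 𝒟 (mapRep (Ideal.Quotient.mkₐ 𝒪 J : A →+* A ⧸ J) M) := by
  have : IsLocalHom (Ideal.Quotient.mkₐ 𝒪 J : A →+* A ⧸ J) :=
    IsLocalHom.of_surjective _ Ideal.Quotient.mk_surjective
  refine ⟨htest, hM.map (Ideal.Quotient.mkₐ 𝒪 J : A →+* A ⧸ J), hres.map (Ideal.Quotient.mkₐ 𝒪 J),
    hn.map (Ideal.Quotient.mkₐ 𝒪 J), ?_⟩
  obtain ⟨e⟩ := baseChangeAlong_toRep (Ideal.Quotient.mkₐ 𝒪 J : A →+* A ⧸ J) inferInstance M hM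
  exact h𝒟.of_isEquiv htest ⟨e⟩
    ((h𝒟.iff_forall_surjective inferInstance hs (toRep M hM)).mp hcond htest
      (Ideal.Quotient.mkₐ 𝒪 J) inferInstance Ideal.Quotient.mk_surjective)

variable [IsNoetherianRing 𝒪]
  [IsAdicComplete (maximalIdeal 𝒪) 𝒪] [Finite (ResidueField 𝒪)] (D : DefProblem 𝒪)

/-- A normalised lift to a complete algebra whose truncations satisfy the condition is the image
of the universal one. -/
theorem exists_univHom {A : Type} [CommRing A] [IsLocalRing A] [IsNoetherianRing A]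
    [IsAdicComplete (maximalIdeal A) A] [Algebra 𝒪 A] [IsLocalHom (algebraMap 𝒪 A)]
    (hs : Function.Surjective (residue A ∘ algebraMap 𝒪 A)) {M : MatRep A}
    (hMc : MatContinuous A M) (hres : HasResidual D.rbar M) (hnorm : IsNormal D.nd M)
    (hcond : ∀ (n : ℕ) [IsLocalRing (A ⧸ maximalIdeal A ^ (n + 1))]
      (hc : MatContinuous _ (mapRep (Ideal.Quotient.mk (maximalIdeal A ^ (n + 1))) M)),
      D.cond (toRep _ hc)) :
    ∃ π : D.UR →ₐ[𝒪] A, ∀ x, (D.univMat x).map π = M x := by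
  have := D.S.finite_toSet
  let φ : D.Pw →ₐ[𝒪] A := evalAdic (maximalIdeal A) (fun x : D.S => centred D.rbar M x.1)
    (fun x => centred_mem hres _)
  have key : ∀ n : ℕ, (∀ f ∈ D.univKer, φ f ∈ maximalIdeal A ^ (n + 1)) ∧
      ∀ e : EntryIdx, φ (D.entry e) - M e.1 e.2.1 e.2.2 ∈ maximalIdeal A ^ (n + 1) := by
    intro n
    obtain ⟨hloc, htest, hpow⟩ := isArtinianTestAlgebra_quotient (A := A) hs n
    have := htest.isLocalHom
    let q : A →ₐ[𝒪] A ⧸ maximalIdeal A ^ (n + 1) := Ideal.Quotient.mkₐ 𝒪 _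
    have : IsLocalHom (q : A →+* A ⧸ maximalIdeal A ^ (n + 1)) :=
      IsLocalHom.of_surjective _ Ideal.Quotient.mk_surjective
    have hc : MatContinuous _ (mapRep (q : A →+* A ⧸ maximalIdeal A ^ (n + 1)) M) := hMc.map _
    have hgood : GoodLift D.nd D.cond (mapRep (q : A →+* A ⧸ maximalIdeal A ^ (n + 1)) M) :=
      ⟨htest, hc, hres.map q, hnorm.map q, hcond n hc⟩
    have hcomp : D.Compatible (mapRep (q : A →+* A ⧸ maximalIdeal A ^ (n + 1)) M) (q.comp φ) :=
      fun x => by rw [AlgHom.comp_apply, centred_map]; simp [φ]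
    refine ⟨fun f hf => ?_, fun e => ?_⟩
    · exact Ideal.Quotient.eq_zero_iff_mem.mp
        (D.level_le_ker hgood hcomp hpow (D.univKer_le_level n hf))
    · exact Ideal.Quotient.eq.mp (D.entry_spec hgood hcomp hpow e)
  have h0 : ∀ x : A, (∀ n, x ∈ maximalIdeal A ^ (n + 1)) → x = 0 := fun x hx =>
    IsHausdorff.haus' (I := maximalIdeal A) x fun n => by
      rw [SModEq.zero, smul_eq_mul, Ideal.mul_top]
      exact Ideal.pow_le_pow_right n.le_succ (hx n)
  refine ⟨Ideal.Quotient.liftₐ D.univKer φ fun f hf => h0 _ fun n => (key n).1 f hf, fun x => ?_⟩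
  ext i j
  exact sub_eq_zero.mp (h0 _ fun n => (key n).2 (x, i, j))

/-- A map from the universal ring matching a lift is local. -/
lemma isLocalHom_univ {A : Type} [CommRing A] [IsLocalRing A] [Algebra 𝒪 A]
    [IsLocalHom (algebraMap 𝒪 A)] {M : MatRep A} (π : D.UR →ₐ[𝒪] A)
    (hπ : ∀ x, (D.univMat x).map π = M x) (hres : HasResidual D.rbar M) :
    IsLocalHom (π : D.UR →+* A) := by
  refine ((IsLocalRing.local_hom_TFAE (π : D.UR →+* A)).out 0 2).mpr ?_
  rw [Ideal.map_le_iff_le_comap,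
    ← IsLocalRing.map_maximalIdeal_of_surjective (Ideal.Quotient.mk D.univKer)
      Ideal.Quotient.mk_surjective, Ideal.map_le_iff_le_comap]
  intro f hf
  have h1 : f - MvPowerSeries.C (MvPowerSeries.constantCoeff f) ∈
      Ideal.span (Set.range (MvPowerSeries.X : D.S → D.Pw)) := by
    rw [mem_span_range_X_iff]; simp
  have hle : Ideal.span (Set.range (MvPowerSeries.X : D.S → D.Pw)) ≤
      Ideal.comap (Ideal.Quotient.mk D.univKer)
        (Ideal.comap (π : D.UR →+* A) (maximalIdeal A)) := by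
    rw [Ideal.span_le]
    rintro _ ⟨x, rfl⟩
    show π (Ideal.Quotient.mk D.univKer (MvPowerSeries.X x)) ∈ maximalIdeal A
    rw [D.mk_X, show π (centred D.rbar D.univMat x.1) = centred D.rbar M x.1 by
      simp only [centred, map_sub, AlgHom.commutes]
      rw [← hπ]; rfl]
    exact centred_mem hres _
  have hC : MvPowerSeries.C (MvPowerSeries.constantCoeff f) ∈
      Ideal.comap (Ideal.Quotient.mk D.univKer)
        (Ideal.comap (π : D.UR →+* A) (maximalIdeal A)) := by
    show π (algebraMap 𝒪 D.UR (MvPowerSeries.constantCoeff f)) ∈ maximalIdeal A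
    rw [AlgHom.commutes]
    exact map_nonunit (algebraMap 𝒪 A) _ ((mem_maximalIdeal_iff_constantCoeff f).mp hf)
  simpa using add_mem (hle h1) hC

/-- A map from the universal ring is determined by the image of the universal lift. -/
theorem univHom_ext {A : Type} [CommRing A] [IsLocalRing A] [IsNoetherianRing A]
    [Algebra 𝒪 A] [IsLocalHom (algebraMap 𝒪 A)]
    (hs : Function.Surjective (residue A ∘ algebraMap 𝒪 A)) {M : MatRep A}
    (hres : HasResidual D.rbar M) {π π' : D.UR →ₐ[𝒪] A} (hπ : ∀ x, (D.univMat x).map π = M x)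
    (hπ' : ∀ x, (D.univMat x).map π' = M x) : π = π' := by
  refine AlgHom.ext fun y => ?_
  obtain ⟨f, rfl⟩ := Ideal.Quotient.mk_surjective y
  refine sub_eq_zero.mp (IsHausdorff.haus' (I := maximalIdeal A) _ fun n => ?_)
  rw [SModEq.zero, smul_eq_mul, Ideal.mul_top]
  refine Ideal.pow_le_pow_right n.le_succ (Ideal.Quotient.eq.mp ?_)
  obtain ⟨hloc, htest, hn⟩ := isArtinianTestAlgebra_quotient (𝒪 := 𝒪) hs n
  have := htest.isLocalHom
  let q := Ideal.Quotient.mkₐ 𝒪 (maximalIdeal A ^ (n + 1))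
  have : IsLocalHom (Ideal.Quotient.mk (maximalIdeal A ^ (n + 1))) :=
    IsLocalHom.of_surjective _ Ideal.Quotient.mk_surjective
  have hX : ∀ ψ : D.UR →ₐ[𝒪] A, (∀ x, (D.univMat x).map ψ = M x) → ∀ x : D.S,
      q (ψ (Ideal.Quotient.mk D.univKer (MvPowerSeries.X x))) = q (centred D.rbar M x.1) := by
    intro ψ h x
    simp only [D.mk_X, centred, map_sub, AlgHom.commutes, ← h, Matrix.map_apply]
  refine AlgHom.congr_fun (D.algHom_ext hn (φ := (q.comp π).comp (Ideal.Quotient.mkₐ 𝒪 D.univKer))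
    (ψ := (q.comp π').comp (Ideal.Quotient.mkₐ 𝒪 D.univKer)) (fun x => ?_)
    fun x => (hX π hπ x).trans (hX π' hπ' x).symm) f
  show q (π _) ∈ _
  erw [hX π hπ x]
  exact map_nonunit (Ideal.Quotient.mk (maximalIdeal A ^ (n + 1))) _ (centred_mem hres _)

end FermatAgent.GaloisBasic
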