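import Mathlib
import Fermat.Agent.GaloisBasic.Inertia
import Fermat.Agent.GaloisBasic.IdealCount

/-!
# Degree-one primes of subfields and Frobenius elements

For a finite Galois extension `L/ℚ`, an unramified prime `q`, and a subgroup `D`, the number of
ideals of norm `q` in the fixed field of `D` is counted by the conjugates of Frobenius in `D`.
At every finite level the decomposition group is generated by inertia and Frobenius.
-/

set_option autoImplicit false

noncomputable section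

open scoped Pointwise NumberField

namespace FermatAgent.GaloisBasic

variable (L : IntermediateField ℚ Qbar) [FiniteDimensional ℚ L] [IsGalois ℚ L]

/-- `q` is unramified in `L`, expressed through inertia at every place. -/
def InertiaTrivial (q : ℕ) : Prop :=
  ∀ A : ValuationSubring Qbar, A.LiesOverPrime q →
    ∀ τ : L ≃ₐ[ℚ] L, (∀ c : 𝓞 L, τ • c - c ∈ centerIn L A) → τ = 1

omit [IsGalois ℚ L] in
lemma eq_one_of_forall_smul_eq {τ : L ≃ₐ[ℚ] L} (h : ∀ c : 𝓞 L, τ • c = c) : τ = 1 := by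
  have : NumberField L := {}
  refine AlgEquiv.ext fun x => ?_
  obtain ⟨a, b, hb, rfl⟩ := IsFractionRing.div_surjective (A := 𝓞 L) x
  have h' : ∀ c : 𝓞 L, τ (c : L) = c := fun c => congrArg (fun z : 𝓞 L => (z : L)) (h c)
  rw [map_div₀, h', h']
  rfl

omit [IsGalois ℚ L] in
/-- All but finitely many primes are unramified. -/
theorem exists_finite_inertiaTrivial :
    ∃ S₀ : Finset ℕ, ∀ q : ℕ, q.Prime → q ∉ S₀ → InertiaTrivial L q := by
  classical
  have : NumberField L := {}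
  have key : ∀ τ : L ≃ₐ[ℚ] L, ∃ δ : 𝓞 L, τ ≠ 1 → (δ ≠ 0 ∧ ∃ c, δ = τ • c - c) := by
    intro τ
    by_cases hτ : τ = 1
    · exact ⟨0, fun h => absurd hτ h⟩
    · have : ¬ ∀ c : 𝓞 L, τ • c = c := fun h => hτ (eq_one_of_forall_smul_eq L h)
      push Not at this
      obtain ⟨c, hc⟩ := this
      exact ⟨τ • c - c, fun _ => ⟨sub_ne_zero.mpr hc, c, rfl⟩⟩
  choose δ hδ using key
  refine ⟨Finset.univ.biUnion fun τ => (Ideal.absNorm (Ideal.span {δ τ})).primeFactors,
    fun q hq hqS A hA τ hτ => ?_⟩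
  by_contra hne
  obtain ⟨hδ0, c, hc⟩ := hδ τ hne
  set m := Ideal.absNorm (Ideal.span {δ τ}) with hm
  have hm0 : m ≠ 0 := by
    rw [hm, Ne, Ideal.absNorm_eq_zero_iff, Ideal.span_singleton_eq_bot]
    exact hδ0
  have hndvd : ¬ q ∣ m := fun hdvd => hqS (Finset.mem_biUnion.mpr
    ⟨τ, Finset.mem_univ _, Nat.mem_primeFactors.mpr ⟨hq, hdvd, hm0⟩⟩)
  have h1 : (q : 𝓞 L) ∈ centerIn L A := natCast_mem_centerIn L hA
  have h2 : (m : 𝓞 L) ∈ centerIn L A := by
    have hle : Ideal.span {δ τ} ≤ centerIn L A := by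
      rw [Ideal.span_singleton_le_iff_mem, hc]
      exact hτ c
    exact hle (Ideal.absNorm_mem _)
  obtain ⟨u, v, huv⟩ :=
    (Nat.isCoprime_iff_coprime.mpr (hq.coprime_iff_not_dvd.mpr hndvd) : IsCoprime (q : ℤ) m)
  have hone : (1 : 𝓞 L) ∈ centerIn L A := by
    have he : (1 : 𝓞 L) = (u : 𝓞 L) * q + (v : 𝓞 L) * m := by exact_mod_cast huv.symm
    rw [he]
    exact add_mem (Ideal.mul_mem_left _ _ h1) (Ideal.mul_mem_left _ _ h2)
  exact (centerIn_isPrime L A).ne_top ((Ideal.eq_top_iff_one _).mpr hone)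

variable {L}
variable {q : ℕ} {A : ValuationSubring Qbar}

omit [FiniteDimensional ℚ L] [IsGalois ℚ L] in
lemma centerIn_isMaximal [NumberField L] (hq : q.Prime) (hA : A.LiesOverPrime q) :
    (centerIn L A).IsMaximal :=
  (centerIn_isPrime L A).isMaximal (centerIn_ne_bot L hq hA)

omit [FiniteDimensional ℚ L] [IsGalois ℚ L] in
lemma under_centerIn (hq : q.Prime) {Q : Ideal (𝓞 L)} [Q.IsPrime] (hQ : (q : 𝓞 L) ∈ Q) :
    Q.under ℤ = Ideal.span {(q : ℤ)} := by
  have hmax : (Ideal.span {(q : ℤ)}).IsMaximal :=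
    PrincipalIdealRing.isMaximal_of_irreducible (Nat.prime_iff_prime_int.mp hq).irreducible
  refine (hmax.eq_of_le Ideal.IsPrime.ne_top' ?_).symm
  rw [Ideal.span_le, Set.singleton_subset_iff, SetLike.mem_coe, Ideal.mem_comap]
  simpa using hQ

/-- An element fixing the centre of a place acts on the residue field there as a power of
Frobenius. -/
theorem exists_inv_mul_pow_smul_sub_mem (hq : q.Prime) (hA : A.LiesOverPrime q) {σ : GQ}
    (hσ : A.IsFrobeniusAt σ q) {s : L ≃ₐ[ℚ] L} (hs : s • centerIn L A = centerIn L A) :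
    ∃ j : ℕ, ∀ c : 𝓞 L,
      (s⁻¹ * AlgEquiv.restrictNormalHom L σ ^ j) • c - c ∈ centerIn L A := by
  have : NumberField L := {}
  have : Fact q.Prime := ⟨hq⟩
  set P := centerIn L A with hP
  set φ := AlgEquiv.restrictNormalHom L σ with hφ
  have : P.IsMaximal := centerIn_isMaximal hq hA
  let := Ideal.Quotient.field P
  have : Finite (𝓞 L ⧸ P) :=
    Ring.HasFiniteQuotients.finiteQuotient (centerIn_ne_bot L hq hA)
  have : CharP (𝓞 L ⧸ P) q := by
    refine (CharP.charP_iff_prime_eq_zero hq).mpr ?_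
    rw [← map_natCast (Ideal.Quotient.mk P), Ideal.Quotient.eq_zero_iff_mem]
    exact natCast_mem_centerIn L hA
  let : Algebra (ZMod q) (𝓞 L ⧸ P) := ZMod.algebra _ q
  let e₀ : (𝓞 L ⧸ P) ≃+* (𝓞 L ⧸ P) := Ideal.quotientEquiv P P
    (MulSemiringAction.toRingEquiv _ (𝓞 L) s) (hs.symm.trans (Ideal.pointwise_smul_def P))
  let e : (𝓞 L ⧸ P) ≃ₐ[ZMod q] (𝓞 L ⧸ P) := AlgEquiv.ofRingEquiv (f := e₀) fun x =>
    RingHom.congr_fun (Subsingleton.elim
      ((e₀ : (𝓞 L ⧸ P) →+* (𝓞 L ⧸ P)).comp (algebraMap (ZMod q) (𝓞 L ⧸ P))) (algebraMap _ _)) x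
  obtain ⟨j, hj⟩ := (FiniteField.bijective_frobeniusAlgEquivOfAlgebraic_pow
    (ZMod q) (𝓞 L ⧸ P)).surjective e
  refine ⟨j.1, fun c => ?_⟩
  have hφpow : ∀ (k : ℕ) (c : 𝓞 L), Ideal.Quotient.mk P (φ ^ k • c) =
      Ideal.Quotient.mk P c ^ q ^ k := by
    intro k
    induction k with
    | zero => intro c; simp
    | succ k ih =>
      intro c
      have h1 := Ideal.Quotient.eq.mpr (isArithFrobAt_of_isFrobeniusAt L hq hA hσ c)
      rw [pow_succ, mul_smul, ih]
      show Ideal.Quotient.mk P (AlgEquiv.restrictNormalHom L σ • c) ^ q ^ k = _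
      rw [show Ideal.Quotient.mk P (AlgEquiv.restrictNormalHom L σ • c) =
        Ideal.Quotient.mk P (c ^ q) from h1, map_pow, ← pow_mul, pow_succ']
  have hfrob : ∀ (k : ℕ) (x : 𝓞 L ⧸ P),
      (FiniteField.frobeniusAlgEquivOfAlgebraic (ZMod q) (𝓞 L ⧸ P) ^ k) x = x ^ q ^ k := by
    intro k
    induction k with
    | zero => intro x; simp
    | succ k ih =>
      intro x
      rw [pow_succ, AlgEquiv.mul_apply, ih, FiniteField.coe_frobeniusAlgEquivOfAlgebraic,
        ZMod.card, ← pow_mul, pow_succ']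
  have hsub : ∀ c : 𝓞 L, φ ^ j.1 • c - s • c ∈ P := fun c => by
    rw [← Ideal.Quotient.eq, hφpow, ← hfrob]
    exact AlgEquiv.congr_fun hj (Ideal.Quotient.mk P c)
  have h2 := Ideal.smul_mem_pointwise_smul s⁻¹ _ P (hsub c)
  rw [inv_smul_eq_iff.mpr hs.symm, smul_sub, inv_smul_smul, ← mul_smul] at h2
  exact h2

/-- With trivial inertia, the decomposition group is generated by Frobenius. -/
theorem exists_pow_eq_of_smul_centerIn_eq (hq : q.Prime) (hA : A.LiesOverPrime q)
    (hU : InertiaTrivial L q) {σ : GQ} (hσ : A.IsFrobeniusAt σ q) {s : L ≃ₐ[ℚ] L}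
    (hs : s • centerIn L A = centerIn L A) :
    ∃ j : ℕ, s = AlgEquiv.restrictNormalHom L σ ^ j := by
  obtain ⟨j, hj⟩ := exists_inv_mul_pow_smul_sub_mem hq hA hσ hs
  exact ⟨j, inv_mul_eq_one.mp (hU A hA _ hj)⟩

omit [FiniteDimensional ℚ L] [IsGalois ℚ L] in
/-- The decomposition group fixes the centre of the place at every normal level. -/
theorem smul_centerIn_of_mem_decomposition [Normal ℚ L] {σ : GQ}
    (hσ : σ ∈ A.decompositionSubgroup ℚ) :
    AlgEquiv.restrictNormalHom L σ • centerIn L A = centerIn L A := by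
  rw [← centerIn_smul, show σ • A = A from hσ]

/-- **Frobenius and inertia generate the decomposition group at every finite level.** -/
theorem exists_frob_pow_mul_inertia (hq : q.Prime) (hA : A.LiesOverPrime q) {F σ : GQ}
    (hF : A.IsFrobeniusAt F q) (hσ : σ ∈ A.decompositionSubgroup ℚ)
    (L₀ : IntermediateField ℚ Qbar) [FiniteDimensional ℚ L₀] :
    ∃ n : ℕ, ∃ τ ∈ A.inertiaSubgroupIn ℚ, ∃ h ∈ L₀.fixingSubgroup, σ = F ^ n * τ * h := by
  let M := IntermediateField.normalClosure ℚ L₀ Qbar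
  have : Normal ℚ M := normalClosure.normal ℚ _ _
  have : FiniteDimensional ℚ M := normalClosure.is_finiteDimensional ℚ _ _
  have : IsGalois ℚ M := ⟨⟩
  obtain ⟨n, hn⟩ :=
    exists_inv_mul_pow_smul_sub_mem hq hA hF (smul_centerIn_of_mem_decomposition (L := M) hσ)
  obtain ⟨τ, hτ, hτres⟩ := exists_mem_inertiaSubgroupIn_restrictNormal_eq M hq hA _ hn
  refine ⟨n, τ⁻¹, inv_mem hτ, τ * (F ^ n)⁻¹ * σ, ?_, by group⟩
  refine IntermediateField.fixingSubgroup_antitone (IntermediateField.le_normalClosure L₀)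
    ((restrictNormalHom_eq_one_iff M _).mp ?_)
  rw [map_mul, map_mul, map_inv, map_pow, hτres, mul_assoc _ _ (_ ^ n)⁻¹, mul_inv_cancel, mul_one,
    inv_mul_cancel]

variable (D : Subgroup (L ≃ₐ[ℚ] L))

local notation "fixK" => IntermediateField.fixedField D

omit [FiniteDimensional ℚ L] [IsGalois ℚ L] in
/-- Elements of `D` fix the integers of the fixed field. -/
private lemma smul_algebraMap_fixedField {d : L ≃ₐ[ℚ] L} (hd : d ∈ D) (c : 𝓞 fixK) :
    d • algebraMap (𝓞 fixK) (𝓞 L) c = algebraMap (𝓞 fixK) (𝓞 L) c := by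
  apply NumberField.RingOfIntegers.coe_injective
  exact (c : fixK).2 ⟨d, hd⟩

omit [FiniteDimensional ℚ L] [IsGalois ℚ L] in
/-- `D` commutes with the scalar action of the integers of its fixed field. -/
private lemma smulCommClass_fixedField : SMulCommClass D (𝓞 fixK) (𝓞 L) :=
  ⟨fun d a b => by
    rw [Algebra.smul_def, Algebra.smul_def, Submonoid.smul_def, smul_mul',
      smul_algebraMap_fixedField D d.2 a]
    rfl⟩

omit [FiniteDimensional ℚ L] [IsGalois ℚ L] in
/-- The integers of the fixed field are the `D`-invariant integers of `L`. -/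
private lemma isInvariant_fixedField : Algebra.IsInvariant (𝓞 fixK) (𝓞 L) D :=
  ⟨fun b hb => by
    have hmem : (b : L) ∈ fixK := fun d => congrArg (fun z : 𝓞 L => (z : L)) (hb d)
    refine ⟨⟨⟨(b : L), hmem⟩, ?_⟩, ?_⟩
    · exact (isIntegral_algHom_iff (IsScalarTower.toAlgHom ℤ fixK L)
        (algebraMap fixK L).injective).mp b.2
    · apply NumberField.RingOfIntegers.coe_injective
      rfl⟩

/-- The conjugate `t φ t⁻¹` of Frobenius acts as `x ↦ x ^ q` modulo `t • P`. -/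
private lemma conj_frob_smul_sub_mem [NumberField L] (hq : q.Prime) (hA : A.LiesOverPrime q)
    {σ : GQ} (hσ : A.IsFrobeniusAt σ q) (t : L ≃ₐ[ℚ] L) (c : 𝓞 L) :
    (t * AlgEquiv.restrictNormalHom L σ * t⁻¹) • c - c ^ q ∈ t • centerIn L A := by
  rw [Ideal.mem_pointwise_smul_iff_inv_smul_mem, smul_sub, mul_smul, mul_smul, inv_smul_smul,
    smul_pow']
  exact isArithFrobAt_of_isFrobeniusAt L hq hA hσ _

omit [FiniteDimensional ℚ L] [IsGalois ℚ L] in
/-- Every conjugate of the prime cut out by `A` contains `q`. -/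
private lemma natCast_mem_smul_centerIn (hA : A.LiesOverPrime q) (t : L ≃ₐ[ℚ] L) :
    (q : 𝓞 L) ∈ t • centerIn L A := by
  rw [Ideal.mem_pointwise_smul_iff_inv_smul_mem,
    show t⁻¹ • (q : 𝓞 L) = q from map_natCast (MulSemiringAction.toRingHom _ (𝓞 L) t⁻¹) q]
  exact natCast_mem_centerIn L hA

omit [FiniteDimensional ℚ L] [IsGalois ℚ L] in
/-- Conjugates of the prime cut out by `A` are prime. -/
private lemma isPrime_smul_centerIn [NumberField L] (hq : q.Prime) (hA : A.LiesOverPrime q)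
    (t : L ≃ₐ[ℚ] L) : (t • centerIn L A).IsPrime := by
  have : (centerIn L A).IsMaximal := centerIn_isMaximal hq hA
  rw [Ideal.pointwise_smul_eq_comap]
  exact Ideal.IsPrime.comap _

/-- If `t φ t⁻¹ ∈ D`, then the prime of the fixed field below `t • P` has norm `q`: Frobenius acts
trivially on its residue field. -/
private lemma absNorm_under_smul_centerIn [NumberField L] [NumberField fixK] (hq : q.Prime)
    (hA : A.LiesOverPrime q) {σ : GQ} (hσ : A.IsFrobeniusAt σ q) {t : L ≃ₐ[ℚ] L}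
    (ht : t * AlgEquiv.restrictNormalHom L σ * t⁻¹ ∈ D) :
    Ideal.absNorm ((t • centerIn L A).under (𝓞 fixK)) = q := by
  have : Fact q.Prime := ⟨hq⟩
  have := isPrime_smul_centerIn hq hA t
  set J := (t • centerIn L A).under (𝓞 fixK) with hJ
  have : J.IsPrime := Ideal.IsPrime.comap _
  have hqJ : (q : 𝓞 fixK) ∈ J := by
    show algebraMap (𝓞 fixK) (𝓞 L) q ∈ t • centerIn L A
    rw [map_natCast]
    exact natCast_mem_smul_centerIn hA t
  have hJ0 : J ≠ ⊥ := fun h => by
    rw [h, Ideal.mem_bot, Nat.cast_eq_zero] at hqJ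
    exact hq.ne_zero hqJ
  have : J.IsMaximal := ‹J.IsPrime›.isMaximal hJ0
  let := Ideal.Quotient.field J
  have : Finite (𝓞 fixK ⧸ J) := Ring.HasFiniteQuotients.finiteQuotient hJ0
  have : CharP (𝓞 fixK ⧸ J) q := by
    refine (CharP.charP_iff_prime_eq_zero hq).mpr ?_
    rw [← map_natCast (Ideal.Quotient.mk J), Ideal.Quotient.eq_zero_iff_mem]
    exact hqJ
  let : Algebra (ZMod q) (𝓞 fixK ⧸ J) := ZMod.algebra _ q
  have hpow : FiniteField.frobeniusAlgEquivOfAlgebraic (ZMod q) (𝓞 fixK ⧸ J) = 1 := by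
    refine AlgEquiv.ext fun x => ?_
    obtain ⟨c, rfl⟩ := Ideal.Quotient.mk_surjective x
    rw [FiniteField.coe_frobeniusAlgEquivOfAlgebraic, ZMod.card, AlgEquiv.one_apply]
    show Ideal.Quotient.mk J c ^ q = Ideal.Quotient.mk J c
    rw [← map_pow, eq_comm, Ideal.Quotient.eq]
    show algebraMap (𝓞 fixK) (𝓞 L) (c - c ^ q) ∈ t • centerIn L A
    have h1 := conj_frob_smul_sub_mem hq hA hσ t (algebraMap (𝓞 fixK) (𝓞 L) c)
    rw [smul_algebraMap_fixedField D ht c] at h1
    rwa [map_sub, map_pow]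
  rw [Ideal.absNorm_apply, Submodule.cardQuot_apply,
    Module.natCard_eq_pow_finrank (K := ZMod q),
    ← FiniteField.orderOf_frobeniusAlgEquivOfAlgebraic, hpow, orderOf_one, pow_one, Nat.card_zmod]

/-- A prime of norm `q` of the fixed field lies below some conjugate `t • P`. -/
private lemma exists_under_smul_centerIn_eq [NumberField L] [NumberField fixK] (hq : q.Prime)
    (hA : A.LiesOverPrime q) {I : Ideal (𝓞 fixK)} (hI : Ideal.absNorm I = q) :
    ∃ t : L ≃ₐ[ℚ] L, (t • centerIn L A).under (𝓞 fixK) = I := by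
  have : (centerIn L A).IsMaximal := centerIn_isMaximal hq hA
  have hIp : I.IsPrime := Ideal.isPrime_of_irreducible_absNorm (hI ▸ hq)
  have hinj : Function.Injective (algebraMap (𝓞 fixK) (𝓞 L)) := fun a b h => by
    apply NumberField.RingOfIntegers.coe_injective
    exact (algebraMap fixK L).injective (congrArg (fun z : 𝓞 L => (z : L)) h)
  have : Algebra.IsIntegral (𝓞 fixK) (𝓞 L) :=
    ⟨fun x => (Algebra.IsIntegral.isIntegral (R := ℤ) x).tower_top⟩
  obtain ⟨Q, -, hQ, hQI⟩ := Ideal.exists_ideal_over_prime_of_isIntegral I (⊥ : Ideal (𝓞 L))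
    (by rw [Ideal.comap_bot_of_injective _ hinj]; exact bot_le)
  have hqQ : (q : 𝓞 L) ∈ Q := by
    have h1 : (q : 𝓞 fixK) ∈ I := hI ▸ Ideal.absNorm_mem I
    rw [← hQI, Ideal.mem_comap, map_natCast] at h1
    exact h1
  have := hQ
  obtain ⟨t, rfl⟩ := Algebra.IsInvariant.exists_smul_of_under_eq ℤ (𝓞 L) (L ≃ₐ[ℚ] L)
    (centerIn L A) Q
    (by rw [under_centerIn hq (natCast_mem_centerIn L hA), under_centerIn hq hqQ])
  exact ⟨t, hQI⟩

/-- If `t • P` lies above a prime of norm `q`, then `t φ t⁻¹ ∈ D`: by trivial inertia it is the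
Frobenius of `D` at `t • P`. -/
private lemma conj_frob_mem_of_absNorm_eq [NumberField L] [NumberField fixK] (hq : q.Prime)
    (hA : A.LiesOverPrime q) (hU : InertiaTrivial L q) {σ : GQ} (hσ : A.IsFrobeniusAt σ q)
    {t : L ≃ₐ[ℚ] L} (hI : Ideal.absNorm ((t • centerIn L A).under (𝓞 fixK)) = q) :
    t * AlgEquiv.restrictNormalHom L σ * t⁻¹ ∈ D := by
  set φ := AlgEquiv.restrictNormalHom L σ
  have := isPrime_smul_centerIn hq hA t
  have := smulCommClass_fixedField D
  have := isInvariant_fixedField D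
  have : Finite (𝓞 L ⧸ t • centerIn L A) := Ring.HasFiniteQuotients.finiteQuotient fun h => by
    have hqt := natCast_mem_smul_centerIn hA t
    rw [h, Ideal.mem_bot, Nat.cast_eq_zero] at hqt
    exact hq.ne_zero hqt
  obtain ⟨d, hd⟩ := IsArithFrobAt.exists_of_isInvariant (𝓞 fixK) D (t • centerIn L A)
  have hd' : ∀ c : 𝓞 L, (d : L ≃ₐ[ℚ] L) • c - c ^ q ∈ t • centerIn L A := fun c => by
    have h1 := hd c
    rwa [← Submodule.cardQuot_apply, ← Ideal.absNorm_apply, hI] at h1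
  have key : t⁻¹ * (d : L ≃ₐ[ℚ] L) * t * φ⁻¹ = 1 := hU A hA _ fun c => by
    have h := Ideal.sub_mem _ (hd' (t • φ⁻¹ • c))
      (conj_frob_smul_sub_mem hq hA hσ t (t • φ⁻¹ • c))
    rw [sub_sub_sub_cancel_right, Ideal.mem_pointwise_smul_iff_inv_smul_mem, smul_sub] at h
    simpa [φ, mul_smul] using h
  have hval : t * φ * t⁻¹ = (d : L ≃ₐ[ℚ] L) := by
    rw [← (mul_inv_eq_one.mp key : t⁻¹ * (d : L ≃ₐ[ℚ] L) * t = φ)]
    group
  rw [hval]
  exact d.2

omit [FiniteDimensional ℚ L] [IsGalois ℚ L] in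
/-- Translating `t` on the left by `D` does not change the prime below `t • P`. -/
private lemma under_mul_smul_centerIn {d : L ≃ₐ[ℚ] L} (hd : d ∈ D) (t : L ≃ₐ[ℚ] L) :
    ((d * t) • centerIn L A).under (𝓞 fixK) = (t • centerIn L A).under (𝓞 fixK) := by
  ext c
  show algebraMap (𝓞 fixK) (𝓞 L) c ∈ (d * t) • centerIn L A ↔
    algebraMap (𝓞 fixK) (𝓞 L) c ∈ t • centerIn L A
  rw [mul_smul, Ideal.mem_pointwise_smul_iff_inv_smul_mem,
    smul_algebraMap_fixedField D (inv_mem hd)]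

/-- If `t₀ • P` and `t • P` lie above the same prime of the fixed field and `t φ t⁻¹ ∈ D`, then
`t ∈ D t₀`. -/
private lemma exists_mem_mul_eq [NumberField L] (hq : q.Prime) (hA : A.LiesOverPrime q)
    (hU : InertiaTrivial L q) {σ : GQ} (hσ : A.IsFrobeniusAt σ q) {t t₀ : L ≃ₐ[ℚ] L}
    (ht : t * AlgEquiv.restrictNormalHom L σ * t⁻¹ ∈ D)
    (h : (t₀ • centerIn L A).under (𝓞 fixK) = (t • centerIn L A).under (𝓞 fixK)) :
    ∃ d ∈ D, d * t₀ = t := by
  have := smulCommClass_fixedField D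
  have := isInvariant_fixedField D
  have := isPrime_smul_centerIn hq hA t
  have := isPrime_smul_centerIn hq hA t₀
  set φ := AlgEquiv.restrictNormalHom L σ
  obtain ⟨d, hd⟩ := Algebra.IsInvariant.exists_smul_of_under_eq (𝓞 fixK) (𝓞 L) D
    (t₀ • centerIn L A) (t • centerIn L A) h
  have hst : (t⁻¹ * d.1 * t₀) • centerIn L A = centerIn L A := by
    rw [mul_smul, mul_smul, inv_smul_eq_iff]
    exact hd.symm
  obtain ⟨j, hj⟩ := exists_pow_eq_of_smul_centerIn_eq hq hA hU hσ hst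
  refine ⟨((t * φ * t⁻¹) ^ j)⁻¹ * d.1, mul_mem (inv_mem (pow_mem ht j)) d.2, ?_⟩
  rw [conj_pow, ← hj]
  group

/-- The key counting identity. -/
theorem idealCount_fixedField_mul_card [NumberField L]
    [NumberField (IntermediateField.fixedField D)]
    (hq : q.Prime) (hA : A.LiesOverPrime q) (hU : InertiaTrivial L q) {σ : GQ}
    (hσ : A.IsFrobeniusAt σ q) :
    idealCount (IntermediateField.fixedField D) q * Nat.card D =
      Nat.card {t : L ≃ₐ[ℚ] L // t * AlgEquiv.restrictNormalHom L σ * t⁻¹ ∈ D} := by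
  set φ := AlgEquiv.restrictNormalHom L σ with hφ
  choose sec hsec using fun I : {I : Ideal (𝓞 fixK) // Ideal.absNorm I = q} =>
    exists_under_smul_centerIn_eq D hq hA I.2
  have hsecD : ∀ I, sec I * φ * (sec I)⁻¹ ∈ D := fun I =>
    conj_frob_mem_of_absNorm_eq D hq hA hU hσ (by rw [hsec]; exact I.2)
  let g : {I : Ideal (𝓞 fixK) // Ideal.absNorm I = q} × D →
      {t : L ≃ₐ[ℚ] L // t * φ * t⁻¹ ∈ D} := fun x =>
    ⟨x.2.1 * sec x.1, by
      rw [show x.2.1 * sec x.1 * φ * (x.2.1 * sec x.1)⁻¹ =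
        x.2.1 * (sec x.1 * φ * (sec x.1)⁻¹) * x.2.1⁻¹ by group]
      exact mul_mem (mul_mem x.2.2 (hsecD x.1)) (inv_mem x.2.2)⟩
  have hginj : Function.Injective g := by
    rintro ⟨I, d⟩ ⟨I', d'⟩ h
    have h' : d.1 * sec I = d'.1 * sec I' := congrArg Subtype.val h
    have hII : I = I' := Subtype.ext <| by
      rw [← hsec I, ← hsec I', ← under_mul_smul_centerIn D d.2, h',
        under_mul_smul_centerIn D d'.2]
    subst hII
    exact Prod.ext rfl (Subtype.ext (mul_right_cancel h'))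
  have hgsurj : Function.Surjective g := by
    rintro ⟨t, ht⟩
    let I : {I : Ideal (𝓞 fixK) // Ideal.absNorm I = q} :=
      ⟨_, absNorm_under_smul_centerIn D hq hA hσ ht⟩
    obtain ⟨d, hd, hdt⟩ := exists_mem_mul_eq D hq hA hU hσ ht (hsec I)
    exact ⟨⟨I, ⟨d, hd⟩⟩, Subtype.ext hdt⟩
  rw [idealCount, ← Nat.card_prod]
  exact Nat.card_congr (Equiv.ofBijective g ⟨hginj, hgsurj⟩)

end FermatAgent.GaloisBasic
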