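import Mathlib.RingTheory.AdicCompletion.Basic

/-!
# Limits of successive approximations
-/

set_option autoImplicit false

namespace FermatAgent.GaloisBasic

/-- A sequence with successive differences in the powers of `I` has a limit. -/
theorem exists_limit_of_succ {R : Type*} [CommRing R] (I : Ideal R) [IsPrecomplete I R]
    (f : ℕ → R) (h : ∀ n, f (n + 1) - f n ∈ I ^ n) : ∃ L, ∀ n, L - f n ∈ I ^ n := by
  obtain ⟨L, hL⟩ := IsPrecomplete.prec' (I := I) f
    (fun {m n} hmn => (AdicCompletion.isAdicCauchy_iff I R f).mpr (fun k => SModEq.symm (by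
      rw [SModEq.sub_mem, smul_eq_mul, Ideal.mul_top]; exact h k)) hmn)
  exact ⟨L, fun n => by simpa [SModEq.sub_mem] using (hL n).symm⟩

end FermatAgent.GaloisBasic
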