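import Mathlib

/-!
# Freeness from regular sequences of full length over rings with few generators
-/

set_option autoImplicit false

noncomputable section

open IsLocalRing RingTheory.Sequence CategoryTheory Abelian Limits Pointwise

namespace FermatAgent.GaloisBasic

variable {R : Type} [CommRing R]

lemma exists_isRegular_quotSMulTop [IsLocalRing R] [IsNoetherianRing R]
    {N : Type} [AddCommGroup N] [Module R N] [Module.Finite R N]
    {n : ℕ} {rs : List R} (hlen : rs.length = n + 1) (hmem : ∀ r ∈ rs, r ∈ maximalIdeal R)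
    (hreg : IsRegular N rs) {x : R} (hx : IsSMulRegular N x) (hxm : x ∈ maximalIdeal R) :
    ∃ rs' : List R, rs'.length = n ∧ (∀ r ∈ rs', r ∈ maximalIdeal R) ∧
      IsRegular (QuotSMulTop x N) rs' := by
  have := hreg.nontrivial
  let M : ModuleCat R := ModuleCat.of R N
  have hlt : maximalIdeal R • (⊤ : Submodule R N) < ⊤ :=
    (Submodule.top_ne_ideal_smul_of_le_jacobson_annihilator
      (maximalIdeal_le_jacobson _)).symm.lt_top
  have hlt' : maximalIdeal R • (⊤ : Submodule R (QuotSMulTop x N)) < ⊤ := by
    have : Nontrivial (QuotSMulTop x N) := nontrivial_quotSMulTop_of_mem_maximalIdeal N hxm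
    exact (Submodule.top_ne_ideal_smul_of_le_jacobson_annihilator
      (maximalIdeal_le_jacobson _)).symm.lt_top
  have h := (ModuleCat.exists_isRegular_tfae (maximalIdeal R) (n + 1) M hlt).out 3 1
  have hext := h.mp ⟨rs, hlen, hmem, hreg⟩
  set K : ModuleCat R := ModuleCat.of R (Shrink.{0} (R ⧸ maximalIdeal R)) with hK
  have hext' : ∀ i < n, Subsingleton (Ext K (ModuleCat.of R (QuotSMulTop x N)) i) := by
    intro i hi
    have zero1 := AddCommGrpCat.isZero_of_iff_subsingleton.mpr (hext i (by omega))
    have zero2 := AddCommGrpCat.isZero_of_iff_subsingleton.mpr (hext (i + 1) (by omega))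
    exact AddCommGrpCat.subsingleton_of_isZero <| ShortComplex.Exact.isZero_of_both_zeros
      ((Ext.covariant_sequence_exact₃' K (IsSMulRegular.smulShortComplex_shortExact
        (M := M) hx) i (i + 1) rfl))
      (zero1.eq_zero_of_src _) (zero2.eq_zero_of_tgt _)
  exact ((ModuleCat.exists_isRegular_tfae (maximalIdeal R) n
    (ModuleCat.of R (QuotSMulTop x N)) hlt').out 1 3).mp hext'

lemma exists_isSMulRegular_notMem_sq [IsLocalRing R] [IsNoetherianRing R]
    {N : Type} [AddCommGroup N] [Module R N] [Module.Finite R N] [Nontrivial N]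
    {a : R} (ham : a ∈ maximalIdeal R) (ha : IsSMulRegular N a) :
    ∃ x ∈ maximalIdeal R, x ∉ maximalIdeal R ^ 2 ∧ IsSMulRegular N x := by
  classical
  by_contra hno
  push Not at hno
  have hass : (associatedPrimes R N).Finite := associatedPrimes.finite R N
  let s : Finset (Ideal R) := insert (maximalIdeal R ^ 2) hass.toFinset
  have hsub : ((maximalIdeal R : Ideal R) : Set R) ⊆ ⋃ I ∈ (↑s : Set (Ideal R)), (I : Set R) := by
    intro x hx
    rw [Set.mem_iUnion₂]
    by_cases h2 : x ∈ maximalIdeal R ^ 2
    · exact ⟨_, Finset.mem_insert_self _ _, h2⟩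
    · have hx' : x ∈ ⋃ p ∈ associatedPrimes R N, (p : Set R) := by
        rw [biUnion_associatedPrimes_eq_zero_divisors]
        by_contra hh
        refine hno x hx h2 ?_
        rw [isSMulRegular_iff_right_eq_zero_of_smul]
        intro m hm
        by_contra hm0
        exact hh ⟨m, hm0, hm⟩
      obtain ⟨p, hp, hxp⟩ := Set.mem_iUnion₂.mp hx'
      exact ⟨p, Finset.mem_insert_of_mem (hass.mem_toFinset.mpr hp), hxp⟩
  obtain ⟨I, hI, hle⟩ := (Ideal.subset_union_prime (maximalIdeal R ^ 2) (maximalIdeal R ^ 2)
    (fun I hI hne _ => by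
      rw [Finset.mem_insert] at hI
      exact ((hass.mem_toFinset.mp (hI.resolve_left hne))).1)).mp hsub
  rcases Finset.mem_insert.mp hI with rfl | hI
  · have hbot : maximalIdeal R = ⊥ := by
      refine Submodule.eq_bot_of_le_smul_of_le_jacobson_bot (maximalIdeal R) _
        (IsNoetherian.noetherian _) ?_ (maximalIdeal_le_jacobson _)
      rwa [pow_two, ← smul_eq_mul] at hle
    rw [hbot, Ideal.mem_bot] at ham
    subst ham
    obtain ⟨m, hm⟩ := exists_ne (0 : N)
    exact hm (ha (by simp : (0 : R) • m = (0 : R) • 0))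
  · have hap : a ∈ I := hle ham
    have : a ∈ ⋃ p ∈ associatedPrimes R N, (p : Set R) :=
      Set.mem_iUnion₂.mpr ⟨I, hass.mem_toFinset.mp hI, hap⟩
    rw [biUnion_associatedPrimes_eq_zero_divisors] at this
    obtain ⟨m, hm0, hm⟩ := this
    exact hm0 (ha.right_eq_zero_of_smul hm)

/-- A finite module over a Noetherian local ring whose maximal ideal needs at most `n` generators
is free as soon as it admits a regular sequence of length `n` in the maximal ideal. -/
theorem free_of_isRegular_length : ∀ (n : ℕ) {R : Type} [CommRing R] [IsLocalRing R]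
    [IsNoetherianRing R] (gen : Fin n → R) (_ : Ideal.span (Set.range gen) = maximalIdeal R)
    (N : Type) [AddCommGroup N] [Module R N] [Module.Finite R N] (rs : List R)
    (_ : rs.length = n) (_ : ∀ r ∈ rs, r ∈ maximalIdeal R) (_ : IsRegular N rs),
    Module.Free R N
  | 0, R, _, _, _, gen, hgen, N, _, _, _, rs, _, _, _ => by
    have hbot : maximalIdeal R = ⊥ := by rw [← hgen]; simp [Set.range_eq_empty]
    let := (IsLocalRing.isField_iff_maximalIdeal_eq.mpr hbot).toField
    exact Module.Free.of_divisionRing R N
  | n + 1, R, _, _, _, gen, hgen, N, _, _, _, rs, hlen, hmem, hreg => by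
    have := hreg.nontrivial
    obtain ⟨a, rs₀, rfl⟩ : ∃ a l, rs = a :: l := by
      cases rs with
      | nil => simp at hlen
      | cons a l => exact ⟨a, l, rfl⟩
    have ha : IsSMulRegular N a := ((isRegular_cons_iff N a rs₀).mp hreg).1
    obtain ⟨x, hxm, hx2, hxreg⟩ :=
      exists_isSMulRegular_notMem_sq (hmem a List.mem_cons_self) ha
    obtain ⟨rs', hlen', hmem', hreg'⟩ :=
      exists_isRegular_quotSMulTop hlen hmem hreg hxreg hxm
    have hx' := hxm
    rw [← hgen, Ideal.mem_span_range_iff_exists_fun] at hx'
    obtain ⟨c, hc⟩ := hx'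
    obtain ⟨i, hi⟩ : ∃ i, IsUnit (c i) := by
      by_contra hh
      push Not at hh
      apply hx2
      rw [← hc, pow_two]
      exact Ideal.sum_mem _ fun j _ => Ideal.mul_mem_mul (hh j) (hgen ▸ Ideal.subset_span ⟨j, rfl⟩)
    let R' := R ⧸ Ideal.span {x}
    have : Nontrivial R' := Ideal.Quotient.nontrivial_iff.mpr (by
      intro h
      have : Ideal.span {x} ≤ maximalIdeal R := (Ideal.span_singleton_le_iff_mem _).mpr hxm
      rw [h] at this
      exact (maximalIdeal.isMaximal R).ne_top (top_le_iff.mp this))
    let mkR : R →+* R' := Ideal.Quotient.mk _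
    have : IsLocalRing R' := IsLocalRing.of_surjective' mkR Ideal.Quotient.mk_surjective
    have hmax : maximalIdeal R' = (maximalIdeal R).map mkR :=
      (IsLocalRing.map_maximalIdeal_of_surjective mkR Ideal.Quotient.mk_surjective).symm
    have hgen' : Ideal.span (Set.range fun j : Fin n => mkR (gen (i.succAbove j))) =
        maximalIdeal R' := by
      rw [hmax, ← hgen, Ideal.map_span, ← Set.range_comp]
      apply le_antisymm
      · exact Ideal.span_mono (by rintro _ ⟨j, rfl⟩; exact ⟨_, rfl⟩)
      · rw [Ideal.span_le]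
        rintro _ ⟨j, rfl⟩
        rcases Fin.eq_self_or_eq_succAbove i j with rfl | ⟨j', rfl⟩
        · have h0 : mkR x = 0 := Ideal.Quotient.eq_zero_iff_mem.mpr (Ideal.subset_span rfl)
          replace h0 := (congrArg mkR hc).trans h0
          rw [map_sum, Fin.sum_univ_succAbove _ j, map_mul] at h0
          obtain ⟨u, hu⟩ := hi.map mkR
          have : mkR (gen j) = -((u⁻¹ : R'ˣ) : R') *
              ∑ k, mkR (c (j.succAbove k) * gen (j.succAbove k)) := by
            have h1 : (u : R') * mkR (gen j) =
                -∑ k, mkR (c (j.succAbove k) * gen (j.succAbove k)) := by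
              rw [hu]; exact eq_neg_of_add_eq_zero_left h0
            calc mkR (gen j) = ((u⁻¹ : R'ˣ) : R') * ((u : R') * mkR (gen j)) := by simp
              _ = _ := by rw [h1]; ring
          simp only [Function.comp_apply, SetLike.mem_coe, this]
          refine Ideal.mul_mem_left _ _ (Ideal.sum_mem _ fun k _ => ?_)
          rw [map_mul]
          exact Ideal.mul_mem_left _ _ (Ideal.subset_span ⟨k, rfl⟩)
        · exact Ideal.subset_span ⟨j', rfl⟩
    have : Module.Finite R' (QuotSMulTop x N) :=
      Module.Finite.of_restrictScalars_finite R R' (QuotSMulTop x N)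
    have hregR' : IsRegular (QuotSMulTop x N) (rs'.map mkR) := by
      have := hreg'.nontrivial
      refine IsRegular.of_isWeaklyRegular_of_mem_maximalIdeal _ ?_ ?_
      · intro r hr
        obtain ⟨r0, hr0, rfl⟩ := List.mem_map.mp hr
        rw [hmax]
        exact Ideal.mem_map_of_mem _ (hmem' r0 hr0)
      · exact (isWeaklyRegular_map_algebraMap_iff R' (QuotSMulTop x N) rs').mpr
          hreg'.toIsWeaklyRegular
    have hfree : Module.Free R' (QuotSMulTop x N) :=
      free_of_isRegular_length n _ hgen' (QuotSMulTop x N) (rs'.map mkR)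
        (by simp [hlen']) (by
          intro r hr
          obtain ⟨r0, hr0, rfl⟩ := List.mem_map.mp hr
          rw [hmax]
          exact Ideal.mem_map_of_mem _ (hmem' r0 hr0)) hregR'
    have : Module.FinitePresentation R N := Module.finitePresentation_of_finite R N
    exact (Module.free_quotSMulTop_iff_free R N
      (maximalIdeal_le_jacobson _ hxm) hxreg).mp hfree

end FermatAgent.GaloisBasic
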